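import Fermat.Agent.GolodShafarevich.LocalTame
import Fermat.Agent.ScholzReichardt.HasseTwo
import Fermat.Agent.ScholzReichardt.HassePrinciple
import Fermat.Agent.ScholzReichardt.Twist

/-!
# Lifts in classes of tame ramification

A central embedding problem whose relations hold has a solution in the same class. So the
homomorphism to a finite `p`-group extends to the elementary abelian central extension cut out of a
free group by its local relations.
-/

set_option autoImplicit false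
set_option linter.unusedSectionVars false

noncomputable section

namespace Fermat.Agent.GolodShafarevich

open FA.GalCoh ScholzReichardt
open scoped Pointwise

variable {p : ℕ} [hp : Fact p.Prime]

/-- `p`-power image, unramified outside `S` and inertia of exponent dividing `m` at the primes of
`S` (no condition for `m = 0`). -/
structure InClass (p m : ℕ) (S : Finset Nat.Primes) {G : Type} [Group G] (ρ : GQ →* G) :
    Prop where
  isOpen : IsOpen (ρ.ker : Set GQ)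
  pPow : ∀ g, ∃ k, ρ g ^ p ^ k = 1
  unr : ∀ q : Nat.Primes, q ∉ S → UnrAt ρ (q : ℕ)
  expo : ∀ q : Nat.Primes, q ∈ S → ∀ ι ∈ inertL (q : ℕ), ρ (loc (q : ℕ) ι) ^ m = 1

variable {m : ℕ} {S : Finset Nat.Primes}

theorem InClass.prod {G H : Type} [Group G] [Group H] {ρ : GQ →* G} {σ : GQ →* H}
    (h : InClass p m S ρ) (h' : InClass p m S σ) : InClass p m S (ρ.prod σ) where
  isOpen := by rw [MonoidHom.ker_prod, Subgroup.coe_inf]; exact h.isOpen.inter h'.isOpen
  pPow g := by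
    obtain ⟨a, ha⟩ := h.pPow g
    obtain ⟨b, hb⟩ := h'.pPow g
    refine ⟨a + b, Prod.ext ?_ ?_⟩
    · show ρ g ^ p ^ (a + b) = 1
      rw [pow_add, pow_mul, ha, one_pow]
    · show σ g ^ p ^ (a + b) = 1
      rw [pow_add, mul_comm, pow_mul, hb, one_pow]
  unr q hq ι hι := Prod.ext (h.unr q hq ι hι) (h'.unr q hq ι hι)
  expo q hq ι hι := Prod.ext (h.expo q hq ι hι) (h'.expo q hq ι hι)

theorem InClass.rangeRestrict {G : Type} [Group G] {ρ : GQ →* G} (h : InClass p m S ρ) :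
    InClass p m S ρ.rangeRestrict where
  isOpen := by rw [MonoidHom.ker_rangeRestrict]; exact h.isOpen
  pPow g := by
    obtain ⟨k, hk⟩ := h.pPow g
    exact ⟨k, Subtype.ext hk⟩
  unr q hq ι hι := Subtype.ext (h.unr q hq ι hι)
  expo q hq ι hι := Subtype.ext (h.expo q hq ι hι)

theorem InClass.isPGroup {G : Type} [Group G] {ρ : GQ →* G} (h : InClass p m S ρ)
    (hρ : Function.Surjective ρ) : IsPGroup p G := fun g => by
  obtain ⟨x, rfl⟩ := hρ g
  exact h.pPow x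

theorem InClass.map {G H : Type} [Group G] [Group H] {ρ : GQ →* G} (h : InClass p m S ρ)
    (f : G →* H) : InClass p m S (f.comp ρ) where
  isOpen := Subgroup.isOpen_mono (fun x hx => MonoidHom.mem_ker.2 (by
    rw [MonoidHom.comp_apply, MonoidHom.mem_ker.1 hx, map_one])) h.isOpen
  pPow g := by
    obtain ⟨k, hk⟩ := h.pPow g
    exact ⟨k, by rw [MonoidHom.comp_apply, ← map_pow, hk, map_one]⟩
  unr q hq ι hι := by rw [MonoidHom.comp_apply, h.unr q hq ι hι, map_one]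
  expo q hq ι hι := by rw [MonoidHom.comp_apply, ← map_pow, h.expo q hq ι hι, map_one]

/-- An elementary abelian group has enough characters. -/
theorem exists_hom_ne_one {Q : Type} [CommGroup Q] (hQ : ∀ x : Q, x ^ p = 1) {a : Q}
    (ha : a ≠ 1) : ∃ φ : Q →* Multiplicative (ZMod p), φ a ≠ 1 := by
  classical
  let _ : Module (ZMod p) (Additive Q) := AddCommGroup.zmodModule (n := p) fun x =>
    Additive.toMul.injective (hQ (Additive.toMul x))
  obtain ⟨f, hf⟩ : ∃ f : Additive Q →ₗ[ZMod p] ZMod p, f (Additive.ofMul a) ≠ 0 := by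
    let B := Module.Basis.ofVectorSpace (ZMod p) (Additive Q)
    by_contra! h
    exact ha (Additive.ofMul.injective
      (B.forall_coord_eq_zero_iff.1 fun i => h (B.coord i)))
  exact ⟨MonoidHom.mk' (fun x => Multiplicative.ofAdd (f (Additive.ofMul x))) fun x y => by
    rw [ofMul_mul, map_add, ofAdd_add], fun h => hf (Multiplicative.ofAdd.injective h)⟩

/-- A functional on an elementary abelian central quotient. -/
theorem exists_functional {F : Type} [Group F] (R Kc : Subgroup F) [Kc.Normal]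
    (hpow : ∀ r ∈ R, r ^ p ∈ Kc) (hcomm : ∀ r ∈ R, ∀ f, r * f * r⁻¹ * f⁻¹ ∈ Kc) {c : F}
    (hc : c ∈ R) (hcK : c ∉ Kc) :
    ∃ χ : R →* Multiplicative (ZMod p), (∀ r : R, (r : F) ∈ Kc → χ r = 1) ∧ χ ⟨c, hc⟩ ≠ 1 := by
  classical
  let N : Subgroup R := Kc.subgroupOf R
  let _ : CommGroup (R ⧸ N) :=
    { (inferInstance : Group (R ⧸ N)) with
      mul_comm := fun a b => by
        induction a using QuotientGroup.induction_on with | H a => ?_
        induction b using QuotientGroup.induction_on with | H b => ?_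
        rw [← QuotientGroup.mk_mul, ← QuotientGroup.mk_mul, QuotientGroup.eq]
        show ((a * b)⁻¹ * (b * a) : R).1 ∈ Kc
        have e := hcomm _ (inv_mem b.2) (a : F)⁻¹
        rw [show ((a * b)⁻¹ * (b * a) : R).1 = (b : F)⁻¹ * (a : F)⁻¹ * ((b : F)⁻¹)⁻¹ * ((a : F)⁻¹)⁻¹
          by simp [mul_assoc]]
        exact e }
  obtain ⟨φ, hφ⟩ := exists_hom_ne_one (p := p) (Q := R ⧸ N) (fun x => by
    obtain ⟨a, rfl⟩ := QuotientGroup.mk_surjective x
    rw [← QuotientGroup.mk_pow]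
    exact (QuotientGroup.eq_one_iff _).2
      (Subgroup.mem_subgroupOf.2 (hpow _ a.2 : ((a : R) : F) ^ p ∈ Kc)))
    (a := ((⟨c, hc⟩ : R) : R ⧸ N)) fun h => hcK
      (Subgroup.mem_subgroupOf.1 ((QuotientGroup.eq_one_iff _).1 h))
  refine ⟨φ.comp (QuotientGroup.mk' N), fun r hr => ?_, hφ⟩
  rw [MonoidHom.comp_apply, QuotientGroup.mk'_apply,
    (QuotientGroup.eq_one_iff r).2 (Subgroup.mem_subgroupOf.2 hr), map_one]

/-- A finite elementary abelian group has coordinates. -/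
theorem exists_coords {Q : Type} [CommGroup Q] [Finite Q] (hQ : ∀ x : Q, x ^ p = 1) :
    ∃ n : ℕ, Nonempty (Q ≃* Multiplicative (Fin n → ZMod p)) := by
  let _ : Module (ZMod p) (Additive Q) := AddCommGroup.zmodModule (n := p) fun x =>
    Additive.toMul.injective (hQ (Additive.toMul x))
  have : Finite (Additive Q) := Finite.of_equiv Q Additive.ofMul
  have : Module.Finite (ZMod p) (Additive Q) := Module.Finite.of_finite
  exact ⟨_, ⟨AddEquiv.toMultiplicativeRight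
    (Module.finBasis (ZMod p) (Additive Q)).equivFun.toAddEquiv⟩⟩

/-- A lift may be taken unramified wherever the extension is, outside a given set. -/
theorem exists_lift_unr_outside {E G : Type} [Group E] [Finite E] [Group G]
    (D : CExt p E G) (hE : IsPGroup p E) {f : GQ →* G} (hfo : IsOpen (f.ker : Set GQ))
    (hu : ∀ q : Nat.Primes, q ∉ S → UnrAt f (q : ℕ)) {ψ₀ : GQ →* E}
    (hψ₀ : IsOpen (ψ₀.ker : Set GQ)) (hlift₀ : ∀ g, D.π (ψ₀ g) = f g) :
    ∃ ψ : GQ →* E, IsOpen (ψ.ker : Set GQ) ∧ (∀ g, D.π (ψ g) = f g) ∧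
      ∀ q : Nat.Primes, q ∉ S → UnrAt ψ (q : ℕ) := by
  classical
  suffices key : ∀ T : Finset Nat.Primes, ∀ ψ : GQ →* E, IsOpen (ψ.ker : Set GQ) →
      (∀ g, D.π (ψ g) = f g) → (∀ q : Nat.Primes, q ∉ S → q ∉ T → UnrAt ψ (q : ℕ)) →
      ∃ ψ : GQ →* E, IsOpen (ψ.ker : Set GQ) ∧ (∀ g, D.π (ψ g) = f g) ∧
        ∀ q : Nat.Primes, q ∉ S → UnrAt ψ (q : ℕ) by
    obtain ⟨T, hT⟩ := exists_finset_unrAt ψ₀ hψ₀
    exact key T ψ₀ hψ₀ hlift₀ fun q _ hq => hT q hq
  intro T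
  induction T using Finset.induction_on with
  | empty => exact fun ψ hψ hl h => ⟨ψ, hψ, hl, fun q hq => h q hq (Finset.notMem_empty q)⟩
  | insert q₀ T _ ih =>
    intro ψ hψ hlift h
    by_cases hq₀ : q₀ ∈ S
    · exact ih ψ hψ hlift fun q hq hqT => h q hq (by
        rw [Finset.mem_insert, not_or]
        exact ⟨fun e => hq (e ▸ hq₀), hqT⟩)
    obtain ⟨χ, hχ, hχlc, hχu, hχ0⟩ := exists_twist_at' D hE hfo hψ hlift q₀ (hu q₀ hq₀)
    refine ih (D.twist ψ χ hχ) (isOpen_of_lc _ (D.twist_lc (lc_of_isOpen ψ hψ) hχ hχlc))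
      (fun g => by rw [D.π_twist, hlift]) fun q hq hqT ι hι => ?_
    rw [D.twist_apply]
    rcases eq_or_ne q q₀ with rfl | hne
    · exact hχ0 ι hι
    · rw [hχu (q : ℕ) (fun e => hne (Subtype.ext e)) ι hι, D.ja_zero, mul_one]
      exact h q hq (by rw [Finset.mem_insert, not_or]; exact ⟨hne, hqT⟩) ι hι

/-- The kernel of a central extension has exponent `p`. -/
theorem cExt_ja_pow {E G : Type} [Group E] [Group G] (D : CExt p E G) (a : ZMod p) :
    D.ja a ^ p = 1 := by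
  rw [CExt.ja, ← map_pow, ← ofAdd_nsmul, nsmul_eq_mul, ZMod.natCast_self, zero_mul, ofAdd_zero,
    map_one]

theorem cExt_finite {E G : Type} [Group E] [Group G] [Finite G] (D : CExt p E G) : Finite E := by
  have : NeZero p := ⟨hp.out.ne_zero⟩
  let s₀ : G → E := Function.surjInv D.surj
  refine Finite.of_surjective (fun a : G × ZMod p => s₀ a.1 * D.ja a.2) fun e => ?_
  obtain ⟨a, ha⟩ := D.exists_ja (e := (s₀ (D.π e))⁻¹ * e)
    (by rw [map_mul, map_inv, Function.surjInv_eq D.surj, inv_mul_cancel])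
  exact ⟨(D.π e, a), by show _ * D.ja a = e; rw [ha, mul_inv_cancel_left]⟩

theorem cExt_isPGroup {E G : Type} [Group E] [Group G] (D : CExt p E G) (hG : IsPGroup p G) :
    IsPGroup p E := fun e => by
  obtain ⟨k, hk⟩ := hG (D.π e)
  obtain ⟨a, ha⟩ := D.exists_ja (e := e ^ p ^ k) (by rw [map_pow, hk])
  exact ⟨k + 1, by rw [pow_succ, pow_mul, ← ha, cExt_ja_pow D]⟩

/-- The central extension of a functional on the relations. -/
theorem exists_cExt_of_functional {F G : Type} [Group F] [Group G] {π : F →* G}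
    (hπ : Function.Surjective π) {Kc : Subgroup F} (hKc : Kc ≤ π.ker)
    (hcomm : ∀ r ∈ π.ker, ∀ f, r * f * r⁻¹ * f⁻¹ ∈ Kc) (χ : π.ker →* Multiplicative (ZMod p))
    (hχK : ∀ r : π.ker, (r : F) ∈ Kc → χ r = 1) {r₀ : π.ker} (hr₀ : χ r₀ ≠ 1) :
    ∃ (K' : Subgroup F) (_ : K'.Normal) (D : CExt p (F ⧸ K') G), K' ≤ π.ker ∧ Kc ≤ K' ∧
      (∀ r : π.ker, (r : F) ∈ K' ↔ χ r = 1) ∧ ∀ f : F, D.π (QuotientGroup.mk' K' f) = π f := by
  let K' : Subgroup F := χ.ker.map π.ker.subtype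
  have hK'mem : ∀ r : π.ker, (r : F) ∈ K' ↔ χ r = 1 := fun r =>
    ⟨fun ⟨s, hs, e⟩ => Subtype.ext e ▸ MonoidHom.mem_ker.1 hs,
      fun h => ⟨r, MonoidHom.mem_ker.2 h, rfl⟩⟩
  have hK'le : K' ≤ π.ker := by rintro _ ⟨s, -, rfl⟩; exact s.2
  have hKcK' : Kc ≤ K' := fun z hz => (hK'mem ⟨z, hKc hz⟩).2 (hχK _ hz)
  have hn : K'.Normal := ⟨fun z hz f => by
    have h1 : (f * z * f⁻¹ * z⁻¹) ∈ Kc := by
      convert inv_mem (hcomm z (hK'le hz) f) using 1
      group
    have h2 := mul_mem (hKcK' h1) hz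
    rwa [inv_mul_cancel_right] at h2⟩
  let E := F ⧸ K'
  let πE : E →* G := QuotientGroup.lift K' π hK'le
  obtain ⟨z, hz⟩ : ∃ z : π.ker, χ z = Multiplicative.ofAdd (1 : ZMod p) := by
    have : NeZero p := ⟨hp.out.ne_zero⟩
    have ha : Multiplicative.toAdd (χ r₀) ≠ 0 := fun h => hr₀ (toAdd_eq_zero.1 h)
    refine ⟨r₀ ^ (Multiplicative.toAdd (χ r₀))⁻¹.val,
      Multiplicative.toAdd.injective ?_⟩
    rw [map_pow, toAdd_pow, nsmul_eq_mul, ZMod.natCast_zmod_val, inv_mul_cancel₀ ha, toAdd_ofAdd]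
  have hzp : ((z : F) : E) ^ p = 1 := by
    rw [← QuotientGroup.mk_pow, QuotientGroup.eq_one_iff, ← SubmonoidClass.coe_pow, hK'mem,
      map_pow, hz, ← ofAdd_nsmul, nsmul_one, ZMod.natCast_self, ofAdd_zero]
  have hχz : ∀ n : ℕ, χ (z ^ n) = Multiplicative.ofAdd (n : ZMod p) := fun n => by
    rw [map_pow, hz, ← ofAdd_nsmul, nsmul_one]
  let j : Multiplicative (ZMod p) →* E :=
    powChar ((z : F) : E) hzp Multiplicative.toAdd fun _ _ => rfl
  have hj : ∀ a, j a = (((z ^ (Multiplicative.toAdd a).val : π.ker) :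
      F) : E) := fun a => rfl
  let D : CExt p E G :=
    { π := πE
      surj := fun g => by
        obtain ⟨f, rfl⟩ := hπ g
        exact ⟨f, rfl⟩
      j := j
      inj := (injective_iff_map_eq_one j).2 fun a ha => by
        rw [hj, QuotientGroup.eq_one_iff, hK'mem, hχz] at ha
        rwa [ZMod.natCast_zmod_val, ofAdd_toAdd] at ha
      range_eq := by
        refine le_antisymm ?_ fun e he => ?_
        · rintro _ ⟨a, rfl⟩
          rw [MonoidHom.mem_ker, hj]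
          exact (z ^ _ : π.ker).2
        · obtain ⟨f, rfl⟩ := QuotientGroup.mk_surjective e
          refine ⟨χ ⟨f, he⟩, ?_⟩
          rw [hj, QuotientGroup.eq, ← Subgroup.coe_inv]
          refine (hK'mem (_⁻¹ * ⟨f, he⟩)).2 ?_
          rw [map_mul, map_inv, hχz, ZMod.natCast_zmod_val, ofAdd_toAdd, inv_mul_cancel]
      central := fun a e => by
        obtain ⟨f, rfl⟩ := QuotientGroup.mk_surjective e
        rw [hj, ← QuotientGroup.mk_mul, ← QuotientGroup.mk_mul, QuotientGroup.eq]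
        set r := z ^ (Multiplicative.toAdd a).val
        refine hKcK' ?_
        have e : (r : F)⁻¹ * f⁻¹ * ((r : F)⁻¹)⁻¹ * f⁻¹⁻¹ ∈ Kc := hcomm _ (inv_mem r.2) f⁻¹
        convert inv_mem e using 1
        group }
  exact ⟨K', hn, D, hK'le, hKcK', hK'mem, fun _ => rfl⟩

/-- **A lift in the class.** -/
theorem exists_inClass_lift (hm : p ∣ m) (hS : ∀ q ∈ S, p ∣ (q : ℕ) - 1)
    {E G : Type} [Group E] [Finite E] [Group G] (D : CExt p E G) (hE : IsPGroup p E)
    {ρ : GQ →* G} (hρ : InClass p m S ρ)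
    (hdata : ∀ q ∈ S, ∃ (s : LG ((q : Nat.Primes) : ℕ)) (X Y : E), IsTameGen p (q : ℕ) s ∧
      D.π X = ρ (loc (q : ℕ) s) ∧ D.π Y = ρ (loc (q : ℕ) (frobL (q : ℕ))) ∧
      Y * X = X ^ (q : ℕ) * Y ∧ X ^ m = 1) :
    ∃ ψ : GQ →* E, InClass p m S ψ ∧ ∀ g, D.π (ψ g) = ρ g := by
  have hqp : ∀ q ∈ S, (q : ℕ) ≠ p := fun q hq =>
    ne_of_dvd_sub_one' (N := 1) one_pos q.2 (by rw [pow_one]; exact hS q hq)
  obtain ⟨ψ₀, hψ₀, hlift₀⟩ := exists_lift_of_local' D hρ.isOpen fun q => by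
    by_cases hq : q ∈ S
    swap
    · exact exists_local_lift_of_unr D hρ.isOpen (hρ.unr q hq)
    obtain ⟨s, X, Y, hs, hX, hY, hXY, -⟩ := hdata q hq
    obtain ⟨β, hβlc, hβF, hβI⟩ :=
      exists_local_tame_hom (hqp q hq) hs ρ hρ.isOpen hρ.pPow hE hXY
    refine ⟨β, hβlc, fun τ => DFunLike.congr_fun (locHom_ext (f := D.π.comp β)
      (f' := ρ.comp (loc (q : ℕ))) (hβlc.comp D.π) (loc_lc ρ hρ.isOpen (q : ℕ))
      (fun ι hι => ?_) ?_) τ⟩
    · obtain ⟨i, hi, hb⟩ := hβI ι hι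
      rw [MonoidHom.comp_apply, MonoidHom.comp_apply, hb, map_pow, hX]
      exact hi.symm
    · rw [MonoidHom.comp_apply, MonoidHom.comp_apply, hβF]
      exact hY
  obtain ⟨ψ, hψ, hlift, hψu⟩ := exists_lift_unr_outside D hE hρ.isOpen hρ.unr hψ₀ hlift₀
  refine ⟨ψ, ⟨hψ, fun g => hE _, hψu, fun q hq ι hι => ?_⟩, hlift⟩
  obtain ⟨s, X, Y, hs, hX, -, -, hXm⟩ := hdata q hq
  obtain ⟨i, hi⟩ := hs.2 _ ρ hρ.isOpen (fun η _ => hρ.pPow _) ι hι
  obtain ⟨a, ha⟩ := D.exists_ja (e := (X ^ i)⁻¹ * ψ (loc (q : ℕ) ι))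
    (by rw [map_mul, map_inv, map_pow, hX, hlift, hi, inv_mul_cancel])
  obtain ⟨k, hk⟩ := hm
  rw [← mul_inv_cancel_left (X ^ i) (ψ (loc (q : ℕ) ι)), ← ha,
    Commute.mul_pow (D.ja_comm a _).symm, ← pow_mul, mul_comm i m, pow_mul, hXm, one_pow,
    one_mul, hk, pow_mul, cExt_ja_pow D, one_pow]

/-- **The lift to the elementary central extension cut out by the local relations.** -/
theorem exists_universal_lift (hm : p ∣ m) (hS : ∀ q ∈ S, p ∣ (q : ℕ) - 1)
    {F G : Type} [Group F] [Group.FG F] [Group G] [Finite G] (hG : IsPGroup p G) {π : F →* G}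
    (hπ : Function.Surjective π) (Kc : Subgroup F) [Kc.Normal] (hKc : Kc ≤ π.ker)
    (hpow : ∀ r ∈ π.ker, r ^ p ∈ Kc) (hcomm : ∀ r ∈ π.ker, ∀ f, r * f * r⁻¹ * f⁻¹ ∈ Kc)
    {ρ : GQ →* G} (hρ : InClass p m S ρ)
    (hdata : ∀ q ∈ S, ∃ (s : LG ((q : Nat.Primes) : ℕ)) (X Y : F), IsTameGen p (q : ℕ) s ∧
      π X = ρ (loc (q : ℕ) s) ∧ π Y = ρ (loc (q : ℕ) (frobL (q : ℕ))) ∧
      Y * X * Y⁻¹ * (X ^ (q : ℕ))⁻¹ ∈ Kc ∧ X ^ m ∈ Kc) :
    ∃ ψ : GQ →* F ⧸ Kc, InClass p m S ψ ∧ ∀ g, QuotientGroup.lift Kc π hKc (ψ g) = ρ g := by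
  classical
  let R := π.ker
  let N : Subgroup R := Kc.subgroupOf R
  let _ : CommGroup (R ⧸ N) :=
    { (inferInstance : Group (R ⧸ N)) with
      mul_comm := fun a b => by
        induction a using QuotientGroup.induction_on with | H a => ?_
        induction b using QuotientGroup.induction_on with | H b => ?_
        rw [← QuotientGroup.mk_mul, ← QuotientGroup.mk_mul, QuotientGroup.eq]
        show ((a * b)⁻¹ * (b * a) : R).1 ∈ Kc
        have e := hcomm _ (inv_mem b.2) (a : F)⁻¹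
        rw [show ((a * b)⁻¹ * (b * a) : R).1
            = (b : F)⁻¹ * (a : F)⁻¹ * ((b : F)⁻¹)⁻¹ * ((a : F)⁻¹)⁻¹ by simp [mul_assoc]]
        exact e }
  have hQ : ∀ x : R ⧸ N, x ^ p = 1 := fun x => by
    obtain ⟨a, rfl⟩ := QuotientGroup.mk_surjective x
    rw [← QuotientGroup.mk_pow]
    exact (QuotientGroup.eq_one_iff _).2
      (Subgroup.mem_subgroupOf.2 (hpow _ a.2 : ((a : R) : F) ^ p ∈ Kc))
  have : Finite (R ⧸ N) := by
    have : R.FiniteIndex := Subgroup.finiteIndex_ker π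
    have : Group.FG R := Subgroup.fg_of_index_ne_zero R
    exact CommGroup.finite_of_fg_isMulTorsion (R ⧸ N)
      fun x => isOfFinOrder_iff_pow_eq_one.2 ⟨p, hp.out.pos, hQ x⟩
  obtain ⟨n, ⟨co⟩⟩ := exists_coords hQ
  let χ : Fin n → (R →* Multiplicative (ZMod p)) := fun i =>
    (AddMonoidHom.toMultiplicative (Pi.evalAddMonoidHom (fun _ => ZMod p) i)).comp
      (co.toMonoidHom.comp (QuotientGroup.mk' N))
  have hχ : ∀ i r, χ i r = Multiplicative.ofAdd (Multiplicative.toAdd (co (r : R ⧸ N)) i) :=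
    fun _ _ => rfl
  have hχK : ∀ i (r : R), (r : F) ∈ Kc → χ i r = 1 := fun i r hr => by
    rw [hχ, (QuotientGroup.eq_one_iff r).2 (Subgroup.mem_subgroupOf.2 hr), map_one]
    rfl
  have hsurj : ∀ v : Fin n → ZMod p, ∃ r : R, ∀ i, χ i r = Multiplicative.ofAdd (v i) := fun v => by
    obtain ⟨r, hr⟩ := QuotientGroup.mk_surjective (co.symm (Multiplicative.ofAdd v))
    exact ⟨r, fun i => by rw [hχ, hr, MulEquiv.apply_symm_apply, toAdd_ofAdd]⟩
  have hex : ∀ i, ∃ r₀ : R, χ i r₀ ≠ 1 := fun i => by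
    obtain ⟨r, hr⟩ := hsurj (Pi.single i 1)
    refine ⟨r, ?_⟩
    rw [hr, Pi.single_eq_same]
    exact fun h => one_ne_zero (Multiplicative.ofAdd.injective (h.trans ofAdd_zero.symm))
  choose r₀ hr₀ using hex
  choose K' hK' D hK'le hKcK' hK'mem hDπ using fun i =>
    exists_cExt_of_functional hπ hKc hcomm (χ i) (hχK i) (hr₀ i)
  have hEfin : ∀ i, Finite (F ⧸ K' i) := fun i => cExt_finite (D i)
  have hlifts : ∀ i, ∃ ψ : GQ →* F ⧸ K' i, InClass p m S ψ ∧ ∀ g, (D i).π (ψ g) = ρ g := fun i =>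
    exists_inClass_lift hm hS (D i) (cExt_isPGroup (D i) hG) hρ fun q hq => by
      obtain ⟨s, X, Y, hs, hX, hY, hXY, hXm⟩ := hdata q hq
      refine ⟨s, QuotientGroup.mk' (K' i) X, QuotientGroup.mk' (K' i) Y, hs, by rw [hDπ, hX],
        by rw [hDπ, hY], ?_, ?_⟩
      · have h1 : QuotientGroup.mk' (K' i) (Y * X * Y⁻¹ * (X ^ (q : ℕ))⁻¹) = 1 :=
          (QuotientGroup.eq_one_iff _).2 (hKcK' i hXY)
        rw [map_mul, map_mul, map_mul, map_inv, map_inv, map_pow] at h1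
        rwa [mul_inv_eq_one, mul_inv_eq_iff_eq_mul] at h1
      · rw [← map_pow]
        exact (QuotientGroup.eq_one_iff _).2 (hKcK' i hXm)
  choose ψ hψc hψl using hlifts
  -- the combined map
  let pr : F →* G × ((i : Fin n) → F ⧸ K' i) :=
    π.prod (MonoidHom.pi fun i => QuotientGroup.mk' (K' i))
  have hpr : ∀ f : F, f ∈ Kc ↔ pr f = 1 := fun f => by
    refine ⟨fun h => Prod.ext (hKc h) (funext fun i => (QuotientGroup.eq_one_iff f).2 (hKcK' i h)),
      fun h => ?_⟩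
    have hfR : f ∈ R := congrArg Prod.fst h
    have h2 : co ((⟨f, hfR⟩ : R) : R ⧸ N) = 1 := Multiplicative.toAdd.injective (funext fun i => by
      have h3 := (hK'mem i ⟨f, hfR⟩).1
        ((QuotientGroup.eq_one_iff f).1 (congrFun (congrArg Prod.snd h) i))
      rw [hχ] at h3
      exact Multiplicative.ofAdd.injective (h3.trans ofAdd_zero.symm))
    exact Subgroup.mem_subgroupOf.1
      ((QuotientGroup.eq_one_iff (⟨f, hfR⟩ : R)).1 (co.map_eq_one_iff.1 h2))
  let θ : F ⧸ Kc →* G × ((i : Fin n) → F ⧸ K' i) :=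
    QuotientGroup.lift Kc pr fun f hf => MonoidHom.mem_ker.2 ((hpr f).1 hf)
  have hθ : Function.Injective θ := (injective_iff_map_eq_one θ).2 fun x hx => by
    obtain ⟨f, rfl⟩ := QuotientGroup.mk_surjective x
    exact (QuotientGroup.eq_one_iff f).2 ((hpr f).2 hx)
  let Ψ : GQ →* G × ((i : Fin n) → F ⧸ K' i) := ρ.prod (MonoidHom.pi ψ)
  have hΨ : ∀ g, ∃ x, θ x = Ψ g := fun g => by
    obtain ⟨f, hf⟩ := hπ (ρ g)
    choose fi hfi using fun i => QuotientGroup.mk_surjective ((ψ i) g)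
    have hfiR : ∀ i, f⁻¹ * fi i ∈ R := fun i => by
      have h1 : π (fi i) = ρ g := by
        rw [← hDπ i (fi i), QuotientGroup.mk'_apply, hfi, hψl]
      show π (f⁻¹ * fi i) = 1
      rw [map_mul, map_inv, hf, h1, inv_mul_cancel]
    obtain ⟨r, hr⟩ := hsurj fun i => Multiplicative.toAdd (χ i ⟨_, hfiR i⟩)
    refine ⟨QuotientGroup.mk' Kc (f * r), Prod.ext ?_ (funext fun i => ?_)⟩
    · show π (f * r) = ρ g
      rw [map_mul, show π (r : F) = 1 from r.2, mul_one, hf]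
    · show ((f * r : F) : F ⧸ K' i) = ψ i g
      rw [← hfi, QuotientGroup.eq]
      have h3 : (((r⁻¹ : R) * ⟨_, hfiR i⟩ : R) : F) ∈ K' i := (hK'mem i _).2 (by
        rw [map_mul, map_inv, hr, ofAdd_toAdd, inv_mul_cancel])
      convert h3 using 1
      simp [mul_assoc]
  choose x hx using hΨ
  let Φ : GQ →* F ⧸ Kc := MonoidHom.mk' x fun a b => hθ (by rw [map_mul, hx, hx, hx, map_mul])
  have hΦ : ∀ g, θ (Φ g) = Ψ g := hx
  refine ⟨Φ, ⟨?_, fun g => ?_, fun q hq ι hι => hθ ?_, fun q hq ι hι => hθ ?_⟩, fun g => ?_⟩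
  · have hker : (Φ.ker : Set GQ) = (ρ.ker : Set GQ) ∩ ⋂ i, ((ψ i).ker : Set GQ) := by
      ext g
      simp only [SetLike.mem_coe, MonoidHom.mem_ker, Set.mem_inter_iff, Set.mem_iInter]
      rw [← map_eq_one_iff θ hθ, hΦ]
      exact ⟨fun h => ⟨congrArg Prod.fst h, fun i => congrFun (congrArg Prod.snd h) i⟩,
        fun h => Prod.ext h.1 (funext h.2)⟩
    rw [hker]
    exact hρ.isOpen.inter (isOpen_iInter_of_finite fun i => (hψc i).isOpen)
  · obtain ⟨k, hk⟩ := hρ.pPow g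
    obtain ⟨f, hf⟩ := QuotientGroup.mk_surjective (Φ g)
    refine ⟨k + 1, ?_⟩
    rw [← hf, ← QuotientGroup.mk_pow, QuotientGroup.eq_one_iff, pow_succ, pow_mul]
    refine hpow _ ?_
    show π (f ^ p ^ k) = 1
    have h1 := congrArg Prod.fst (hΦ g)
    rw [← hf] at h1
    rw [map_pow, show π f = ρ g from h1, hk]
  · rw [hΦ, map_one]
    exact Prod.ext (hρ.unr q hq ι hι) (funext fun i => (hψc i).unr q hq ι hι)
  · rw [map_pow, hΦ, map_one]
    exact Prod.ext (hρ.expo q hq ι hι) (funext fun i => (hψc i).expo q hq ι hι)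
  · obtain ⟨f, hf⟩ := QuotientGroup.mk_surjective (Φ g)
    have h1 := congrArg Prod.fst (hΦ g)
    rw [← hf] at h1 ⊢
    exact h1

end Fermat.Agent.GolodShafarevich
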