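import Fermat.Agent.GolodShafarevich.Presentation
import Fermat.Agent.ScholzReichardt.Ramification
import Fermat.Agent.GolodShafarevich.Lifts

/-!
# Arbitrarily large `p`-groups with tame ramification

Let `S` be a set of `d` primes congruent to `1` modulo `p`. The `p`-groups realised over `ℚ`
unramified elsewhere are unbounded for `d ≥ 4`, and for `d ≥ 8` they remain so if every inertia
element has order dividing `p`: a largest one would be presented by one relation for each prime,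
or by two, against the theorem of Golod and Shafarevich.
-/

set_option autoImplicit false
set_option linter.unusedSectionVars false

noncomputable section

namespace Fermat.Agent.GolodShafarevich

open FA.GalCoh ScholzReichardt
open scoped Pointwise

variable {p : ℕ} [hp : Fact p.Prime]

variable {m : ℕ} {S : Finset Nat.Primes}

/-- A surjection onto an elementary abelian group bounds the rank below. -/
theorem card_le_rank {J : Type} [Fintype J] {E : Type} [Group E] [Finite E]
    (f : E →* Multiplicative (J → ZMod p)) (hf : Function.Surjective f) :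
    Fintype.card J ≤ Group.rank E := by
  let e : (J → ZMod p) ≃+ (Fin (Fintype.card J) → ZMod p) :=
    { Equiv.arrowCongr (Fintype.equivFin J) (Equiv.refl (ZMod p)) with
      map_add' := fun _ _ => rfl }
  refine (rank_elementary (p := p) (Fintype.card J)).trans
    (Group.rank_le_of_surjective (e.toMultiplicative.toMonoidHom.comp f) fun v => ?_)
  obtain ⟨a, ha⟩ := hf (e.toMultiplicative.symm v)
  exact ⟨a, by rw [MonoidHom.comp_apply, ha]; exact e.toMultiplicative.apply_symm_apply v⟩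

/-- The characters of order `p` of the primes in `S`, factoring through the roots of unity of
those orders. -/
theorem exists_omega (hm : p ∣ m) (hS : ∀ q ∈ S, p ∣ (q : ℕ) - 1) :
    ∃ ω : GQ →* Multiplicative ({q // q ∈ S} → ZMod p), Function.Surjective ω ∧
      InClass p m S ω ∧
      (∀ q : {q // q ∈ S}, ∃ t ∈ inertL (q.1 : ℕ),
        ω (loc (q.1 : ℕ) t) = Multiplicative.ofAdd (Pi.single q 1)) ∧
      ∀ σ : GQ, (∀ q : Nat.Primes, q ∈ S →
        ∃ u, FA.KroneckerWeber.omega (q : ℕ) σ = u ^ p) → ω σ = 1 := by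
  classical
  have hl : ∀ q : {q // q ∈ S}, ∃ l : (ZMod ((q.1 : ℕ) ^ 1))ˣ →* Multiplicative (ZMod p),
      Function.Surjective l := fun q => by
    have : NeZero ((q.1 : ℕ) ^ 1) := ⟨pow_ne_zero _ q.1.2.ne_zero⟩
    have hcyc : IsCyclic (ZMod ((q.1 : ℕ) ^ 1))ˣ := by
      rw [pow_one]; exact ZMod.isCyclic_units_prime q.1.2
    exact exists_cyclic_surj hcyc (m := p) (by
      rw [Nat.card_eq_fintype_card, ZMod.card_units_eq_totient, pow_one,
        Nat.totient_prime q.1.2]
      exact hS q.1 q.2)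
  choose l hl using hl
  have ht : ∀ q : {q // q ∈ S}, ∃ t ∈ inertL (q.1 : ℕ),
      l q (FA.KroneckerWeber.omega (q.1 : ℕ) (loc (q.1 : ℕ) t)) = Multiplicative.ofAdd 1 :=
    fun q => by
      obtain ⟨u, hu⟩ := hl q (Multiplicative.ofAdd 1)
      obtain ⟨σ, hσ, hσu⟩ := FA.KroneckerWeber.exists_inertia_omega_eq (q.1 : ℕ)
        (liesOverPrime_padicPlace (q.1 : ℕ)) u
      obtain ⟨t, ht, rfl⟩ := exists_loc_inert hσ
      exact ⟨t, ht, by rw [hσu, hu]⟩
  choose t ht htl using ht
  let w : {q // q ∈ S} → (GQ →* Multiplicative (ZMod p)) := fun q =>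
    (l q).comp (FA.KroneckerWeber.omega (q.1 : ℕ))
  have hwu : ∀ (q : {q // q ∈ S}) (r : Nat.Primes), r ≠ q.1 → ∀ ι ∈ inertL (r : ℕ),
      w q (loc (r : ℕ) ι) = 1 := fun q r hr ι hι => by
    show l q (FA.KroneckerWeber.omega (q.1 : ℕ) (loc (r : ℕ) ι)) = 1
    rw [FA.KroneckerWeber.omega_inertia (q.1 : ℕ) r.2 (fun h => hr (Subtype.ext h))
      (liesOverPrime_padicPlace (r : ℕ)) hι, map_one]
  let ω : GQ →* Multiplicative ({q // q ∈ S} → ZMod p) :=
    MonoidHom.mk' (fun g => Multiplicative.ofAdd fun q => Multiplicative.toAdd (w q g))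
      fun a b => congrArg Multiplicative.ofAdd (funext fun q => by rw [map_mul]; rfl)
  have hω : ∀ g q, Multiplicative.toAdd (ω g) q = Multiplicative.toAdd (w q g) := fun _ _ => rfl
  have hone : ∀ q : {q // q ∈ S},
      ω (loc (q.1 : ℕ) (t q)) = Multiplicative.ofAdd (Pi.single q 1) := fun q => by
    refine Multiplicative.toAdd.injective (funext fun r => ?_)
    rw [hω, toAdd_ofAdd]
    rcases eq_or_ne r q with rfl | hne
    · rw [Pi.single_eq_same]
      exact congrArg Multiplicative.toAdd (htl r)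
    · rw [Pi.single_eq_of_ne hne, hwu r q.1 (fun h => hne (Subtype.ext h.symm)) (t q) (ht q),
        toAdd_one]
  have hexp : ∀ v : Multiplicative ({q // q ∈ S} → ZMod p), v ^ p = 1 := fun v =>
    Multiplicative.toAdd.injective (funext fun r => by
      rw [toAdd_pow, toAdd_one, Pi.smul_apply, nsmul_eq_mul, ZMod.natCast_self, zero_mul,
        Pi.zero_apply])
  refine ⟨ω, fun v => ?_, ⟨?_, fun g => ⟨1, by rw [pow_one]; exact hexp _⟩, fun q hq ι hι => ?_,
    fun _ _ _ _ => by
      obtain ⟨k, rfl⟩ := hm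
      rw [pow_mul, hexp, one_pow]⟩, fun q => ⟨t q, ht q, hone q⟩, fun σ hσ => ?_⟩
  · clear_value ω
    have h : (∏ q : {q // q ∈ S}, ω (loc (q.1 : ℕ) (t q)) ^ (Multiplicative.toAdd v q).val)
        ∈ ω.range :=
      Subgroup.prod_mem _ fun q _ =>
        pow_mem (MonoidHom.mem_range.2 ⟨loc (q.1 : ℕ) (t q), rfl⟩) _
    have e : (∏ q : {q // q ∈ S}, ω (loc (q.1 : ℕ) (t q)) ^ (Multiplicative.toAdd v q).val)
        = v := by
      refine Multiplicative.toAdd.injective ?_
      rw [toAdd_prod]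
      refine (Finset.sum_congr rfl fun q _ => ?_).trans
        (Finset.univ_sum_single (Multiplicative.toAdd v))
      rw [hone, toAdd_pow, toAdd_ofAdd, ← Pi.single_smul', nsmul_one, ZMod.natCast_zmod_val]
    exact MonoidHom.mem_range.1 (e ▸ h)
  · have hker : (ω.ker : Set GQ) = ⋂ q, ((w q).ker : Set GQ) := by
      ext g
      simp [ω, funext_iff]
    rw [hker]
    exact isOpen_iInter_of_finite fun q => Subgroup.isOpen_mono (fun σ hσ => MonoidHom.mem_ker.2 (by
      show l q (FA.KroneckerWeber.omega (q.1 : ℕ) σ) = 1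
      rw [MonoidHom.mem_ker.1 hσ, map_one])) (FA.KroneckerWeber.isOpen_ker_omega (q.1 : ℕ))
  · refine Multiplicative.toAdd.injective (funext fun r => ?_)
    rw [hω, hwu r q (fun h => hq (h ▸ r.2)) ι hι]
    rfl
  · refine Multiplicative.toAdd.injective (funext fun r => ?_)
    rw [hω]
    show Multiplicative.toAdd (l r (FA.KroneckerWeber.omega (r.1 : ℕ) σ)) = _
    obtain ⟨u, hu⟩ := hσ r.1 r.2
    rw [hu, map_pow, toAdd_pow, nsmul_eq_mul, ZMod.natCast_self, zero_mul]
    rfl

/-- With inertia of exponent `p`, the elements of inertia killed by a ramified member are killed by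
the whole class. -/
theorem InClass.eq_one_of_ramified {G X : Type} [Group G] [Group X] {ρ : GQ →* G} {f : GQ →* X}
    (h : InClass p p S ρ) (hf : InClass p p S f) {q : Nat.Primes} (hqp : (q : ℕ) ≠ p)
    (hq : q ∈ S) (hram : ∃ η ∈ inertL (q : ℕ), f (loc (q : ℕ) η) ≠ 1) {ι : LG (q : ℕ)}
    (hι : ι ∈ inertL (q : ℕ)) (h1 : f (loc (q : ℕ) ι) = 1) : ρ (loc (q : ℕ) ι) = 1 := by
  obtain ⟨s, hs⟩ := exists_isTameGen (p := p) hqp
  have hgen := hs.2 _ (ρ.prod f) (h.prod hf).isOpen fun η _ => (h.prod hf).pPow _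
  obtain ⟨η, hη, hne⟩ := hram
  have hord : orderOf (f (loc (q : ℕ) s)) = p := by
    refine orderOf_eq_prime (hf.expo q hq s hs.1) fun h2 => hne ?_
    obtain ⟨j, hj⟩ := hgen η hη
    have e : f (loc (q : ℕ) η) = f (loc (q : ℕ) s) ^ j := congrArg Prod.snd hj
    rw [e, h2, one_pow]
  obtain ⟨i, hi⟩ := hgen ι hι
  obtain ⟨k, rfl⟩ : p ∣ i := hord ▸ orderOf_dvd_of_pow_eq_one
    (((congrArg Prod.snd hi).trans (Prod.pow_snd _ _)).symm.trans h1)
  refine (congrArg Prod.fst hi).trans ?_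
  show ρ (loc (q : ℕ) s) ^ (p * k) = 1
  rw [pow_mul, h.expo q hq s hs.1, one_pow]

/-- **The class is unbounded**, also with prescribed exponents at the Frobenius elements of a
finite set `T` of primes, as long as the characters of `S` obey them. -/
theorem exists_inClass_split_card_gt (hm : p ∣ m)
    (hS : ∀ q ∈ S, p ∣ (q : ℕ) - 1) (hpos : 0 < S.card) {J : Type} [Fintype J] (el : J → GQ)
    (e : J → ℕ) {ω : GQ →* Multiplicative ({q // q ∈ S} → ZMod p)}
    (hωsurj : Function.Surjective ω) (hωc : InClass p m S ω)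
    (hωT : ∀ j, ω (el j) ^ e j = 1)
    (hcount : 4 * (S.card + (if m = 0 then 0 else S.card) + Fintype.card J) ≤ S.card ^ 2) (B : ℕ) :
    ∃ (G : Type) (_ : Group G) (_ : Finite G) (ρ : GQ →* G), Function.Surjective ρ ∧
      InClass p m S ρ ∧ (∀ j, ρ (el j) ^ e j = 1) ∧
      B < Nat.card G := by
  classical
  by_contra! hB
  let 𝒩 : Set ℕ := {n | ∃ (G : Type) (_ : Group G) (_ : Finite G) (ρ : GQ →* G),
    Function.Surjective ρ ∧ InClass p m S ρ ∧
      (∀ j, ρ (el j) ^ e j = 1) ∧ Nat.card G = n}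
  have hbdd : BddAbove 𝒩 := ⟨B, by
    rintro n ⟨G, _, _, ρ, h1, h2, h3, rfl⟩
    exact hB G inferInstance inferInstance ρ h1 h2 h3⟩
  have hne : 𝒩.Nonempty := ⟨1, PUnit, inferInstance, inferInstance, 1,
    fun x => ⟨1, Subsingleton.elim _ _⟩, ⟨by rw [MonoidHom.ker_one]; exact isOpen_univ,
      fun _ => ⟨0, rfl⟩, fun _ _ _ _ => rfl, fun _ _ _ _ => rfl⟩, fun _ => rfl,
    Nat.card_unique⟩
  obtain ⟨G, _, _, ρ, hρ, hcl, hclT, hcard⟩ := Nat.sSup_mem hne hbdd
  have hG : IsPGroup p G := hcl.isPGroup hρ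
  -- maximality
  have hmax : ∀ {H : Type} [Group H] [Finite H] (σ : GQ →* H), InClass p m S σ →
      (∀ j, σ (el j) ^ e j = 1) → ρ.ker ≤ σ.ker := by
    intro H _ _ σ hσ hσT
    let τ := (ρ.prod σ).rangeRestrict
    have hle : Nat.card (ρ.prod σ).range ≤ Nat.card G := hcard ▸ le_csSup hbdd
      ⟨_, inferInstance, inferInstance, τ, MonoidHom.rangeRestrict_surjective _,
        (hcl.prod hσ).rangeRestrict,
        fun j => Subtype.ext (Prod.ext (hclT j) (hσT j)), rfl⟩
    let pr : (ρ.prod σ).range →* G := (MonoidHom.fst G H).comp (ρ.prod σ).range.subtype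
    have hsurj : Function.Surjective pr := fun g => by
      obtain ⟨x, rfl⟩ := hρ g
      exact ⟨τ x, rfl⟩
    have hbij := (Nat.bijective_iff_surjective_and_card pr).2
      ⟨hsurj, le_antisymm hle (Nat.card_le_card_of_surjective pr hsurj)⟩
    intro x hx
    have h1 : τ x = 1 := hbij.1 ((MonoidHom.mem_ker.1 hx : ρ x = 1).trans (map_one pr).symm)
    exact congrArg (fun z => z.1.2) h1
  -- generators
  have hqp : ∀ q : {q // q ∈ S}, (q.1 : ℕ) ≠ p := fun q =>
    ne_of_dvd_sub_one' (N := 1) one_pos q.1.2 (by rw [pow_one]; exact hS q.1 q.2)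
  choose t ht using fun q : {q // q ∈ S} => exists_isTameGen (p := p) (hqp q)
  let x : {q // q ∈ S} → G := fun q => ρ (loc (q.1 : ℕ) (t q))
  have hxm : ∀ q, x q ^ m = 1 := fun q => hcl.expo q.1 q.2 _ (ht q).1
  have hgen : ∀ (q : {q // q ∈ S}), ∀ ι ∈ inertL (q.1 : ℕ),
      ∃ i : ℕ, ρ (loc (q.1 : ℕ) ι) = x q ^ i := fun q =>
    (ht q).2 _ ρ hcl.isOpen fun η _ => hcl.pPow _
  have hgenx : Subgroup.closure (Set.range x) = ⊤ := by
    by_contra hne'
    obtain ⟨χ, hχ, hχ0, g₀, hg₀⟩ := exists_char_of_ne_top hG hne'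
    let χh : G →* Multiplicative (ZMod p) :=
      MonoidHom.mk' (fun g => Multiplicative.ofAdd (χ g)) fun a b => by rw [hχ, ofAdd_add]
    have hx1 : ∀ q, χh (x q) = 1 := fun q => by
      show Multiplicative.ofAdd (χ (x q)) = 1
      rw [hχ0 _ (Subgroup.subset_closure ⟨q, rfl⟩), ofAdd_zero]
    obtain ⟨F, hF, hle⟩ := mem_LQ_iff_isOpen.2 hcl.isOpen
    have htop : (χh.comp ρ).ker = ⊤ := FA.Local.eq_top_of_inertia_le _ F
      (fun g hg => MonoidHom.mem_ker.2 (by
        rw [MonoidHom.comp_apply,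
          MonoidHom.mem_ker.1 (hle ((IntermediateField.mem_fixingSubgroup_iff F g).2 hg)),
          map_one]))
      fun q hq => by
        have : Fact q.Prime := ⟨hq⟩
        refine ⟨_, liesOverPrime_padicPlace q, fun g hg => MonoidHom.mem_ker.2 ?_⟩
        obtain ⟨ι, hι, rfl⟩ := exists_loc_inert hg
        rw [MonoidHom.comp_apply]
        by_cases hqS : (⟨q, hq⟩ : Nat.Primes) ∈ S
        · obtain ⟨i, hi⟩ := hgen ⟨_, hqS⟩ ι hι
          rw [hi, map_pow, hx1, one_pow]
        · rw [show ρ (loc q ι) = 1 from hcl.unr ⟨q, hq⟩ hqS ι hι, map_one]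
    obtain ⟨y, rfl⟩ := hρ g₀
    have hy : χh (ρ y) = 1 :=
      MonoidHom.mem_ker.1 (show y ∈ (χh.comp ρ).ker by rw [htop]; exact Subgroup.mem_top y)
    exact hg₀ (Multiplicative.ofAdd.injective (hy.trans ofAdd_zero.symm))
  let ω' : G →* Multiplicative ({q // q ∈ S} → ZMod p) :=
    ρ.liftOfSurjective hρ ⟨ω, hmax ω hωc hωT⟩
  have hω' : ∀ g, ω' (ρ g) = ω g := fun g => MonoidHom.liftOfRightInverse_comp_apply _ _ _ _ g
  have hω's : Function.Surjective ω' := fun v => by
    obtain ⟨g, rfl⟩ := hωsurj v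
    exact ⟨ρ g, hω' g⟩
  have hrankle : ∀ {E : Type} [Group E] [Finite E] (z : {q // q ∈ S} → E),
      Subgroup.closure (Set.range z) = ⊤ → Group.rank E ≤ Fintype.card {q // q ∈ S} := by
    intro E _ _ z hz
    refine (Group.rank_le (S := Finset.univ.image z) ?_).trans Finset.card_image_le
    rwa [Finset.coe_image, Finset.coe_univ, Set.image_univ]
  have hrank : Group.rank G = Fintype.card {q // q ∈ S} :=
    le_antisymm (hrankle x hgenx) (card_le_rank ω' hω's)
  -- relations
  let π := FreeGroup.lift x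
  have hπ : Function.Surjective π := by
    rw [← MonoidHom.range_eq_top, eq_top_iff, ← hgenx, Subgroup.closure_le]
    rintro _ ⟨i, rfl⟩
    exact ⟨FreeGroup.of i, FreeGroup.lift_apply_of⟩
  choose wd hwd using fun q : {q // q ∈ S} => hπ (ρ (loc (q.1 : ℕ) (frobL (q.1 : ℕ))))
  have hconj : ∀ q, π (wd q) * x q = x q ^ (q.1 : ℕ) * π (wd q) := fun q => by
    have h := FA.RT.tame_relation ρ hp.out q.1.2 (Ne.symm (hqp q))
      (liesOverPrime_padicPlace (q.1 : ℕ)) hcl.isOpen (fun g _ => hcl.pPow g)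
      (frobL_spec (q.1 : ℕ)) (ht q).1
    rw [← hwd] at h
    exact h
  let rel₀ : {q // q ∈ S} ⊕ {_q : {q // q ∈ S} // m ≠ 0} → FreeGroup {q // q ∈ S} := Sum.elim
    (fun q => wd q * FreeGroup.of q * (wd q)⁻¹ * (FreeGroup.of q ^ (q.1 : ℕ))⁻¹)
    fun q => FreeGroup.of q.1 ^ m
  have hrel₀ : ∀ j, π (rel₀ j) = 1 := by
    rintro (q | q)
    · show π (wd q * FreeGroup.of q * (wd q)⁻¹ * (FreeGroup.of q ^ (q.1 : ℕ))⁻¹) = 1
      rw [map_mul, map_mul, map_mul, map_inv, map_inv, map_pow, show π (FreeGroup.of q) = x q from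
        FreeGroup.lift_apply_of, hconj, mul_inv_cancel_right, mul_inv_cancel]
    · show π (FreeGroup.of q.1 ^ m) = 1
      rw [map_pow, FreeGroup.lift_apply_of, hxm]
  have hclosure : ∀ {α : Type} (r : α → FreeGroup {q // q ∈ S}), (∀ j, π (r j) = 1) →
      Subgroup.normalClosure (Set.range r ∪ {z | ∃ r ∈ π.ker, z = r ^ p} ∪
        {z | ∃ r ∈ π.ker, ∃ f, z = r * f * r⁻¹ * f⁻¹}) ≤ π.ker := fun r hr =>
    Subgroup.normalClosure_le_normal (by
      rintro z ((⟨j, rfl⟩ | ⟨r', hr', rfl⟩) | ⟨r', hr', f, rfl⟩)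
      · exact hr j
      · exact pow_mem hr' p
      · show π (r' * f * r'⁻¹ * f⁻¹) = 1
        rw [map_mul, map_mul, map_mul, map_inv, map_inv, show π r' = 1 from hr', inv_one, one_mul,
          mul_one, mul_inv_cancel])
  -- the lift to the central extension cut out by the relations at `S`
  set Kc₀ := Subgroup.normalClosure (Set.range rel₀ ∪ {z | ∃ r ∈ π.ker, z = r ^ p} ∪
    {z | ∃ r ∈ π.ker, ∃ f, z = r * f * r⁻¹ * f⁻¹}) with hKc₀
  obtain ⟨ψu, hψuc, hψul⟩ := exists_universal_lift hm hS hG hπ Kc₀ (hclosure rel₀ hrel₀)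
    (fun r hr => Subgroup.subset_normalClosure (Or.inl (Or.inr ⟨r, hr, rfl⟩)))
    (fun r hr f => Subgroup.subset_normalClosure (Or.inr ⟨r, hr, f, rfl⟩)) hcl fun q hq =>
    ⟨t ⟨q, hq⟩, FreeGroup.of ⟨q, hq⟩, wd ⟨q, hq⟩, ht ⟨q, hq⟩, FreeGroup.lift_apply_of,
      hwd ⟨q, hq⟩,
      Subgroup.subset_normalClosure (Or.inl (Or.inl ⟨Sum.inl ⟨q, hq⟩, rfl⟩)), by
      rcases eq_or_ne m 0 with hm0 | hm0
      · rw [hm0, pow_zero]; exact one_mem _
      · exact Subgroup.subset_normalClosure (Or.inl (Or.inl ⟨Sum.inr ⟨⟨q, hq⟩, hm0⟩, rfl⟩))⟩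
  -- the relations at the further elements
  choose u hu using fun q : J => QuotientGroup.mk_surjective (ψu (el q))
  have huπ : ∀ q, π (u q) = ρ (el q) := fun q => by
    rw [← hψul, ← hu]
    rfl
  let rel : ({q // q ∈ S} ⊕ {_q : {q // q ∈ S} // m ≠ 0}) ⊕ J →
      FreeGroup {q // q ∈ S} := Sum.elim rel₀ fun q => u q ^ e q
  have hrel : ∀ j, π (rel j) = 1 := by
    rintro (j | q)
    · exact hrel₀ j
    · show π (u q ^ e q) = 1
      rw [map_pow, huπ, hclT q]
  set Kc := Subgroup.normalClosure (Set.range rel ∪ {z | ∃ r ∈ π.ker, z = r ^ p} ∪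
    {z | ∃ r ∈ π.ker, ∃ f, z = r * f * r⁻¹ * f⁻¹}) with hKc
  suffices hdef : π.ker ≤ Kc by
    have h := card_sq_lt_four_mul_relations x hG hgenx hrank
      (by rwa [Fintype.card_coe]) rel hrel hdef
    rw [Fintype.card_sum, Fintype.card_sum, Fintype.card_coe] at h
    split_ifs at hcount with hm0
    · rw [Fintype.card_eq_zero_iff.2 ⟨fun z => z.2 hm0⟩] at h
      omega
    · have h2 := Fintype.card_subtype_le fun _q : {q // q ∈ S} => m ≠ 0
      rw [Fintype.card_coe] at h2
      omega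
  intro c₀ hc₀
  by_contra hc₀K
  obtain ⟨χ, hχK, hχc⟩ := exists_functional π.ker Kc
    (fun r hr => Subgroup.subset_normalClosure (Or.inl (Or.inr ⟨r, hr, rfl⟩)))
    (fun r hr f => Subgroup.subset_normalClosure (Or.inr ⟨r, hr, f, rfl⟩)) hc₀ hc₀K
  obtain ⟨K', hK'n, D, -, hKcK', -, hDπ⟩ := exists_cExt_of_functional hπ (hclosure rel hrel)
    (fun r hr f => Subgroup.subset_normalClosure (Or.inr ⟨r, hr, f, rfl⟩)) χ hχK hχc
  let E := FreeGroup {q // q ∈ S} ⧸ K'
  have : Finite E := cExt_finite D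
  have hKc₀K' : Kc₀ ≤ K' := (Subgroup.normalClosure_mono (Set.union_subset_union_left _
    (Set.union_subset_union_left _ (by
      rintro _ ⟨j, rfl⟩
      exact ⟨Sum.inl j, rfl⟩)))).trans hKcK'
  let qm : FreeGroup {q // q ∈ S} ⧸ Kc₀ →* E :=
    QuotientGroup.map Kc₀ K' (MonoidHom.id _) hKc₀K'
  let ψ : GQ →* E := qm.comp ψu
  have hlift : ∀ g, D.π (ψ g) = ρ g := fun g => by
    obtain ⟨f, hf⟩ := QuotientGroup.mk_surjective (ψu g)
    rw [← hψul]
    show D.π (qm (ψu g)) = _
    rw [← hf]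
    exact hDπ f
  have hψT : ∀ q, ψ (el q) ^ e q = 1 := fun q => by
    show qm (ψu _) ^ e q = 1
    rw [← hu q, ← map_pow, ← QuotientGroup.mk_pow]
    exact (QuotientGroup.eq_one_iff (N := K') _).2
      (hKcK' (Subgroup.subset_normalClosure (Or.inl (Or.inl ⟨Sum.inr q, rfl⟩))))
  let X : {q // q ∈ S} → E := fun q => (FreeGroup.of q : FreeGroup {q // q ∈ S})
  let s : G →* E := ρ.liftOfSurjective hρ ⟨ψ, hmax ψ (hψuc.map qm) hψT⟩
  have hs : ∀ g, D.π (s g) = g := fun g => by
    obtain ⟨y, rfl⟩ := hρ g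
    rw [show s (ρ y) = ψ y from MonoidHom.liftOfRightInverse_comp_apply _ _ _ _ y, hlift]
  choose r hr using fun e : E => D.exists_ja (e := (s (D.π e))⁻¹ * e)
    (by rw [map_mul, map_inv, hs, inv_mul_cancel])
  have hradd : ∀ a b, r (a * b) = r a + r b := fun a b => D.ja_injective (by
    rw [D.ja_add, hr, map_mul, map_mul, mul_inv_rev]
    calc (s (D.π b))⁻¹ * (s (D.π a))⁻¹ * (a * b)
        = (s (D.π b))⁻¹ * ((s (D.π a))⁻¹ * a) * b := by group
      _ = (s (D.π a))⁻¹ * a * ((s (D.π b))⁻¹ * b) := by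
        rw [← hr a, ← D.ja_comm, mul_assoc]
      _ = _ := by rw [hr a, hr b])
  let Θ : E →* Multiplicative (Option {q // q ∈ S} → ZMod p) :=
    MonoidHom.mk' (fun e => Multiplicative.ofAdd fun o =>
      o.elim (r e) fun q => Multiplicative.toAdd (ω' (D.π e)) q) fun a b =>
      congrArg Multiplicative.ofAdd (funext fun o => by
        rcases o with _ | q
        · exact hradd a b
        · show Multiplicative.toAdd (ω' (D.π (a * b))) q = _
          rw [map_mul, map_mul]
          rfl)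
  have hΘ : Function.Surjective Θ := fun v => by
    obtain ⟨g, hg⟩ := hω's (Multiplicative.ofAdd fun q => Multiplicative.toAdd v (some q))
    have hπg : D.π (s g * D.ja (Multiplicative.toAdd v none)) = g := by
      rw [map_mul, D.π_ja, mul_one, hs]
    refine ⟨s g * D.ja (Multiplicative.toAdd v none),
      Multiplicative.toAdd.injective (funext fun o => ?_)⟩
    rcases o with _ | q
    · refine D.ja_injective ?_
      show D.ja (r _) = _
      rw [hr, hπg, inv_mul_cancel_left]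
    · show Multiplicative.toAdd (ω' (D.π _)) q = _
      rw [hπg, hg]
      rfl
  have hXgen : Subgroup.closure (Set.range X) = ⊤ := by
    rw [show X = (QuotientGroup.mk' K') ∘ FreeGroup.of from rfl, Set.range_comp,
      ← MonoidHom.map_closure, FreeGroup.closure_range_of,
      Subgroup.map_top_of_surjective _ (QuotientGroup.mk'_surjective K')]
  have h := (card_le_rank Θ hΘ).trans (hrankle X hXgen)
  rw [Fintype.card_option] at h
  omega

/-- The case of no condition at other primes. -/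
theorem exists_inClass_card_gt (hm : p ∣ m) (hS : ∀ q ∈ S, p ∣ (q : ℕ) - 1)
    (hpos : 0 < S.card) (hcount : 4 * (S.card + if m = 0 then 0 else S.card) ≤ S.card ^ 2)
    (B : ℕ) : ∃ (G : Type) (_ : Group G) (_ : Finite G) (ρ : GQ →* G),
      Function.Surjective ρ ∧ InClass p m S ρ ∧ B < Nat.card G := by
  obtain ⟨ω, hωs, hωc, -⟩ := exists_omega hm hS
  obtain ⟨G, i, j, ρ, h1, h2, -, h3⟩ := exists_inClass_split_card_gt hm hS hpos
    (fun j : PEmpty.{1} => j.elim) (fun _ => 1) hωs hωc (fun j => j.elim) (by simpa using hcount) B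
  exact ⟨G, i, j, ρ, h1, h2, h3⟩

/-- Complex conjugation is `-1` on the roots of unity of prime order. -/
theorem omega_complexConjugation (q : ℕ) [hq : Fact q.Prime] :
    ((FA.KroneckerWeber.omega q complexConjugation : (ZMod (q ^ 1))ˣ) : ZMod (q ^ 1)) = -1 := by
  rw [FA.KroneckerWeber.omega_eq_natCast q (a := q - 1) fun μ hμ => ?_, Nat.cast_sub hq.out.one_le,
    Nat.cast_one, show ((q : ℕ) : ZMod (q ^ 1)) = 0 by
      rw [ZMod.natCast_eq_zero_iff, pow_one], zero_sub]
  have hμ0 : μ ≠ 0 := fun h => by simp [h, zero_pow hq.out.ne_zero] at hμ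
  refine complexEmbedding.toRingHom.injective ?_
  show complexEmbedding (complexConjugation μ) = complexEmbedding (μ ^ (q - 1))
  rw [complexEmbedding_complexConjugation, pow_sub₀ _ hμ0 hq.out.one_le, hμ, pow_one, one_mul,
    map_inv₀]
  exact (Complex.inv_eq_conj (Complex.norm_eq_one_of_pow_eq_one
    (by rw [← map_pow, hμ, map_one]) hq.out.ne_zero)).symm

end Fermat.Agent.GolodShafarevich
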