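import Fermat.Agent.GolodShafarevich.Tower
import Fermat.Agent.Root.SummaryAbelianInverseGalois
import Fermat.Agent.ClassField94.Solvable
import Fermat.Agent.ArtinL.Inflation
import Fermat.Agent.ExtVanish.InertiaLift
import Fermat.Agent.GalCoh.GWBridge

/-!
# Infinite class field towers

The classes of unbounded size give a totally real field with Galois `p`-extensions of arbitrarily
large degree unramified at every place, so every number field containing it has class number
divisible by `p`.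
-/

set_option autoImplicit false
set_option linter.unusedSectionVars false

noncomputable section

namespace Fermat.Agent.GolodShafarevich

open FA.GalCoh ScholzReichardt NumberField
open scoped Pointwise

local notation "Qb" => AlgebraicClosure ℚ

variable {p : ℕ} [hp : Fact p.Prime]

/-- Every complex embedding of a subfield is a conjugate of the chosen one. -/
theorem exists_embedding_eq (N : IntermediateField ℚ Qb) [FiniteDimensional ℚ N] (φ₀ : N →+* ℂ) :
    ∃ g : GQ, ∀ x : N, complexEmbedding (g x) = φ₀ x := by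
  have : Normal ℚ Qb := FA.Local.isGalois_qbar.to_normal
  let φ : N →ₐ[ℚ] ℂ :=
    { φ₀ with
      commutes' := fun r => DFunLike.congr_fun
        (Subsingleton.elim (φ₀.comp (algebraMap ℚ N)) (algebraMap ℚ ℂ)) r }
  have hmem : ∀ x : N, φ x ∈ complexEmbedding.fieldRange := fun x => by
    have hs : ((minpoly ℚ x).map (algebraMap ℚ Qb)).Splits := IsAlgClosed.splits _
    have hx : φ x ∈ (minpoly ℚ x).rootSet ℂ := (Polynomial.mem_rootSet).2
      ⟨minpoly.ne_zero (Algebra.IsIntegral.isIntegral x), by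
        rw [Polynomial.aeval_algHom_apply, minpoly.aeval, map_zero]⟩
    rw [← Polynomial.Splits.image_rootSet hs complexEmbedding] at hx
    obtain ⟨z, -, hz⟩ := hx
    exact ⟨z, hz⟩
  let φ' : N →ₐ[ℚ] Qb := (AlgEquiv.ofInjectiveField complexEmbedding).symm.toAlgHom.comp
    (φ.codRestrict complexEmbedding.fieldRange.toSubalgebra hmem)
  refine ⟨AlgEquiv.ofBijective (φ'.liftNormal Qb) (Algebra.IsAlgebraic.algHom_bijective _),
    fun x => ?_⟩
  exact (congrArg complexEmbedding (φ'.liftNormal_commutes Qb x)).trans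
    (congrArg Subtype.val ((AlgEquiv.ofInjectiveField complexEmbedding).apply_symm_apply
      (φ.codRestrict complexEmbedding.fieldRange.toSubalgebra hmem x)))

/-- A bridge from inertia groups to ramification indices. -/
theorem unramifiedPrimes_of_inertia (F : IntermediateField ℚ Qb) [FiniteDimensional ℚ F]
    (M : IntermediateField F Qb) [FiniteDimensional F M] [IsGalois F M] [NumberField F]
    [NumberField M]
    (h : ∀ q : ℕ, q.Prime → ∀ A : ValuationSubring Qb, A.LiesOverPrime q →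
      ∀ σ ∈ A.inertiaSubgroupIn ℚ, σ ∈ F.fixingSubgroup → ∀ x ∈ M, σ x = x) :
    FA.ClassField94.UnramifiedPrimes F M := by
  intro P hP hP0
  have : P.IsMaximal := hP.isMaximal hP0
  have : FiniteDimensional ℚ (M.restrictScalars ℚ) :=
    (Module.Finite.trans F M : Module.Finite ℚ M)
  let N : IntermediateField ℚ Qb := IntermediateField.normalClosure ℚ (M.restrictScalars ℚ) Qb
  have hMN : ∀ x ∈ M, x ∈ N := fun x hx => (M.restrictScalars ℚ).le_normalClosure hx
  have hFN : F ≤ N := fun x hx => hMN x (M.algebraMap_mem ⟨x, hx⟩)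
  let _ : Algebra F N := (IntermediateField.inclusion hFN).toRingHom.toAlgebra
  let _ : Algebra M N := RingHom.toAlgebra
    { toFun := fun x => ⟨x.1, hMN _ x.2⟩
      map_one' := rfl
      map_mul' := fun _ _ => rfl
      map_zero' := rfl
      map_add' := fun _ _ => rfl }
  have : IsScalarTower F M N := IsScalarTower.of_algebraMap_eq fun _ => rfl
  have : IsScalarTower ℚ F N := IsScalarTower.of_algebraMap_eq' (Subsingleton.elim _ _)
  have : NumberField N := { }
  have : Normal ℚ N := normalClosure.normal ℚ (M.restrictScalars ℚ) Qb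
  have : IsGalois ℚ N := ⟨⟩
  have : IsGalois F N := IsGalois.tower_top_of_isGalois ℚ F N
  have hw0 : P.under (𝓞 F) ≠ ⊥ := Ideal.under_ne_bot _ hP0
  have : (P.under (𝓞 F)).IsMaximal := Ideal.IsPrime.isMaximal inferInstance hw0
  have : Finite (𝓞 F ⧸ P.under (𝓞 F)) := Ideal.finiteQuotientOfFreeOfNeBot _ hw0
  obtain ⟨Q, hQ, hQP⟩ := Ideal.exists_maximal_ideal_liesOver_of_isIntegral (S := 𝓞 N) P
  have hbot : P.inertia (M ≃ₐ[F] M) = ⊥ := (Subgroup.eq_bot_iff_forall _).2 fun τ hτ => by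
    obtain ⟨σ, hσ, hστ⟩ := FA.ArtinL.exists_inertia_lift (K := F) (M := M) (L := N) Q (τ := τ)
      (by rwa [← hQP.over])
    have hQ0 : Q ≠ ⊥ := Ideal.ne_bot_of_liesOver_of_ne_bot hP0 Q
    have : Finite (𝓞 N ⧸ Q) := Ideal.finiteQuotientOfFreeOfNeBot Q hQ0
    let _ := Ideal.Quotient.field Q
    set q := ringChar (𝓞 N ⧸ Q)
    have hq : q.Prime := CharP.char_is_prime (𝓞 N ⧸ Q) q
    have hqQ : (q : 𝓞 N) ∈ Q := by
      rw [← Ideal.Quotient.eq_zero_iff_mem, map_natCast]
      exact CharP.cast_eq_zero _ q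
    obtain ⟨A, hA, σ', hσ', hext⟩ :=
      FA.Ext.exists_inertia_lift N Q hq hqQ (σ.restrictScalars ℚ) fun x => hσ x
    have hF : σ' ∈ F.fixingSubgroup := (IntermediateField.mem_fixingSubgroup_iff _ _).2
      fun x hx => (hext ⟨x, hFN hx⟩).trans (congrArg Subtype.val (σ.commutes ⟨x, hx⟩))
    refine AlgEquiv.ext fun y => Subtype.ext ?_
    have h1 : (algebraMap M N (τ y) : Qb) = ((σ (algebraMap M N y) : N) : Qb) := by
      rw [← hστ]
      exact congrArg Subtype.val (σ.restrictNormal_commutes M y)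
    exact h1.trans ((hext (algebraMap M N y)).symm.trans (h q hq A hA σ' hσ' hF y y.2))
  have hcard := Ideal.card_inertia_eq_ramificationIdxIn (G := M ≃ₐ[F] M) (P.under (𝓞 F)) P
  rw [hbot, Subgroup.card_bot,
    Ideal.ramificationIdxIn_eq_ramificationIdx (P.under (𝓞 F)) P (M ≃ₐ[F] M)] at hcard
  exact hcard.symm

variable {m : ℕ} {S : Finset Nat.Primes}

/-- Complex conjugation is killed by the class. -/
theorem InClass.complexConjugation_eq_one (hp2 : p ≠ 2) {G : Type} [Group G] {ρ : GQ →* G}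
    (h : InClass p m S ρ) : ρ complexConjugation = 1 := by
  obtain ⟨k, hk⟩ := h.pPow complexConjugation
  have h2 : ρ complexConjugation ^ 2 = 1 := by
    rw [sq, ← map_mul, complexConjugation_mul_self, map_one]
  rcases (Nat.dvd_prime Nat.prime_two).1 (orderOf_dvd_of_pow_eq_one h2) with h1 | h1
  · exact orderOf_eq_one_iff.1 h1
  · have h3 := orderOf_dvd_of_pow_eq_one hk
    rw [h1] at h3
    exact absurd ((Nat.prime_dvd_prime_iff_eq Nat.prime_two hp.out).1
      (Nat.prime_two.dvd_of_dvd_pow h3)).symm hp2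

/-- The field cut out by a surjection in the class. -/
theorem InClass.exists_field {G : Type} [Group G] [Finite G] {ρ : GQ →* G}
    (h : InClass p m S ρ) (hρ : Function.Surjective ρ) :
    ∃ L : IntermediateField ℚ Qb, FiniteDimensional ℚ L ∧ IsGalois ℚ L ∧
      Module.finrank ℚ L = Nat.card G ∧ (∃ n, Nat.card G = p ^ n) ∧
      ∀ σ : GQ, σ ∈ L.fixingSubgroup ↔ ρ σ = 1 := by
  obtain ⟨L, hL, hgal, ⟨e⟩, hiff⟩ :=
    FA.AbelianInverseGalois.exists_field_of_surjective ρ hρ h.isOpen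
  exact ⟨L, hL, hgal, by rw [← IsGalois.card_aut_eq_finrank ℚ L, Nat.card_congr e.toEquiv],
    IsPGroup.iff_card.1 (h.isPGroup hρ),
    fun σ => (IntermediateField.mem_fixingSubgroup_iff L σ).trans (hiff σ)⟩

/-- Unramified outside `S`: inertia there fixes the field. -/
theorem InClass.inertia_le {G : Type} [Group G] {ρ : GQ →* G} (h : InClass p m S ρ)
    {L : IntermediateField ℚ Qb} (hL : ∀ σ : GQ, ρ σ = 1 → σ ∈ L.fixingSubgroup) {q : Nat.Primes}
    (hq : q ∉ S) {A : ValuationSubring Qb} (hA : A.LiesOverPrime (q : ℕ)) :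
    A.inertiaSubgroupIn ℚ ≤ L.fixingSubgroup := fun σ hσ => by
  obtain ⟨τ, t, ht, rfl⟩ := exists_conj_inertL hA hσ
  exact hL _ (by rw [map_mul, map_mul, map_inv, h.unr q hq t ht, mul_one, mul_inv_cancel])

/-- `K` is the bottom of unramified Galois `p`-extensions of unbounded degree. -/
def HasTower (p : ℕ) (K : IntermediateField ℚ Qb) : Prop :=
  ∀ B : ℕ, ∃ L : IntermediateField ℚ Qb, K ≤ L ∧ FiniteDimensional ℚ L ∧ IsGalois ℚ L ∧
    (∃ n, Module.finrank ℚ L = p ^ n) ∧ B < Module.finrank ℚ L ∧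
    complexConjugation ∈ L.fixingSubgroup ∧
    ∀ q : ℕ, q.Prime → ∀ A : ValuationSubring Qb, A.LiesOverPrime q →
      A.inertiaSubgroupIn ℚ ⊓ K.fixingSubgroup ≤ L.fixingSubgroup

/-- The field cut out by a member of the class, over the field of a ramified member. -/
theorem exists_layer (hS : ∀ q ∈ S, p ∣ (q : ℕ) - 1) {G X : Type} [Group G]
    [Finite G] [Group X] [Finite X] {ρ : GQ →* G} (hρ : Function.Surjective ρ)
    (hc : InClass p p S ρ) {f : GQ →* X} (hf : InClass p p S f)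
    (hram : ∀ q ∈ S, ∃ η ∈ inertL ((q : Nat.Primes) : ℕ), f (loc (q : ℕ) η) ≠ 1)
    (hρc : ρ complexConjugation = 1) (hfc : f complexConjugation = 1)
    {K : IntermediateField ℚ Qb} (hK : ∀ σ : GQ, σ ∈ K.fixingSubgroup ↔ f σ = 1) :
    ∃ L : IntermediateField ℚ Qb, K ≤ L ∧ FiniteDimensional ℚ L ∧ IsGalois ℚ L ∧
      (∃ n, Module.finrank ℚ L = p ^ n) ∧ Nat.card G ≤ Module.finrank ℚ L ∧
      complexConjugation ∈ L.fixingSubgroup ∧
      (∀ q : ℕ, q.Prime → ∀ A : ValuationSubring Qb, A.LiesOverPrime q →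
        A.inertiaSubgroupIn ℚ ⊓ K.fixingSubgroup ≤ L.fixingSubgroup) ∧
      ∀ g : GQ, g ∈ L.fixingSubgroup ↔ ρ g = 1 ∧ f g = 1 := by
  let σ' := (ρ.prod f).rangeRestrict
  obtain ⟨L, hL, hLg, hLd, hLp, hLf⟩ :=
    (hc.prod hf).rangeRestrict.exists_field (MonoidHom.rangeRestrict_surjective _)
  have hLf' : ∀ g : GQ, g ∈ L.fixingSubgroup ↔ ρ g = 1 ∧ f g = 1 := fun g =>
    (hLf g).trans (Subtype.ext_iff.trans Prod.ext_iff)
  have hKL : K ≤ L := by
    rw [← InfiniteGalois.fixedField_fixingSubgroup K,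
      ← InfiniteGalois.fixedField_fixingSubgroup L]
    exact IntermediateField.fixedField_antitone fun g hg => (hK g).2 ((hLf' g).1 hg).2
  refine ⟨L, hKL, hL, hLg, hLd ▸ hLp, ?_, (hLf' _).2 ⟨hρc, hfc⟩, fun q hq A hA g hg => ?_, hLf'⟩
  · rw [hLd]
    refine Nat.card_le_card_of_surjective (fun z : (ρ.prod f).range => z.1.1) fun x => ?_
    obtain ⟨g, rfl⟩ := hρ x
    exact ⟨σ' g, rfl⟩
  have : Fact q.Prime := ⟨hq⟩
  obtain ⟨hgI, hgK⟩ := Subgroup.mem_inf.1 hg
  obtain ⟨τ, t, ht, rfl⟩ := exists_conj_inertL hA hgI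
  have h1 : f (loc q t) = 1 := by
    have h := (hK _).1 hgK
    rwa [map_mul, map_mul, map_inv, conj_eq_one_iff] at h
  refine (hLf' _).2 ⟨?_, (hK _).1 hgK⟩
  have h2 : ρ (loc q t) = 1 := by
    by_cases hqS : (⟨q, hq⟩ : Nat.Primes) ∈ S
    · exact hc.eq_one_of_ramified hf
        (ne_of_dvd_sub_one' (N := 1) one_pos hq (by rw [pow_one]; exact hS _ hqS)) hqS
        (hram _ hqS) ht h1
    · exact hc.unr ⟨q, hq⟩ hqS t ht
  rw [map_mul, map_mul, map_inv, h2, mul_one, mul_inv_cancel]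

/-- **Unramified extensions of arbitrarily large degree.** -/
theorem hasTower_of_ramified (hp2 : p ≠ 2) (hS : ∀ q ∈ S, p ∣ (q : ℕ) - 1) (h8 : 8 ≤ S.card)
    {X : Type} [Group X] [Finite X] {f : GQ →* X} (hf : InClass p p S f)
    (hram : ∀ q ∈ S, ∃ η ∈ inertL ((q : Nat.Primes) : ℕ), f (loc (q : ℕ) η) ≠ 1)
    {K : IntermediateField ℚ Qb} (hK : ∀ σ : GQ, σ ∈ K.fixingSubgroup ↔ f σ = 1) :
    HasTower p K := fun B => by
  obtain ⟨G, _, _, ρ, hρ, hc, hB⟩ := exists_inClass_card_gt dvd_rfl hS (by omega)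
    (by rw [if_neg hp.out.ne_zero]; nlinarith) B
  obtain ⟨L, h1, h2, h3, h4, h5, h6, h7, -⟩ := exists_layer hS hρ hc hf hram
    (hc.complexConjugation_eq_one hp2) (hf.complexConjugation_eq_one hp2) hK
  exact ⟨L, h1, h2, h3, h4, hB.trans_le h5, h6, h7⟩

/-- The characters of `S` ramify at `S`. -/
theorem exists_inertia_omega_ne {ω : GQ →* Multiplicative ({q // q ∈ S} → ZMod p)}
    (hω : ∀ q : {q // q ∈ S}, ∃ t ∈ inertL (q.1 : ℕ),
      ω (loc (q.1 : ℕ) t) = Multiplicative.ofAdd (Pi.single q 1)) (q : Nat.Primes) (hq : q ∈ S) :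
    ∃ η ∈ inertL (q : ℕ), ω (loc (q : ℕ) η) ≠ 1 := by
  classical
  obtain ⟨t, ht, htω⟩ := hω ⟨q, hq⟩
  refine ⟨t, ht, fun h => zero_ne_one (α := ZMod p) ?_⟩
  have e := congrFun (congrArg Multiplicative.toAdd (htω.symm.trans h)) ⟨q, hq⟩
  rw [toAdd_ofAdd, Pi.single_eq_same, toAdd_one, Pi.zero_apply] at e
  exact e.symm

/-- The field of the characters of order `p` of the primes in `S`. -/
theorem exists_genus_tower (hp2 : p ≠ 2) (hS : ∀ q ∈ S, p ∣ (q : ℕ) - 1) (h8 : 8 ≤ S.card) :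
    ∃ K : IntermediateField ℚ Qb, FiniteDimensional ℚ K ∧ IsGalois ℚ K ∧
      Module.finrank ℚ K = p ^ S.card ∧ complexConjugation ∈ K.fixingSubgroup ∧
      (∀ q : Nat.Primes, q ∉ S → ∀ A : ValuationSubring Qb, A.LiesOverPrime (q : ℕ) →
        A.inertiaSubgroupIn ℚ ≤ K.fixingSubgroup) ∧
      (∀ σ : GQ, (∀ q : Nat.Primes, q ∈ S → ∀ μ : Qb, μ ^ (q : ℕ) = 1 → σ μ = μ) →
        σ ∈ K.fixingSubgroup) ∧ HasTower p K := by
  classical
  obtain ⟨ω, hωs, hωc, hω, hcyc⟩ := exists_omega (dvd_refl p) hS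
  obtain ⟨K, hK, hKg, hKd, -, hKf⟩ := hωc.exists_field hωs
  exact ⟨K, hK, hKg, by
    rw [hKd, Nat.card_congr Multiplicative.toAdd, Nat.card_pi]
    simp, (hKf _).2 (hωc.complexConjugation_eq_one hp2),
    fun q hq A hA => hωc.inertia_le (fun σ h => (hKf σ).2 h) hq hA,
    fun σ hσ => (hKf σ).2 (hcyc σ fun q hq =>
      have : Fact (q : ℕ).Prime := ⟨q.2⟩
      ⟨1, by rw [FA.KroneckerWeber.omega_eq_one (q : ℕ) (hσ q hq), one_pow]⟩),
    hasTower_of_ramified hp2 hS h8 hωc (exists_inertia_omega_ne hω) hKf⟩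

/-- Galois extensions of degree `p` ramified at the primes of `S` and nowhere else. -/
theorem hasTower_of_prime_degree (hp2 : p ≠ 2) (hS : ∀ q ∈ S, p ∣ (q : ℕ) - 1) (h8 : 8 ≤ S.card)
    (C : IntermediateField ℚ Qb) [FiniteDimensional ℚ C] [IsGalois ℚ C]
    (hC : Module.finrank ℚ C = p)
    (hunr : ∀ q : Nat.Primes, q ∉ S → ∀ A : ValuationSubring Qb, A.LiesOverPrime (q : ℕ) →
      A.inertiaSubgroupIn ℚ ≤ C.fixingSubgroup)
    (hram : ∀ q : Nat.Primes, q ∈ S → ∃ A : ValuationSubring Qb, A.LiesOverPrime (q : ℕ) ∧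
      ¬ A.inertiaSubgroupIn ℚ ≤ C.fixingSubgroup) : HasTower p C := by
  let f : GQ →* (C ≃ₐ[ℚ] C) := AlgEquiv.restrictNormalHom C
  have hfix : ∀ σ : GQ, σ ∈ C.fixingSubgroup ↔ f σ = 1 := fun σ => by
    rw [IntermediateField.mem_fixingSubgroup_iff]
    refine ⟨fun h => AlgEquiv.ext fun y => Subtype.ext ?_, fun h x hx => ?_⟩
    · exact (σ.restrictNormal_commutes C y).trans (h y y.2)
    · exact (σ.restrictNormal_commutes C ⟨x, hx⟩).symm.trans
        (congrArg Subtype.val (AlgEquiv.congr_fun h ⟨x, hx⟩))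
  have hpow : ∀ x : C ≃ₐ[ℚ] C, x ^ p = 1 := fun x => by
    rw [← hC, ← IsGalois.card_aut_eq_finrank ℚ C]
    exact pow_card_eq_one'
  have hf : InClass p p S f :=
    ⟨Subgroup.isOpen_mono (fun σ hσ => MonoidHom.mem_ker.2 ((hfix σ).1 hσ))
      C.fixingSubgroup_isOpen, fun g => ⟨1, by rw [pow_one]; exact hpow _⟩,
      fun q hq ι hι => (hfix _).1 (hunr q hq _ (liesOverPrime_padicPlace _) hι),
      fun q _ ι _ => hpow _⟩
  refine hasTower_of_ramified hp2 hS h8 hf (fun q hq => ?_) hfix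
  obtain ⟨A, hA, hne⟩ := hram q hq
  obtain ⟨σ, hσ, hσC⟩ := SetLike.not_le_iff_exists.1 hne
  obtain ⟨τ, t, ht, rfl⟩ := exists_conj_inertL hA hσ
  refine ⟨t, ht, fun h => hσC ((hfix _).2 ?_)⟩
  rw [map_mul, map_mul, map_inv, h, mul_one, mul_inv_cancel]

/-- Galois extensions of degree `p` ramified at the primes of `S` and nowhere else exist. -/
theorem exists_prime_degree_field (hS : ∀ q ∈ S, p ∣ (q : ℕ) - 1) (hne : S.Nonempty) :
    ∃ C : IntermediateField ℚ Qb, FiniteDimensional ℚ C ∧ IsGalois ℚ C ∧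
      Module.finrank ℚ C = p ∧
      (∀ q : Nat.Primes, q ∉ S → ∀ A : ValuationSubring Qb, A.LiesOverPrime (q : ℕ) →
        A.inertiaSubgroupIn ℚ ≤ C.fixingSubgroup) ∧
      ∀ q : Nat.Primes, q ∈ S → ∃ A : ValuationSubring Qb, A.LiesOverPrime (q : ℕ) ∧
        ¬ A.inertiaSubgroupIn ℚ ≤ C.fixingSubgroup := by
  classical
  obtain ⟨ω, hωs, hωc, hω, -⟩ := exists_omega (dvd_refl p) hS
  let sum : ({q // q ∈ S} → ZMod p) →+ ZMod p :=
    { toFun := fun v => ∑ q, v q
      map_zero' := Finset.sum_const_zero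
      map_add' := fun _ _ => Finset.sum_add_distrib }
  let f : GQ →* Multiplicative (ZMod p) := (AddMonoidHom.toMultiplicative sum).comp ω
  have hf : InClass p p S f :=
    ⟨Subgroup.isOpen_mono (fun σ hσ => MonoidHom.mem_ker.2 (by
        rw [MonoidHom.comp_apply, MonoidHom.mem_ker.1 hσ, map_one])) hωc.isOpen,
      fun g => by
        obtain ⟨k, hk⟩ := hωc.pPow g
        exact ⟨k, by rw [MonoidHom.comp_apply, ← map_pow, hk, map_one]⟩,
      fun q hq ι hι => by rw [MonoidHom.comp_apply, hωc.unr q hq ι hι, map_one],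
      fun q hq ι hι => by rw [MonoidHom.comp_apply, ← map_pow, hωc.expo q hq ι hι, map_one]⟩
  have hone : ∀ q : {q // q ∈ S}, f.comp (loc (q.1 : ℕ)) (hω q).choose = Multiplicative.ofAdd 1 :=
    fun q => by
      rw [MonoidHom.comp_apply, MonoidHom.comp_apply, (hω q).choose_spec.2]
      show Multiplicative.ofAdd (∑ r, (Pi.single q 1 : {q // q ∈ S} → ZMod p) r) = _
      rw [Finset.sum_pi_single', if_pos (Finset.mem_univ q)]
  have hfs : Function.Surjective f := fun v => by
    obtain ⟨q₀, hq₀⟩ := hne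
    refine ⟨loc (q₀ : ℕ) (hω ⟨q₀, hq₀⟩).choose ^ (Multiplicative.toAdd v).val, ?_⟩
    rw [map_pow, show f (loc (q₀ : ℕ) (hω ⟨q₀, hq₀⟩).choose) = Multiplicative.ofAdd 1 from
      hone ⟨q₀, hq₀⟩, ← ofAdd_nsmul, nsmul_one, ZMod.natCast_zmod_val,
      ofAdd_toAdd]
  obtain ⟨C, hC, hCg, hCd, -, hCf⟩ := hf.exists_field hfs
  refine ⟨C, hC, hCg, by rw [hCd, Nat.card_congr Multiplicative.toAdd, Nat.card_zmod],
    fun q hq A hA => hf.inertia_le (fun σ h => (hCf σ).2 h) hq hA,
    fun q hq => ⟨_, liesOverPrime_padicPlace (q : ℕ), fun hle => ?_⟩⟩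
  have h := ((hone ⟨q, hq⟩).symm.trans
    ((hCf _).1 (hle (hω ⟨q, hq⟩).choose_spec.1))).trans ofAdd_zero.symm
  exact one_ne_zero (Multiplicative.ofAdd.injective h)

/-- A family of Galois extensions of unbounded degree fixed by a set makes up an infinite one. -/
theorem exists_infinite_of_unbounded {K : IntermediateField ℚ Qb} {T : Set GQ}
    (h : ∀ B : ℕ, ∃ L : IntermediateField ℚ Qb, K ≤ L ∧ IsGalois ℚ L ∧
      B < Module.finrank ℚ L ∧ T ⊆ L.fixingSubgroup) :
    ∃ M : IntermediateField ℚ Qb, K ≤ M ∧ IsGalois ℚ M ∧ ¬ FiniteDimensional ℚ M ∧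
      T ⊆ M.fixingSubgroup := by
  choose L hKL hLg hLB hLT using h
  have hn : ∀ n, Normal ℚ (L n) := fun n => by have := hLg n; infer_instance
  have : Normal ℚ (⨆ n, L n : IntermediateField ℚ Qb) :=
    IntermediateField.normal_iSup (t := L) (h := hn)
  refine ⟨⨆ n, L n, (hKL 0).trans (le_iSup L 0), ⟨⟩, fun hfin => ?_, fun g hg => ?_⟩
  · have hle := le_iSup L (Module.finrank ℚ (⨆ n, L n : IntermediateField ℚ Qb))
    exact absurd ((IntermediateField.inclusion hle).toLinearMap.finrank_le_finrank_of_injective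
      (IntermediateField.inclusion hle).injective) (not_le.2 (hLB _))
  · have hle : (⨆ n, L n) ≤ IntermediateField.fixedField (Subgroup.zpowers g) :=
      iSup_le fun n => (IntermediateField.le_iff_le _ _).2 (Subgroup.zpowers_le.2 (hLT n hg))
    exact (IntermediateField.le_iff_le _ _).1 hle (Subgroup.mem_zpowers g)

/-- The tower as one infinite extension. -/
theorem HasTower.exists_infinite {K : IntermediateField ℚ Qb} (h : HasTower p K) :
    ∃ M : IntermediateField ℚ Qb, K ≤ M ∧ IsGalois ℚ M ∧ ¬ FiniteDimensional ℚ M ∧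
      complexConjugation ∈ M.fixingSubgroup ∧
      ∀ q : ℕ, q.Prime → ∀ A : ValuationSubring Qb, A.LiesOverPrime q →
        A.inertiaSubgroupIn ℚ ⊓ K.fixingSubgroup ≤ M.fixingSubgroup := by
  obtain ⟨M, h1, h2, h3, h4⟩ := exists_infinite_of_unbounded (K := K)
    (T := {g | g = complexConjugation ∨ ∃ q : ℕ, q.Prime ∧ ∃ A : ValuationSubring Qb,
      A.LiesOverPrime q ∧ g ∈ A.inertiaSubgroupIn ℚ ⊓ K.fixingSubgroup}) fun B => by
    obtain ⟨L, hKL, -, hLg, -, hB, hc, hu⟩ := h B
    exact ⟨L, hKL, hLg, hB, fun g hg => by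
      rcases hg with rfl | ⟨q, hq, A, hA, hg⟩
      · exact hc
      · exact hu q hq A hA hg⟩
  exact ⟨M, h1, h2, h3, h4 (Or.inl rfl),
    fun q hq A hA g hg => h4 (Or.inr ⟨q, hq, A, hA, hg⟩)⟩

/-- **The `p`-extensions of `ℚ` unramified outside four primes are infinite.** -/
theorem exists_tame_infinite (hp2 : p ≠ 2) (hS : ∀ q ∈ S, p ∣ (q : ℕ) - 1) (h4 : 4 ≤ S.card) :
    (∀ B : ℕ, ∃ L : IntermediateField ℚ Qb, FiniteDimensional ℚ L ∧ IsGalois ℚ L ∧
      (∃ n, Module.finrank ℚ L = p ^ n) ∧ B < Module.finrank ℚ L ∧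
      complexConjugation ∈ L.fixingSubgroup ∧
      ∀ q : Nat.Primes, q ∉ S → ∀ A : ValuationSubring Qb, A.LiesOverPrime (q : ℕ) →
        A.inertiaSubgroupIn ℚ ≤ L.fixingSubgroup) ∧
    ∃ M : IntermediateField ℚ Qb, IsGalois ℚ M ∧ ¬ FiniteDimensional ℚ M ∧
      complexConjugation ∈ M.fixingSubgroup ∧
      ∀ q : Nat.Primes, q ∉ S → ∀ A : ValuationSubring Qb, A.LiesOverPrime (q : ℕ) →
        A.inertiaSubgroupIn ℚ ≤ M.fixingSubgroup := by
  have h : ∀ B : ℕ, ∃ L : IntermediateField ℚ Qb, FiniteDimensional ℚ L ∧ IsGalois ℚ L ∧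
      (∃ n, Module.finrank ℚ L = p ^ n) ∧ B < Module.finrank ℚ L ∧
      complexConjugation ∈ L.fixingSubgroup ∧
      ∀ q : Nat.Primes, q ∉ S → ∀ A : ValuationSubring Qb, A.LiesOverPrime (q : ℕ) →
        A.inertiaSubgroupIn ℚ ≤ L.fixingSubgroup := fun B => by
    obtain ⟨G, _, _, ρ, hρ, hc, hB⟩ := exists_inClass_card_gt (dvd_zero p) hS (by omega)
      (by rw [if_pos rfl]; nlinarith) B
    obtain ⟨L, hL, hLg, hLd, hLp, hLf⟩ := hc.exists_field hρ
    exact ⟨L, hL, hLg, hLd ▸ hLp, hLd ▸ hB, (hLf _).2 (hc.complexConjugation_eq_one hp2),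
      fun q hq A hA => hc.inertia_le (fun σ h => (hLf σ).2 h) hq hA⟩
  obtain ⟨M, -, h2, h3, h4'⟩ := exists_infinite_of_unbounded (K := ⊥)
    (T := {g | g = complexConjugation ∨ ∃ q : Nat.Primes, q ∉ S ∧ ∃ A : ValuationSubring Qb,
      A.LiesOverPrime (q : ℕ) ∧ g ∈ A.inertiaSubgroupIn ℚ}) fun B => by
    obtain ⟨L, -, hLg, -, hB, hc, hu⟩ := h B
    exact ⟨L, bot_le, hLg, hB, fun g hg => by
      rcases hg with rfl | ⟨q, hq, A, hA, hg⟩
      · exact hc
      · exact hu q hq A hA hg⟩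
  exact ⟨h, M, h2, h3, h4' (Or.inl rfl),
    fun q hq A hA g hg => h4' (Or.inr ⟨q, hq, A, hA, hg⟩)⟩

/-- **Every field containing the bottom of an infinite tower has class number divisible by `p`.** -/
theorem HasTower.dvd_classNumber_of_inertia {K F : IntermediateField ℚ Qb}
    [FiniteDimensional ℚ F] [NumberField F] (h : HasTower p K)
    (hKF : ∀ q : ℕ, q.Prime → ∀ A : ValuationSubring Qb, A.LiesOverPrime q →
      A.inertiaSubgroupIn ℚ ⊓ F.fixingSubgroup ≤ K.fixingSubgroup) :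
    p ∣ classNumber F := by
  classical
  obtain ⟨L, -, hL, hLg, ⟨m, hm⟩, hB, hcL, hunr⟩ := h (Module.finrank ℚ F)
  have : IsGalois F Qb := IsGalois.tower_top_of_isGalois ℚ F Qb
  let θ : (Qb ≃ₐ[F] Qb) →* (L ≃ₐ[ℚ] L) := (AlgEquiv.restrictNormalHom L).comp
    (MonoidHom.mk' (fun σ => σ.restrictScalars ℚ) fun _ _ => rfl)
  have hθ : ∀ σ : Qb ≃ₐ[F] Qb, θ σ = 1 ↔ ∀ x ∈ L, σ x = x := fun σ => by
    refine ⟨fun h1 x hx => ?_, fun h1 => AlgEquiv.ext fun y => Subtype.ext ?_⟩
    · exact ((σ.restrictScalars ℚ).restrictNormal_commutes L ⟨x, hx⟩).symm.trans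
        (congrArg Subtype.val (AlgEquiv.congr_fun h1 ⟨x, hx⟩))
    · exact ((σ.restrictScalars ℚ).restrictNormal_commutes L y).trans (h1 y y.2)
  let E : IntermediateField F Qb := IntermediateField.extendScalars (le_sup_left : F ≤ F ⊔ L)
  have hEQ : FiniteDimensional ℚ E :=
    (inferInstance : FiniteDimensional ℚ (F ⊔ L : IntermediateField ℚ Qb))
  have : FiniteDimensional F E := Module.Finite.of_restrictScalars_finite ℚ F E
  have hopen : IsOpen (θ.ker : Set (Qb ≃ₐ[F] Qb)) := Subgroup.isOpen_mono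
    (fun σ hσ => MonoidHom.mem_ker.2 ((hθ σ).2 fun x hx =>
      (IntermediateField.mem_fixingSubgroup_iff _ _).1 hσ x
        ((le_sup_right : L ≤ F ⊔ L) hx)))
    (IntermediateField.fixingSubgroup_isOpen E)
  let H : ClosedSubgroup (Qb ≃ₐ[F] Qb) := ⟨θ.ker, Subgroup.isClosed_of_isOpen _ hopen⟩
  have : H.Normal := θ.normal_ker
  set M : IntermediateField F Qb := IntermediateField.fixedField H.1
  obtain ⟨hMf, hMg⟩ :=
    (InfiniteGalois.isOpen_and_normal_iff_finite_and_isGalois M).mp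
      (by rw [InfiniteGalois.fixingSubgroup_fixedField H]; exact ⟨hopen, θ.normal_ker⟩)
  have : NumberField M := NumberField.of_module_finite F M
  have e : (M ≃ₐ[F] M) ≃* θ.range :=
    (InfiniteGalois.normalAutEquivQuotient H).symm.trans (QuotientGroup.quotientKerEquivRange θ)
  have hdeg : Module.finrank F M = Nat.card θ.range := by
    rw [← IsGalois.card_aut_eq_finrank F M, Nat.card_congr e.toEquiv]
  obtain ⟨i, -, hi⟩ : ∃ i ≤ m, Nat.card θ.range = p ^ i := by
    rw [← Nat.dvd_prime_pow hp.out, ← hm, ← IsGalois.card_aut_eq_finrank ℚ L]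
    exact Subgroup.card_subgroup_dvd_card _
  have hne : Module.finrank F M ≠ 1 := by
    rw [hdeg]
    intro h1
    rw [Subgroup.card_eq_one] at h1
    have hle : L ≤ F := by
      rw [← InfiniteGalois.fixedField_fixingSubgroup F]
      refine (IntermediateField.le_iff_le _ _).2 fun g hg => ?_
      have hcomm : ∀ x : F, g.toRingEquiv (algebraMap F Qb x) = algebraMap F Qb x := fun x =>
        (IntermediateField.mem_fixingSubgroup_iff _ _).1 hg _ x.2
      have h2 : θ (AlgEquiv.ofRingEquiv hcomm) = 1 := by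
        have h3 : θ (AlgEquiv.ofRingEquiv hcomm) ∈ θ.range := ⟨_, rfl⟩
        rwa [h1, Subgroup.mem_bot] at h3
      exact (IntermediateField.mem_fixingSubgroup_iff _ _).2 ((hθ _).1 h2)
    exact absurd ((IntermediateField.inclusion hle).toLinearMap.finrank_le_finrank_of_injective
      (IntermediateField.inclusion hle).injective) (not_le.2 hB)
  have hU : FA.ClassField94.UnramifiedPrimes F M :=
    unramifiedPrimes_of_inertia F M fun q hq A hA g hgI hgF x hx => by
      have hcomm : ∀ y : F, g.toRingEquiv (algebraMap F Qb y) = algebraMap F Qb y := fun y =>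
        (IntermediateField.mem_fixingSubgroup_iff _ _).1 hgF _ y.2
      have hgL : g ∈ L.fixingSubgroup := hunr q hq A hA ⟨hgI, hKF q hq A hA ⟨hgI, hgF⟩⟩
      exact (IntermediateField.mem_fixedField_iff _ _).1 hx (AlgEquiv.ofRingEquiv hcomm)
        ((hθ _).2 ((IntermediateField.mem_fixingSubgroup_iff _ _).1 hgL))
  have hP : IsPGroup p (M ≃ₐ[F] M) :=
    IsPGroup.of_card (n := i) (by rw [Nat.card_congr e.toEquiv, hi])
  have : Group.IsNilpotent (M ≃ₐ[F] M) := hP.isNilpotent
  have : IsUnramifiedAtInfinitePlaces F M := ⟨fun w => ?_⟩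
  swap
  · -- conjugates of complex conjugation fix the tower
    rw [InfinitePlace.isUnramified_iff]
    by_contra hw
    push Not at hw
    obtain ⟨hwc, hwF⟩ := hw
    have : FiniteDimensional ℚ (M.restrictScalars ℚ) :=
      (Module.Finite.trans F M : Module.Finite ℚ M)
    obtain ⟨g, hg⟩ := exists_embedding_eq (M.restrictScalars ℚ) w.embedding
    have hgF : g⁻¹ * complexConjugation * g ∈ F.fixingSubgroup := by
      refine (IntermediateField.mem_fixingSubgroup_iff _ _).2 fun x hx => ?_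
      have hreal : ComplexEmbedding.IsReal (w.embedding.comp (algebraMap F M)) := by
        rw [← InfinitePlace.isReal_mk_iff, ← InfinitePlace.comap_mk, InfinitePlace.mk_embedding]
        exact InfinitePlace.not_isComplex_iff_isReal.1 hwF
      have hx' := RingHom.congr_fun (ComplexEmbedding.isReal_iff.1 hreal) ⟨x, hx⟩
      rw [AlgEquiv.mul_apply, AlgEquiv.mul_apply]
      refine g.injective ?_
      rw [show g (g⁻¹ (complexConjugation (g x))) = complexConjugation (g x) from
        g.apply_symm_apply _]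
      refine complexEmbedding.toRingHom.injective ?_
      show complexEmbedding _ = complexEmbedding _
      rw [complexEmbedding_complexConjugation, hg ⟨x, M.algebraMap_mem ⟨x, hx⟩⟩]
      exact hx'
    have hgL : g⁻¹ * complexConjugation * g ∈ L.fixingSubgroup := by
      refine (IntermediateField.mem_fixingSubgroup_iff _ _).2 fun x hx => ?_
      have hgx : g x ∈ L := (g.restrictNormal_commutes L ⟨x, hx⟩) ▸ (g.restrictNormal L ⟨x, hx⟩).2
      rw [AlgEquiv.mul_apply, AlgEquiv.mul_apply,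
        (IntermediateField.mem_fixingSubgroup_iff _ _).1 hcL _ hgx]
      exact g.symm_apply_apply x
    refine hwc (InfinitePlace.isReal_iff.2 (ComplexEmbedding.isReal_iff.2
      (RingHom.ext fun y => ?_)))
    show starRingEnd ℂ (w.embedding y) = w.embedding y
    have hcomm : ∀ z : F, (g⁻¹ * complexConjugation * g).toRingEquiv (algebraMap F Qb z) =
        algebraMap F Qb z := fun z => (IntermediateField.mem_fixingSubgroup_iff _ _).1 hgF _ z.2
    have hfix : (g⁻¹ * complexConjugation * g) (y : Qb) = y :=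
      (IntermediateField.mem_fixedField_iff _ _).1 y.2 (AlgEquiv.ofRingEquiv hcomm)
        ((hθ _).2 ((IntermediateField.mem_fixingSubgroup_iff _ _).1 hgL))
    rw [show w.embedding y = complexEmbedding (g y) from (hg ⟨y.1, y.2⟩).symm,
      ← complexEmbedding_complexConjugation]
    conv_rhs => rw [← hfix]
    rw [AlgEquiv.mul_apply, AlgEquiv.mul_apply]
    exact congrArg _ (g.apply_symm_apply _).symm
  obtain ⟨l, hl, hld, hlh⟩ := FA.ClassField94.exists_prime_dvd_classNumber hU hne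
  rw [hdeg, hi] at hld
  exact (Nat.prime_dvd_prime_iff_eq hl hp.out).1 (hl.dvd_of_dvd_pow hld) ▸ hlh

/-- `p` divides the class number of every field containing the bottom of a tower. -/
theorem HasTower.dvd_classNumber {K F : IntermediateField ℚ Qb}
    [FiniteDimensional ℚ F] [NumberField F] (h : HasTower p K) (hKF : K ≤ F) :
    p ∣ classNumber F :=
  h.dvd_classNumber_of_inertia fun _ _ _ _ _ hg =>
    IntermediateField.fixingSubgroup_antitone hKF hg.2

/-- Isomorphic number fields have the same class number. -/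
theorem classNumber_congr {F F' : Type*} [Field F] [NumberField F] [Field F'] [NumberField F']
    (e : F ≃+* F') : classNumber F = classNumber F' :=
  Fintype.card_congr (ClassGroup.mulEquiv (RingOfIntegers.mapRingEquiv e)).toEquiv

/-- The same for abstract fields. -/
theorem HasTower.dvd_classNumber_of_hom {K : IntermediateField ℚ Qb}
    [hKg : IsGalois ℚ K] (h : HasTower p K) (F : Type) [Field F] [NumberField F]
    (i : K →+* F) : p ∣ classNumber F := by
  have : Normal ℚ K := hKg.to_normal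
  let j : F →ₐ[ℚ] Qb := IsAlgClosed.lift
  let k : K →ₐ[ℚ] F :=
    { i with
      commutes' := fun r => DFunLike.congr_fun
        (Subsingleton.elim (i.comp (algebraMap ℚ K)) (algebraMap ℚ F)) r }
  have hKF : K ≤ j.fieldRange := by
    rw [← @AlgHom.fieldRange_of_normal ℚ Qb _ _ _ K this (j.comp k)]
    rintro _ ⟨x, rfl⟩
    exact ⟨k x, rfl⟩
  have : FiniteDimensional ℚ j.fieldRange :=
    (AlgEquiv.ofInjectiveField j).toLinearEquiv.finiteDimensional
  have : NumberField j.fieldRange := { }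
  rw [classNumber_congr (F' := j.fieldRange) (AlgEquiv.ofInjectiveField j).toRingEquiv]
  exact h.dvd_classNumber hKF

/-- A field fixed by complex conjugation and Galois is totally real. -/
theorem isTotallyReal_of_fixed (K : IntermediateField ℚ Qb) [FiniteDimensional ℚ K]
    [hKg : IsGalois ℚ K] (hc : complexConjugation ∈ K.fixingSubgroup) : IsTotallyReal K := by
  refine ⟨fun w => InfinitePlace.isReal_iff.2 ?_⟩
  let φ : K →ₐ[ℚ] ℂ :=
    { w.embedding with
      commutes' := fun r => DFunLike.congr_fun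
        (Subsingleton.elim (w.embedding.comp (algebraMap ℚ K)) (algebraMap ℚ ℂ)) r }
  rw [ComplexEmbedding.isReal_iff]
  refine RingHom.ext fun x => ?_
  show starRingEnd ℂ (φ x) = φ x
  have hn : Normal ℚ K := hKg.to_normal
  obtain ⟨y, hy, hyx⟩ : ∃ y ∈ K, complexEmbedding y = φ x := by
    have h := Polynomial.Splits.image_rootSet (hn.splits x)
      ((complexEmbedding).comp K.val)
    have hx : φ x ∈ (minpoly ℚ x).rootSet ℂ := (Polynomial.mem_rootSet).2
      ⟨minpoly.ne_zero (Algebra.IsIntegral.isIntegral x), by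
        rw [Polynomial.aeval_algHom_apply, minpoly.aeval, map_zero]⟩
    rw [← h] at hx
    obtain ⟨z, -, hz⟩ := hx
    exact ⟨z, z.2, hz⟩
  rw [← hyx, ← complexEmbedding_complexConjugation,
    (IntermediateField.mem_fixingSubgroup_iff _ _).1 hc y hy]

/-- A number field unramified over another has the same root discriminant. -/
theorem natAbs_discr_eq_pow (K M : Type) [Field K] [NumberField K] [Field M] [NumberField M]
    [Algebra K M] (h : FA.ClassField94.UnramifiedPrimes K M) :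
    (discr M).natAbs = (discr K).natAbs ^ Module.finrank K M := by
  have htop : differentIdeal (𝓞 K) (𝓞 M) = ⊤ := by
    by_contra hne
    obtain ⟨P, hP, hle⟩ := Ideal.exists_le_maximal _ hne
    have hP0 : P ≠ ⊥ := fun h0 => differentIdeal_ne_bot (le_bot_iff.1 (h0 ▸ hle))
    have hw0 : P.under (𝓞 K) ≠ ⊥ := Ideal.under_ne_bot _ hP0
    have : (P.under (𝓞 K)).IsMaximal := Ideal.IsPrime.isMaximal inferInstance hw0
    have : Finite (𝓞 K ⧸ P.under (𝓞 K)) := Ideal.finiteQuotientOfFreeOfNeBot _ hw0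
    have : Finite (P.under (𝓞 K)).ResidueField :=
      Finite.of_surjective _ (P.under (𝓞 K)).bijective_algebraMap_quotient_residueField.2
    exact not_dvd_differentIdeal_iff.2
      ((Ideal.ramificationIdx_eq_one_iff (R := 𝓞 K)).1 (h P hP.isPrime hP0))
      (Ideal.dvd_iff_le.2 hle)
  rw [natAbs_discr_eq_absNorm_differentIdeal_mul_natAbs_discr_pow K (𝓞 K) M (𝓞 M), htop,
    ← Ideal.one_eq_top, map_one, one_mul]

/-- **Bounded root discriminants.** -/
theorem HasTower.exists_discr_eq {K : IntermediateField ℚ Qb} [FiniteDimensional ℚ K]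
    [NumberField K] [IsGalois ℚ K] (h : HasTower p K) (B : ℕ) :
    ∃ (L : IntermediateField ℚ Qb) (_ : FiniteDimensional ℚ L) (_ : NumberField L),
      K ≤ L ∧ IsGalois ℚ L ∧ IsTotallyReal L ∧ B < Module.finrank ℚ L ∧
      (discr L).natAbs ^ Module.finrank ℚ K = (discr K).natAbs ^ Module.finrank ℚ L := by
  obtain ⟨L, hKL, hL, hLg, -, hB, hc, hu⟩ := h B
  have : NumberField L := { }
  let M : IntermediateField K Qb := IntermediateField.extendScalars hKL
  let e : L ≃ₐ[ℚ] M :=
    { toFun := fun x => ⟨x.1, x.2⟩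
      invFun := fun x => ⟨x.1, x.2⟩
      left_inv := fun _ => rfl
      right_inv := fun _ => rfl
      map_mul' := fun _ _ => rfl
      map_add' := fun _ _ => rfl
      commutes' := fun _ => rfl }
  have hMQ : FiniteDimensional ℚ M := e.toLinearEquiv.finiteDimensional
  have : NumberField M := { }
  have : FiniteDimensional K M := Module.Finite.of_restrictScalars_finite ℚ K M
  have : IsGalois ℚ M := IsGalois.of_algEquiv e
  have : IsScalarTower ℚ K M := IsScalarTower.of_algebraMap_eq' (Subsingleton.elim _ _)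
  have : IsGalois K M := IsGalois.tower_top_of_isGalois ℚ K M
  have hU := unramifiedPrimes_of_inertia K M fun q hq A hA g hgI hgK x hx =>
    (IntermediateField.mem_fixingSubgroup_iff _ _).1 (hu q hq A hA ⟨hgI, hgK⟩) x hx
  refine ⟨L, hL, inferInstance, hKL, hLg, isTotallyReal_of_fixed L hc, hB, ?_⟩
  rw [discr_eq_discr_of_algEquiv L e, natAbs_discr_eq_pow K M hU, ← pow_mul, mul_comm,
    Module.finrank_mul_finrank ℚ K M, e.toLinearEquiv.finrank_eq]

/-- Eight primes congruent to `1` modulo `p`. -/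
theorem exists_primes_eight :
    ∃ S : Finset Nat.Primes, (∀ q ∈ S, p ∣ (q : ℕ) - 1) ∧ S.card = 8 := by
  obtain ⟨S, hS, hcard⟩ := Set.Infinite.exists_subset_card_eq
    (s := {q : Nat.Primes | p ∣ (q : ℕ) - 1}) (fun hfin => by
      obtain ⟨l, hl, hlt, hmod⟩ := Nat.exists_prime_gt_modEq_one (k := p)
        (hfin.toFinset.sup fun q : Nat.Primes => (q : ℕ)) hp.out.ne_zero
      have hmem : (⟨l, hl⟩ : Nat.Primes) ∈ hfin.toFinset :=
        hfin.mem_toFinset.2 ((Nat.modEq_iff_dvd' hl.one_le).1 hmod.symm)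
      exact absurd (Finset.le_sup (f := fun q : Nat.Primes => (q : ℕ)) hmem) (not_le.2 hlt)) 8
  exact ⟨S, fun q hq => hS hq, hcard⟩

end Fermat.Agent.GolodShafarevich
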