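import Fermat.Agent.ScholzReichardt.Basic

/-!
# The inequality of Golod and Shafarevich

A finite `p`-group of rank `d` needs more than `d ^ 2 / 4` relations. The Fox derivatives of the
relations generate the kernel of `(F_p[G]) ^ d → I`, and counting dimensions modulo the powers of
the augmentation ideal `I` makes the dimensions of `F_p[G] / I ^ n` grow without bound.
-/

set_option autoImplicit false
set_option linter.unusedSectionVars false

noncomputable section

namespace Fermat.Agent.GolodShafarevich

variable (p : ℕ) (G : Type*) [Group G]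

/-- The group algebra over `ℤ/p`. -/
abbrev GrpAlg : Type _ := MonoidAlgebra (ZMod p) G

variable {p G} [hp : Fact p.Prime]

/-- A group element in the algebra. -/
abbrev el (g : G) : GrpAlg p G := MonoidAlgebra.of (ZMod p) G g

theorem el_mul (g h : G) : (el (g * h) : GrpAlg p G) = el g * el h :=
  (MonoidAlgebra.of (ZMod p) G).map_mul g h

theorem el_one : (el (1 : G) : GrpAlg p G) = 1 := (MonoidAlgebra.of (ZMod p) G).map_one

variable (p G) in
/-- The powers of the augmentation ideal. -/
def augPow : ℕ → Submodule (ZMod p) (GrpAlg p G)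
  | 0 => ⊤
  | n + 1 => Submodule.span (ZMod p) {y | ∃ g : G, ∃ x ∈ augPow n, y = (el g - 1) * x}

theorem sub_one_mul_mem (n : ℕ) (g : G) {x : GrpAlg p G} (hx : x ∈ augPow p G n) :
    (el g - 1) * x ∈ augPow p G (n + 1) := Submodule.subset_span ⟨g, x, hx, rfl⟩

theorem augPow_succ_induction {n : ℕ} {motive : GrpAlg p G → Prop}
    (hgen : ∀ g : G, ∀ x ∈ augPow p G n, motive ((el g - 1) * x)) (h0 : motive 0)
    (hadd : ∀ a b, motive a → motive b → motive (a + b))
    (hsmul : ∀ (c : ZMod p) a, motive a → motive (c • a)) {y : GrpAlg p G}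
    (hy : y ∈ augPow p G (n + 1)) : motive y := by
  induction hy using Submodule.span_induction with
  | mem y hy => obtain ⟨g, x, hx, rfl⟩ := hy; exact hgen g x hx
  | zero => exact h0
  | add a b _ _ ha hb => exact hadd a b ha hb
  | smul c a _ ha => exact hsmul c a ha

theorem augPow_succ_le (n : ℕ) : augPow p G (n + 1) ≤ augPow p G n := by
  induction n with
  | zero => exact le_top
  | succ n ih =>
    intro y hy
    exact augPow_succ_induction (motive := fun y => y ∈ augPow p G (n + 1))
      (fun g x hx => sub_one_mul_mem n g (ih hx)) (zero_mem _)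
      (fun a b ha hb => add_mem ha hb) (fun c a ha => Submodule.smul_mem _ c ha) hy

theorem el_mul_mem {n : ℕ} (h : G) {x : GrpAlg p G} (hx : x ∈ augPow p G n) :
    el h * x ∈ augPow p G n := by
  induction n generalizing h x with
  | zero => exact Submodule.mem_top
  | succ n ih =>
    refine augPow_succ_induction (motive := fun y => el h * y ∈ augPow p G (n + 1))
      (fun g z hz => ?_) (by rw [mul_zero]; exact zero_mem _)
      (fun a b ha hb => by rw [mul_add]; exact add_mem ha hb)
      (fun c a ha => by rw [mul_smul_comm]; exact Submodule.smul_mem _ c ha) hx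
    have e : el h * ((el g - 1) * z) = (el (h * g * h⁻¹) - 1) * (el h * z) := by
      rw [← mul_assoc, ← mul_assoc, mul_sub, sub_mul (el (h * g * h⁻¹)), mul_one, one_mul,
        ← el_mul, ← el_mul, inv_mul_cancel_right]
    rw [e]
    exact sub_one_mul_mem n _ (ih h hz)

theorem mul_mem_left {n : ℕ} (a : GrpAlg p G) {x : GrpAlg p G} (hx : x ∈ augPow p G n) :
    a * x ∈ augPow p G n := by
  induction a using MonoidAlgebra.induction_on with
  | of g => exact el_mul_mem g hx
  | add a b ha hb => rw [add_mul]; exact add_mem ha hb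
  | smul c a ha => rw [smul_mul_assoc]; exact Submodule.smul_mem _ c ha

theorem mul_sub_one_mem {n : ℕ} (g : G) {x : GrpAlg p G} (hx : x ∈ augPow p G n) :
    x * (el g - 1) ∈ augPow p G (n + 1) := by
  induction n generalizing x with
  | zero =>
    refine mul_mem_left x ?_
    rw [← mul_one (el g - 1)]
    exact sub_one_mul_mem 0 g Submodule.mem_top
  | succ n ih =>
    refine augPow_succ_induction (motive := fun y => y * (el g - 1) ∈ augPow p G (n + 2))
      (fun h z hz => ?_) (by rw [zero_mul]; exact zero_mem _)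
      (fun a b ha hb => by rw [add_mul]; exact add_mem ha hb)
      (fun c a ha => by rw [smul_mul_assoc]; exact Submodule.smul_mem _ c ha) hx
    rw [mul_assoc]
    exact sub_one_mul_mem _ h (ih hz)

theorem mul_aug_mem {n : ℕ} {x y : GrpAlg p G} (hx : x ∈ augPow p G n) (hy : y ∈ augPow p G 1) :
    x * y ∈ augPow p G (n + 1) := by
  refine augPow_succ_induction (motive := fun y => x * y ∈ augPow p G (n + 1))
    (fun g z hz => ?_) (by rw [mul_zero]; exact zero_mem _)
    (fun a b ha hb => by rw [mul_add]; exact add_mem ha hb)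
    (fun c a ha => by rw [mul_smul_comm]; exact Submodule.smul_mem _ c ha) hy
  rw [← mul_assoc]
  clear hz
  induction z using MonoidAlgebra.induction_on with
  | of h =>
    have e : x * (el g - 1) * el h = x * (el (g * h) - 1) - x * (el h - 1) := by
      rw [el_mul]; noncomm_ring
    exact e ▸ sub_mem (mul_sub_one_mem (g * h) hx) (mul_sub_one_mem h hx)
  | add a b ha hb => rw [mul_add]; exact add_mem ha hb
  | smul c a ha => rw [mul_smul_comm]; exact Submodule.smul_mem _ c ha

/-- The augmentation ideal of a finite `p`-group is nilpotent. -/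
theorem exists_augPow_eq_bot [Finite G] (hG : IsPGroup p G) : ∃ n, augPow p G n = ⊥ := by
  have hfd : Module.Finite (ZMod p) (GrpAlg p G) :=
    Module.Finite.of_basis (MonoidAlgebra.basis G (ZMod p))
  have hstrict : ∀ n, augPow p G n ≠ ⊥ → augPow p G (n + 1) < augPow p G n := fun n hn => by
    refine lt_of_le_of_ne (augPow_succ_le n) fun heq => ?_
    set W := augPow p G n
    let L : G → (W →ₗ[ZMod p] W) := fun g =>
      (LinearMap.mulLeft (ZMod p) (el g)).restrict fun x hx => el_mul_mem g hx
    have hL1 : L 1 = LinearMap.id := LinearMap.ext fun x => Subtype.ext (by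
      show (el (p := p) (1 : G)) * (x : GrpAlg p G) = x
      rw [el_one, one_mul])
    have hLm : ∀ a b, L (a * b) = (L a).comp (L b) := fun a b => LinearMap.ext fun x =>
      Subtype.ext (by
        show el (p := p) (a * b) * (x : GrpAlg p G) = el a * (el b * (x : GrpAlg p G))
        rw [el_mul, mul_assoc])
    let _ : MulAction G (Module.Dual (ZMod p) W) :=
      { smul := fun g φ => φ.comp (L g⁻¹)
        one_smul := fun φ => by
          show φ.comp (L 1⁻¹) = φ
          rw [inv_one, hL1, LinearMap.comp_id]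
        mul_smul := fun a b φ => by
          show φ.comp (L (a * b)⁻¹) = (φ.comp (L b⁻¹)).comp (L a⁻¹)
          rw [mul_inv_rev, hLm, LinearMap.comp_assoc] }
    have : Finite (Module.Dual (ZMod p) W) := Module.finite_of_finite (ZMod p)
    have hWpos : 0 < Module.finrank (ZMod p) W :=
      Nat.pos_of_ne_zero fun h => hn (Submodule.finrank_eq_zero.1 h)
    have hdvd : p ∣ Nat.card (Module.Dual (ZMod p) W) := by
      rw [Module.natCard_eq_pow_finrank (K := ZMod p), Nat.card_zmod, Subspace.dual_finrank_eq]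
      exact dvd_pow_self p hWpos.ne'
    obtain ⟨φ, hφ, hne⟩ := hG.exists_fixed_point_of_prime_dvd_card_of_fixed_point _ hdvd
      (a := 0) (fun g => LinearMap.zero_comp _)
    have hzero : ∀ g : G, ∀ x ∈ augPow p G n, ∀ h, φ ⟨(el g - 1) * x, h⟩ = 0 :=
      fun g x hx h => by
        have h1 : φ ⟨el g * x, el_mul_mem g hx⟩ = φ ⟨x, hx⟩ := by
          have h2 := LinearMap.congr_fun (hφ g⁻¹) ⟨x, hx⟩
          change φ (L g⁻¹⁻¹ ⟨x, hx⟩) = φ ⟨x, hx⟩ at h2
          rw [inv_inv] at h2
          exact h2
        have e : (⟨(el g - 1) * x, h⟩ : W) = ⟨el g * x, el_mul_mem g hx⟩ - ⟨x, hx⟩ :=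
          Subtype.ext (by simp [sub_mul])
        rw [e, map_sub, h1, sub_self]
    refine hne (LinearMap.ext fun y => ?_).symm
    obtain ⟨_, h0⟩ := augPow_succ_induction
      (motive := fun y => ∃ h : y ∈ W, φ ⟨y, h⟩ = 0)
      (fun g x hx => ⟨heq ▸ sub_one_mul_mem n g hx, hzero g x hx _⟩)
      ⟨zero_mem _, map_zero φ⟩
      (fun a b ⟨ha, ha0⟩ ⟨hb, hb0⟩ => ⟨add_mem ha hb, by
        rw [show (⟨a + b, add_mem ha hb⟩ : W) = ⟨a, ha⟩ + ⟨b, hb⟩ from rfl, map_add, ha0, hb0,
          add_zero]⟩)
      (fun c a ⟨ha, ha0⟩ => ⟨Submodule.smul_mem _ c ha, by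
        rw [show (⟨c • a, Submodule.smul_mem _ c ha⟩ : W) = c • ⟨a, ha⟩ from rfl, map_smul, ha0,
          smul_zero]⟩) (heq.symm ▸ y.2 : (y : GrpAlg p G) ∈ augPow p G (n + 1))
    exact h0
  by_contra! hne
  have key : ∀ n, Module.finrank (ZMod p) (augPow p G n) + n
      ≤ Module.finrank (ZMod p) (GrpAlg p G) := by
    intro n
    induction n with
    | zero => exact Submodule.finrank_le _
    | succ n ih =>
      have := Submodule.finrank_lt_finrank_of_lt (hstrict n (hne n))
      omega
  have := key (Module.finrank (ZMod p) (GrpAlg p G) + 1)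
  omega

/-- The growth lemma. -/
theorem not_bounded_of_recurrence {d r : ℕ} (hd : 1 ≤ d) (hr : 4 * r ≤ d ^ 2) (a : ℕ → ℕ)
    (h0 : a 0 = 0) (h1 : a 1 = 1)
    (hrec : ∀ n, d * a (n + 1) + 1 ≤ a (n + 2) + r * a n) (B : ℕ) : ∃ n, B < a n := by
  obtain ⟨u, hu1, hu2⟩ : ∃ u : ℝ, 1 ≤ u ∧ ∀ n, u * a n + 1 ≤ a (n + 1) := by
    rcases Nat.eq_or_lt_of_le hd with h | h
    · subst h
      have hr0 : r = 0 := by omega
      refine ⟨1, le_rfl, fun n => ?_⟩
      rcases n with _ | n
      · simp [h0, h1]
      · have := hrec n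
        rw [hr0, zero_mul, one_mul, add_zero] at this
        rw [one_mul]
        exact_mod_cast this
    · refine ⟨(d : ℝ) / 2, by have : (2 : ℝ) ≤ d := Nat.ofNat_le_cast.2 h; linarith, fun n => ?_⟩
      induction n with
      | zero => simp [h0, h1]
      | succ n ih =>
        have h2 : (d : ℝ) * a (n + 1) + 1 ≤ a (n + 2) + r * a n := by exact_mod_cast hrec n
        have h3 : (4 : ℝ) * r ≤ (d : ℝ) ^ 2 := by exact_mod_cast hr
        have h4 : (0 : ℝ) ≤ a n := Nat.cast_nonneg _
        have h5 : (0 : ℝ) ≤ d := Nat.cast_nonneg _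
        have h6 := mul_le_mul_of_nonneg_left ih (by linarith : (0 : ℝ) ≤ (d : ℝ) / 2)
        have h7 := mul_le_mul_of_nonneg_right h3 h4
        nlinarith
  have key : ∀ n : ℕ, (n : ℝ) ≤ a n := by
    intro n
    induction n with
    | zero => simp
    | succ n ih =>
      have := hu2 n
      push_cast
      nlinarith [Nat.cast_nonneg (α := ℝ) (a n)]
  refine ⟨B + 1, ?_⟩
  have h : ((B + 1 : ℕ) : ℝ) ≤ a (B + 1) := key (B + 1)
  have : B + 1 ≤ a (B + 1) := by exact_mod_cast h
  omega

end Fermat.Agent.GolodShafarevich
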