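import Fermat.Agent.GolodShafarevich.Fields

/-!
# Cyclotomic fields with infinite class field towers

The field of the characters of order `p` of a set of primes lies in the cyclotomic field, and in
its maximal real subfield, of every order they divide.
-/

set_option autoImplicit false
set_option linter.unusedSectionVars false

noncomputable section

namespace Fermat.Agent.GolodShafarevich

open FA.GalCoh ScholzReichardt NumberField
open scoped Pointwise

local notation "Qb" => AlgebraicClosure ℚ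

variable {p : ℕ} [hp : Fact p.Prime] {S : Finset Nat.Primes} {n : ℕ}

/-- Complex conjugation inverts roots of unity. -/
theorem complexConjugation_root {ζ : Qb} (hn : n ≠ 0) (hζ : ζ ^ n = 1) :
    complexConjugation ζ = ζ⁻¹ := by
  refine (complexEmbedding.toRingHom.injective : Function.Injective complexEmbedding) ?_
  show complexEmbedding (complexConjugation ζ) = complexEmbedding ζ⁻¹
  rw [complexEmbedding_complexConjugation, map_inv₀]
  exact (Complex.inv_eq_conj (Complex.norm_eq_one_of_pow_eq_one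
    (by rw [← map_pow, hζ, map_one]) hn)).symm

/-- A field fixed by every element fixing the roots of unity, and by complex conjugation, lies in
every field with the real part of a primitive root. -/
theorem le_of_add_inv_mem (hn : n ≠ 0) (hdvd : ∀ q ∈ S, (q : ℕ) ∣ n) {K : IntermediateField ℚ Qb}
    (hc : complexConjugation ∈ K.fixingSubgroup)
    (hK : ∀ σ : GQ, (∀ q : Nat.Primes, q ∈ S → ∀ μ : Qb, μ ^ (q : ℕ) = 1 → σ μ = μ) →
      σ ∈ K.fixingSubgroup)
    {F : IntermediateField ℚ Qb} {ζ : Qb} (hζ : IsPrimitiveRoot ζ n) (hF : ζ + ζ⁻¹ ∈ F) :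
    K ≤ F := by
  have key : ∀ σ : GQ, σ ζ = ζ → σ ∈ K.fixingSubgroup := fun σ hσ => hK σ fun q hq μ hμ => by
    obtain ⟨k, hk⟩ := hdvd q hq
    have : NeZero n := ⟨hn⟩
    obtain ⟨j, -, rfl⟩ :=
      hζ.eq_pow_of_pow_eq_one (ξ := μ) (by rw [hk, pow_mul, hμ, one_pow])
    rw [map_pow, hσ]
  rw [← InfiniteGalois.fixedField_fixingSubgroup K, ← InfiniteGalois.fixedField_fixingSubgroup F]
  refine IntermediateField.fixedField_antitone fun σ hσ => ?_
  have h1 := (IntermediateField.mem_fixingSubgroup_iff _ _).1 hσ _ hF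
  rw [map_add, map_inv₀] at h1
  have hz : ζ ≠ 0 := hζ.ne_zero hn
  have hy : σ ζ ≠ 0 := (map_ne_zero σ).2 hz
  have h2 : (σ ζ - ζ) * (σ ζ * ζ - 1) = 0 := by
    field_simp at h1
    linear_combination h1
  rcases mul_eq_zero.1 h2 with h3 | h3
  · exact key σ (sub_eq_zero.1 h3)
  · have h4 : σ ζ = ζ⁻¹ := eq_inv_of_mul_eq_one_left (sub_eq_zero.1 h3)
    have h5 : (complexConjugation * σ) ∈ K.fixingSubgroup := key _ (by
      rw [AlgEquiv.mul_apply, h4, map_inv₀, complexConjugation_root hn hζ.pow_eq_one, inv_inv])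
    have h6 := mul_mem (inv_mem hc) h5
    rwa [inv_mul_cancel_left] at h6

/-- An infinite unramified extension of every Galois field above the bottom of a tower. -/
theorem HasTower.exists_infinite_over {K F : IntermediateField ℚ Qb} (h : HasTower p K)
    [hFg : IsGalois ℚ F] (hKF : K ≤ F) :
    ∃ M : IntermediateField ℚ Qb, F ≤ M ∧ IsGalois ℚ M ∧ ¬ FiniteDimensional ℚ M ∧
      (complexConjugation ∈ F.fixingSubgroup → complexConjugation ∈ M.fixingSubgroup) ∧
      ∀ q : ℕ, q.Prime → ∀ A : ValuationSubring Qb, A.LiesOverPrime q →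
        A.inertiaSubgroupIn ℚ ⊓ F.fixingSubgroup ≤ M.fixingSubgroup := by
  obtain ⟨M, -, hMg, hMi, hMc, hMu⟩ := h.exists_infinite
  have : Normal ℚ (F ⊔ M : IntermediateField ℚ Qb) :=
    @IntermediateField.normal_sup ℚ Qb _ _ _ F M hFg.to_normal hMg.to_normal
  have key : ∀ g, g ∈ F.fixingSubgroup → g ∈ M.fixingSubgroup → g ∈ (F ⊔ M).fixingSubgroup :=
    fun g h1 h2 => by
      rw [IntermediateField.fixingSubgroup_sup]
      exact ⟨h1, h2⟩
  refine ⟨F ⊔ M, le_sup_left, ⟨⟩, fun hfin => hMi ?_, fun hc => key _ hc hMc,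
    fun q hq A hA g hg => key g hg.2
      (hMu q hq A hA ⟨hg.1, IntermediateField.fixingSubgroup_antitone hKF hg.2⟩)⟩
  exact Module.Finite.of_injective
    (IntermediateField.inclusion (le_sup_right : M ≤ F ⊔ M)).toLinearMap
    (IntermediateField.inclusion (le_sup_right : M ≤ F ⊔ M)).injective

/-- **Cyclotomic towers**: `p` divides the class number of every number field with the real part
of a primitive `n`-th root of unity. -/
theorem dvd_classNumber_of_add_inv_mem (hp2 : p ≠ 2) (hS : ∀ q ∈ S, p ∣ (q : ℕ) - 1)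
    (h8 : 8 ≤ S.card) (hn : n ≠ 0) (hdvd : ∀ q ∈ S, (q : ℕ) ∣ n) (F : Type) [Field F]
    [NumberField F] (j : F →+* Qb) {ζ : Qb} (hζ : IsPrimitiveRoot ζ n) {x : F}
    (hx : j x = ζ + ζ⁻¹) : p ∣ classNumber F := by
  obtain ⟨K, hK, hKg, -, hc, -, hcyc, h⟩ := exists_genus_tower hp2 hS h8
  let k : F →ₐ[ℚ] Qb :=
    { j with
      commutes' := fun r => DFunLike.congr_fun
        (Subsingleton.elim (j.comp (algebraMap ℚ F)) (algebraMap ℚ Qb)) r }
  have hKF : K ≤ k.fieldRange := le_of_add_inv_mem hn hdvd hc hcyc hζ ⟨x, hx⟩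
  have : FiniteDimensional ℚ k.fieldRange :=
    (AlgEquiv.ofInjectiveField k).toLinearEquiv.finiteDimensional
  have : NumberField k.fieldRange := { }
  rw [classNumber_congr (F' := k.fieldRange) (AlgEquiv.ofInjectiveField k).toRingEquiv]
  exact h.dvd_classNumber hKF

/-- The same with a root of unity in the field. -/
theorem dvd_classNumber_of_primitiveRoot (hp2 : p ≠ 2) (hS : ∀ q ∈ S, p ∣ (q : ℕ) - 1)
    (h8 : 8 ≤ S.card) (hn : n ≠ 0) (hdvd : ∀ q ∈ S, (q : ℕ) ∣ n) (F : Type) [Field F]
    [NumberField F] {z : F} (hz : IsPrimitiveRoot z n) : p ∣ classNumber F := by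
  let j : F →+* Qb := (IsAlgClosed.lift : F →ₐ[ℚ] Qb).toRingHom
  exact dvd_classNumber_of_add_inv_mem hp2 hS h8 hn hdvd F j (hz.map_of_injective j.injective)
    (x := z + z⁻¹) (by rw [map_add, map_inv₀])

end Fermat.Agent.GolodShafarevich
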