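import Fermat.Agent.GolodShafarevich.Quadratic
import Mathlib.FieldTheory.LinearDisjoint

/-!
# Infinite class field towers with prescribed abelian group, and above every field

A character of prime order ramified at nine primes congruent to `1` modulo `4 p` cuts out a field
below a tower, and so does every field containing it. Inertia images at nine primes for each cyclic
factor give every abelian group.
-/

set_option autoImplicit false
set_option linter.unusedSectionVars false

noncomputable section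

namespace Fermat.Agent.GolodShafarevich

open FA.GalCoh ScholzReichardt NumberField
open scoped Pointwise

local notation "Qb" => AlgebraicClosure ℚ

/-- Below an infinite class field tower for the prime `p`, also as seen by inertia. -/
def UnderTower (p : ℕ) (C : IntermediateField ℚ Qb) : Prop :=
  ∃ K : IntermediateField ℚ Qb, HasTower p K ∧
    ∀ q : ℕ, q.Prime → ∀ A : ValuationSubring Qb, A.LiesOverPrime q →
      A.inertiaSubgroupIn ℚ ⊓ C.fixingSubgroup ≤ K.fixingSubgroup

theorem UnderTower.mono {p : ℕ} {C F : IntermediateField ℚ Qb} (h : UnderTower p C)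
    (hle : C ≤ F) : UnderTower p F := by
  obtain ⟨K, hK, hu⟩ := h
  exact ⟨K, hK, fun q hq A hA g hg =>
    hu q hq A hA ⟨hg.1, IntermediateField.fixingSubgroup_antitone hle hg.2⟩⟩

/-- Class numbers of number fields above it. -/
theorem UnderTower.dvd_classNumber {p : ℕ} (hp : p.Prime) {C : IntermediateField ℚ Qb}
    (h : UnderTower p C) (E : Type) [Field E] [NumberField E] (j : E →+* Qb)
    (hC : ∀ x ∈ C, ∃ y, j y = x) : p ∣ classNumber E := by
  have : Fact p.Prime := ⟨hp⟩
  let k : E →ₐ[ℚ] Qb :=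
    { j with
      commutes' := fun r => DFunLike.congr_fun
        (Subsingleton.elim (j.comp (algebraMap ℚ E)) (algebraMap ℚ Qb)) r }
  have : FiniteDimensional ℚ k.fieldRange :=
    (AlgEquiv.ofInjectiveField k).toLinearEquiv.finiteDimensional
  have : NumberField k.fieldRange := { }
  rw [classNumber_congr (F' := k.fieldRange) (AlgEquiv.ofInjectiveField k).toRingEquiv]
  obtain ⟨K, hK, hu⟩ := h.mono (show C ≤ k.fieldRange from hC)
  exact hK.dvd_classNumber_of_inertia hu

/-- An infinite extension of every Galois field under a tower, unramified at every place. -/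
theorem UnderTower.exists_infinite {p : ℕ} (hp : p.Prime) {F : IntermediateField ℚ Qb}
    [hFg : IsGalois ℚ F] (h : UnderTower p F) :
    ∃ N : IntermediateField ℚ Qb, F ≤ N ∧ IsGalois ℚ N ∧ ¬ FiniteDimensional ℚ N ∧
      (complexConjugation ∈ F.fixingSubgroup → complexConjugation ∈ N.fixingSubgroup) ∧
      ∀ q : ℕ, q.Prime → ∀ A : ValuationSubring Qb, A.LiesOverPrime q →
        A.inertiaSubgroupIn ℚ ⊓ F.fixingSubgroup ≤ N.fixingSubgroup := by
  have : Fact p.Prime := ⟨hp⟩
  obtain ⟨K, hK, hu⟩ := h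
  obtain ⟨M, -, hMg, hMi, hMc, hMu⟩ := hK.exists_infinite
  have : Normal ℚ (F ⊔ M : IntermediateField ℚ Qb) :=
    @IntermediateField.normal_sup ℚ Qb _ _ _ F M hFg.to_normal hMg.to_normal
  have key : ∀ g, g ∈ F.fixingSubgroup → g ∈ M.fixingSubgroup → g ∈ (F ⊔ M).fixingSubgroup :=
    fun g h1 h2 => by
      rw [IntermediateField.fixingSubgroup_sup]
      exact ⟨h1, h2⟩
  refine ⟨F ⊔ M, le_sup_left, ⟨⟩, fun hfin => hMi ?_, fun hc => key _ hc hMc,
    fun q hq A hA g hg => key g hg.2 (hMu q hq A hA ⟨hg.1, hu q hq A hA hg⟩)⟩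
  exact Module.Finite.of_injective
    (IntermediateField.inclusion (le_sup_right : M ≤ F ⊔ M)).toLinearMap
    (IntermediateField.inclusion (le_sup_right : M ≤ F ⊔ M)).injective

/-- **A character of order `p` ramified at nine primes cuts out a field under a tower.** -/
theorem exists_field_underTower {p : ℕ} [hp : Fact p.Prime] (S : Finset Nat.Primes)
    (hS : ∀ q ∈ S, 4 * p ∣ (q : ℕ) - 1) (h9 : 9 ≤ S.card) {f : GQ →* Multiplicative (ZMod p)}
    (hopen : IsOpen (f.ker : Set GQ)) (hunr : ∀ q : Nat.Primes, q ∉ S → UnrAt f (q : ℕ))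
    (hram : ∀ q ∈ S, ∃ η ∈ inertL ((q : Nat.Primes) : ℕ), f (loc (q : ℕ) η) ≠ 1) :
    ∃ C : IntermediateField ℚ Qb, FiniteDimensional ℚ C ∧ IsGalois ℚ C ∧
      Module.finrank ℚ C = p ∧ (∀ σ : GQ, σ ∈ C.fixingSubgroup ↔ f σ = 1) ∧ UnderTower p C := by
  have hexp : ∀ v : Multiplicative (ZMod p), v ^ p = 1 := fun v =>
    Multiplicative.toAdd.injective (by
      rw [toAdd_pow, toAdd_one, nsmul_eq_mul, ZMod.natCast_self, zero_mul])
  have hS' : ∀ q ∈ S, p ∣ (q : ℕ) - 1 := fun q hq => (dvd_mul_left p 4).trans (hS q hq)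
  have hf : InClass p p S f :=
    ⟨hopen, fun g => ⟨1, by rw [pow_one]; exact hexp _⟩, hunr, fun _ _ _ _ => hexp _⟩
  have hsurj : Function.Surjective f := by
    obtain ⟨q, hq⟩ := Finset.card_pos.1 (by omega : 0 < S.card)
    obtain ⟨η, -, hne⟩ := hram q hq
    have hcard : Nat.card (Multiplicative (ZMod p)) = p := by
      rw [Nat.card_congr Multiplicative.toAdd, Nat.card_zmod]
    have : Fact (Nat.card (Multiplicative (ZMod p))).Prime := ⟨by rw [hcard]; exact hp.out⟩
    rcases f.range.eq_bot_or_eq_top_of_prime_card with h | h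
    · exact absurd ((Subgroup.mem_bot.1 (h ▸ ⟨_, rfl⟩ : f (loc (q : ℕ) η) ∈ (⊥ : Subgroup _))))
        hne
    · exact MonoidHom.range_eq_top.1 h
  obtain ⟨C, hC, hCg, hCd, -, hCf⟩ := hf.exists_field hsurj
  have hd : Module.finrank ℚ C = p := by
    rw [hCd, Nat.card_congr Multiplicative.toAdd, Nat.card_zmod]
  refine ⟨C, hC, hCg, hd, hCf, ?_⟩
  rcases eq_or_ne p 2 with rfl | hp2
  · refine exists_tower_below_quadratic (fun q hq => ?_) h9 C hd fun q hq => ?_
    · have := hS q hq
      have := q.2.two_le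
      omega
    · obtain ⟨η, hη, hne⟩ := hram q hq
      exact ⟨_, liesOverPrime_padicPlace (q : ℕ), fun h => hne ((hCf _).1 (h hη))⟩
  · exact ⟨C, hasTower_of_ramified hp2 hS' (by omega) hf hram hCf,
      fun _ _ _ _ _ hg => hg.2⟩

/-- An even character of order `n` ramified only at `q`. -/
theorem exists_cyclic_char {n : ℕ} [NeZero n] (q : Nat.Primes) (h : 2 * n ∣ (q : ℕ) - 1) :
    ∃ w : GQ →* Multiplicative (ZMod n), IsOpen (w.ker : Set GQ) ∧ w complexConjugation = 1 ∧
      (∀ r : Nat.Primes, r ≠ q → UnrAt w (r : ℕ)) ∧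
      ∃ t ∈ inertL (q : ℕ), w (loc (q : ℕ) t) = Multiplicative.ofAdd 1 := by
  have : Fact (q : ℕ).Prime := ⟨q.2⟩
  have hcyc : IsCyclic (ZMod ((q : ℕ) ^ 1))ˣ := by
    rw [pow_one]; exact ZMod.isCyclic_units_prime q.2
  obtain ⟨l, hl⟩ := exists_cyclic_surj hcyc (m := 2 * n) (by
    rw [Nat.card_eq_fintype_card, ZMod.card_units_eq_totient, pow_one, Nat.totient_prime q.2]
    exact h)
  let r : Multiplicative (ZMod (2 * n)) →* Multiplicative (ZMod n) :=
    AddMonoidHom.toMultiplicative (ZMod.castHom (dvd_mul_left n 2) (ZMod n)).toAddMonoidHom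
  obtain ⟨u, hu⟩ := hl (Multiplicative.ofAdd 1)
  obtain ⟨σ, hσ, hσu⟩ := FA.KroneckerWeber.exists_inertia_omega_eq (q : ℕ)
    (liesOverPrime_padicPlace (q : ℕ)) u
  obtain ⟨t, ht, rfl⟩ := exists_loc_inert hσ
  refine ⟨(r.comp l).comp (FA.KroneckerWeber.omega (q : ℕ)),
    Subgroup.isOpen_mono (fun σ hσ => MonoidHom.mem_ker.2 (by
      rw [MonoidHom.comp_apply, MonoidHom.mem_ker.1 hσ, map_one]))
      (FA.KroneckerWeber.isOpen_ker_omega (q : ℕ)), ?_, fun s hs ι hι => ?_, t, ht, ?_⟩
  · set x := l (FA.KroneckerWeber.omega (q : ℕ) complexConjugation) with hx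
    have hx2 : x ^ 2 = 1 := by
      rw [hx, ← map_pow, ← map_pow, sq, complexConjugation_mul_self, map_one, map_one]
    show r x = 1
    have h2 : (((2 * (Multiplicative.toAdd x).val : ℕ)) : ZMod (2 * n)) = 0 := by
      rw [Nat.cast_mul, ZMod.natCast_zmod_val, ← nsmul_eq_mul, ← toAdd_pow, hx2, toAdd_one]
    rw [ZMod.natCast_eq_zero_iff, Nat.mul_dvd_mul_iff_left two_pos] at h2
    refine Multiplicative.toAdd.injective ?_
    show ZMod.castHom (dvd_mul_left n 2) (ZMod n) (Multiplicative.toAdd x) = 0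
    rw [← ZMod.natCast_zmod_val (Multiplicative.toAdd x), map_natCast,
      ZMod.natCast_eq_zero_iff]
    exact h2
  · rw [MonoidHom.comp_apply, FA.KroneckerWeber.omega_inertia (q : ℕ) s.2
      (fun h => hs (Subtype.ext h)) (liesOverPrime_padicPlace (s : ℕ)) hι, map_one]
  · rw [MonoidHom.comp_apply, MonoidHom.comp_apply, hσu, hu]
    exact congrArg Multiplicative.ofAdd (map_one (ZMod.castHom (dvd_mul_left n 2) (ZMod n)))

/-- Infinitely many primes congruent to `1` modulo `k`, avoiding a finite set. -/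
theorem exists_primes_family {k : ℕ} (hk : k ≠ 0) (T : Finset Nat.Primes) (I : Type) [Fintype I] :
    ∃ q : I ↪ Nat.Primes, ∀ i, k ∣ (q i : ℕ) - 1 ∧ q i ∉ T := by
  have hinf : {q : Nat.Primes | k ∣ (q : ℕ) - 1 ∧ q ∉ T}.Infinite := fun hfin => by
    obtain ⟨l, hl, hlt, hmod⟩ := Nat.exists_prime_gt_modEq_one (k := k)
      ((hfin.toFinset ∪ T).sup fun q : Nat.Primes => (q : ℕ)) hk
    have hnot : (⟨l, hl⟩ : Nat.Primes) ∉ hfin.toFinset ∪ T := fun hm =>
      absurd (Finset.le_sup (f := fun q : Nat.Primes => (q : ℕ)) hm) (not_le.2 hlt)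
    exact hnot (Finset.mem_union_left _ (hfin.mem_toFinset.2
      ⟨(Nat.modEq_iff_dvd' hl.one_le).1 hmod.symm, fun hT => hnot (Finset.mem_union_right _ hT)⟩))
  refine ⟨((Fintype.equivFin I).toEmbedding.trans Fin.valEmbedding).trans
    ((hinf.natEmbedding _).trans (Function.Embedding.subtype _)), fun i => ?_⟩
  exact ((hinf.natEmbedding _) ((Fintype.equivFin I i : Fin (Fintype.card I)) : ℕ)).2

/-- **Every abelian group with towers for all primes dividing its order.** -/
theorem exists_abelian_field_underTower (A : Type*) [CommGroup A] [Finite A]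
    (T : Finset Nat.Primes) :
    ∃ F : IntermediateField ℚ Qb, FiniteDimensional ℚ F ∧ IsGalois ℚ F ∧
      Nonempty ((F ≃ₐ[ℚ] F) ≃* A) ∧ complexConjugation ∈ F.fixingSubgroup ∧
      (∀ q ∈ T, ∀ B : ValuationSubring Qb, B.LiesOverPrime ((q : Nat.Primes) : ℕ) →
        B.inertiaSubgroupIn ℚ ≤ F.fixingSubgroup) ∧
      ∀ p : ℕ, p.Prime → p ∣ Nat.card A → UnderTower p F := by
  classical
  obtain ⟨ι, hι, n, hn, ⟨e⟩⟩ := CommGroup.equiv_prod_multiplicative_zmod_of_finite A
  have hn0 : ∀ i, NeZero (n i) := fun i => ⟨(zero_lt_one.trans (hn i)).ne'⟩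
  obtain ⟨q, hq⟩ := exists_primes_family (k := 4 * ∏ i, n i)
    (mul_ne_zero (by norm_num) (Finset.prod_ne_zero_iff.2 fun i _ => (hn0 i).1)) T (ι × Fin 9)
  have hdvd : ∀ x : ι × Fin 9, 4 * n x.1 ∣ (q x : ℕ) - 1 := fun x =>
    (mul_dvd_mul_left 4 (Finset.dvd_prod_of_mem n (Finset.mem_univ x.1))).trans (hq x).1
  choose w hwo hwc hwu t ht hwt using fun x : ι × Fin 9 =>
    exists_cyclic_char (n := n x.1) (q x)
      ((mul_dvd_mul_right (by norm_num : 2 ∣ 4) (n x.1)).trans (hdvd x))
  let ψ : GQ →* ∀ i, Multiplicative (ZMod (n i)) := MonoidHom.pi fun i => ∏ j, w (i, j)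
  have hψi : ∀ g i, ψ g i = ∏ j, w (i, j) g := fun g i => by
    let F₀ : Fin 9 → (GQ →* Multiplicative (ZMod (n i))) := fun j => w (i, j)
    exact MonoidHom.finsetProd_apply F₀ Finset.univ g
  have hψu : ∀ r : Nat.Primes, (∀ x, r ≠ q x) → UnrAt ψ (r : ℕ) := fun r hr η hη =>
    funext fun i => by
      rw [hψi]
      exact Finset.prod_eq_one fun j _ => hwu (i, j) r (hr _) η hη
  have hψt : ∀ x : ι × Fin 9,
      ψ (loc (q x : ℕ) (t x)) = Pi.mulSingle x.1 (Multiplicative.ofAdd 1) := fun x => by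
    obtain ⟨i₀, j₀⟩ := x
    funext i
    rw [hψi]
    rcases eq_or_ne i i₀ with rfl | hi
    · rw [Pi.mulSingle_eq_same, Finset.prod_eq_single j₀]
      · exact hwt (i, j₀)
      · exact fun j _ hj => hwu (i, j) _ (fun h => hj (by simpa using (q.injective h).symm)) _
          (ht (i, j₀))
      · exact fun h => absurd (Finset.mem_univ _) h
    · rw [Pi.mulSingle_eq_of_ne hi]
      exact Finset.prod_eq_one fun j _ => hwu (i, j) _
        (fun h => hi (by simpa using (congrArg Prod.fst (q.injective h)).symm)) _ (ht (i₀, j₀))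
  have hψs : Function.Surjective ψ := fun v => by
    obtain ⟨g, hg⟩ : v ∈ ψ.range := by
      rw [← Finset.univ_prod_mulSingle v]
      refine Subgroup.prod_mem _ fun i _ => ⟨loc (q (i, 0) : ℕ) (t (i, 0)) ^
        (Multiplicative.toAdd (v i)).val, ?_⟩
      rw [map_pow, hψt (i, 0), ← Pi.mulSingle_pow, ← ofAdd_nsmul, nsmul_one,
        ZMod.natCast_zmod_val, ofAdd_toAdd]
    exact ⟨g, hg⟩
  have hψo : IsOpen (ψ.ker : Set GQ) := Subgroup.isOpen_mono
    (show ⨅ x, (w x).ker ≤ ψ.ker from fun g hg => MonoidHom.mem_ker.2 (funext fun i => by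
      rw [hψi]
      exact Finset.prod_eq_one fun j _ => MonoidHom.mem_ker.1 (Subgroup.mem_iInf.1 hg (i, j))))
    (by rw [Subgroup.coe_iInf]; exact isOpen_iInter_of_finite hwo)
  obtain ⟨F, hF, hFg, ⟨eF⟩, hFf⟩ := FA.AbelianInverseGalois.exists_field_of_surjective
    (e.symm.toMonoidHom.comp ψ) (e.symm.surjective.comp hψs)
    (Subgroup.isOpen_mono (fun g hg => MonoidHom.mem_ker.2 (by
      rw [MonoidHom.comp_apply, MonoidHom.mem_ker.1 hg, map_one])) hψo)
  have hfix : ∀ g : GQ, g ∈ F.fixingSubgroup ↔ ψ g = 1 := fun g =>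
    ((IntermediateField.mem_fixingSubgroup_iff F g).trans (hFf g)).trans
      (MulEquiv.map_eq_one_iff e.symm)
  refine ⟨F, hF, hFg, ⟨eF⟩, (hfix _).2 (funext fun i => by
    rw [hψi]; exact Finset.prod_eq_one fun j _ => hwc (i, j)), fun r hr B hB g hg => ?_,
    fun p hp hpA => ?_⟩
  · obtain ⟨τ, η, hη, rfl⟩ := exists_conj_inertL hB hg
    refine (hfix _).2 ?_
    rw [map_mul, map_mul, map_inv, hψu r (fun x h => (hq x).2 (h ▸ hr)) η hη, mul_one,
      mul_inv_cancel]
  -- the subfield of degree `p`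
  have : Fact p.Prime := ⟨hp⟩
  obtain ⟨i, hi⟩ : ∃ i, p ∣ n i := by
    rw [Nat.card_congr e.toEquiv, Nat.card_pi] at hpA
    obtain ⟨i, -, hi⟩ := (Nat.Prime.prime hp).exists_mem_finset_dvd hpA
    rw [Nat.card_congr Multiplicative.toAdd, Nat.card_zmod] at hi
    exact ⟨i, hi⟩
  let c : Multiplicative (ZMod (n i)) →* Multiplicative (ZMod p) :=
    AddMonoidHom.toMultiplicative (ZMod.castHom hi (ZMod p)).toAddMonoidHom
  let f : GQ →* Multiplicative (ZMod p) := c.comp ((Pi.evalMonoidHom _ i).comp ψ)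
  have hf1 : ∀ g, ψ g = 1 → f g = 1 := fun g h => by
    show c (ψ g i) = 1
    rw [h, Pi.one_apply, map_one]
  let S : Finset Nat.Primes := Finset.univ.image fun j : Fin 9 => q (i, j)
  have hSc : S.card = 9 := by
    rw [Finset.card_image_of_injective _ fun a b h => (congrArg Prod.snd (q.injective h) : _),
      Finset.card_univ, Fintype.card_fin]
  have hfu : ∀ r : Nat.Primes, r ∉ S → UnrAt f (r : ℕ) := fun r hr η hη => by
    show c (ψ (loc (r : ℕ) η) i) = 1
    rw [hψi, Finset.prod_eq_one fun j _ => hwu (i, j) r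
      (fun h => hr (h ▸ Finset.mem_image_of_mem _ (Finset.mem_univ j))) η hη, map_one]
  obtain ⟨C, -, -, -, hCf, hC⟩ := exists_field_underTower (p := p) S
    (fun r hr => by
      obtain ⟨j, -, rfl⟩ := Finset.mem_image.1 hr
      exact (mul_dvd_mul_left 4 hi).trans (hdvd (i, j)))
    hSc.ge (f := f)
    (Subgroup.isOpen_mono (fun g hg => MonoidHom.mem_ker.2 (hf1 g (MonoidHom.mem_ker.1 hg))) hψo)
    hfu fun r hr => by
      obtain ⟨j, -, rfl⟩ := Finset.mem_image.1 hr
      refine ⟨t (i, j), ht (i, j), fun h => one_ne_zero (α := ZMod p) ?_⟩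
      have h' : c (ψ (loc (q (i, j) : ℕ) (t (i, j))) i) = 1 := h
      rw [hψt, Pi.mulSingle_eq_same] at h'
      exact (map_one (ZMod.castHom hi (ZMod p))).symm.trans
        (Multiplicative.ofAdd.injective (h'.trans ofAdd_zero.symm))
  refine hC.mono ?_
  rw [← InfiniteGalois.fixedField_fixingSubgroup C, ← InfiniteGalois.fixedField_fixingSubgroup F]
  exact IntermediateField.fixedField_antitone fun g hg => (hCf g).2 (hf1 g ((hfix g).1 hg))

/-- **Above every number field**: an extension of degree `p` under a tower. -/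
theorem exists_extension_underTower {p : ℕ} (hp : p.Prime) (K : IntermediateField ℚ Qb)
    [FiniteDimensional ℚ K] :
    ∃ F : IntermediateField ℚ Qb, K ≤ F ∧ FiniteDimensional ℚ F ∧
      Module.finrank ℚ F = Module.finrank ℚ K * p ∧ UnderTower p F := by
  classical
  have : Fact p.Prime := ⟨hp⟩
  let N : IntermediateField ℚ Qb := IntermediateField.normalClosure ℚ K Qb
  have : Normal ℚ N := normalClosure.normal ℚ K Qb
  have : IsGalois ℚ N := ⟨⟩
  obtain ⟨T, hT⟩ := FA.KroneckerWeber.exists_unramified_set N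
  have hcard : Nat.card (Multiplicative (ZMod p)) = p := by
    rw [Nat.card_congr Multiplicative.toAdd, Nat.card_zmod]
  obtain ⟨C, hC, hCg, ⟨e⟩, -, hCu, hCt⟩ :=
    exists_abelian_field_underTower (Multiplicative (ZMod p)) (T.subtype Nat.Prime)
  have hd : Module.finrank ℚ C = p := by
    rw [← IsGalois.card_aut_eq_finrank ℚ C, Nat.card_congr e.toEquiv, hcard]
  have hn : Normal ℚ (C ⊓ N : IntermediateField ℚ Qb) :=
    @IntermediateField.normal_inf ℚ Qb _ _ _ C N hCg.to_normal ‹Normal ℚ N›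
  have : IsGalois ℚ (C ⊓ N : IntermediateField ℚ Qb) := ⟨⟩
  have hinf : C ⊓ K = ⊥ := by
    refine le_bot_iff.1 ((inf_le_inf_left C (IntermediateField.le_normalClosure K)).trans
      (IntermediateField.finrank_eq_one_iff.1 (FA.Local.finrank_eq_one_of_inertia_le (C ⊓ N)
        fun q hq => ?_)).le)
    have : Fact q.Prime := ⟨hq⟩
    refine ⟨_, liesOverPrime_padicPlace q, ?_⟩
    have hA := liesOverPrime_padicPlace q
    by_cases hqT : q ∈ T
    · exact (hCu ⟨q, hq⟩ (Finset.mem_subtype.2 hqT) _ hA).trans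
        (IntermediateField.fixingSubgroup_antitone inf_le_left)
    · exact (hT q hq hqT _ hA).trans (IntermediateField.fixingSubgroup_antitone inf_le_right)
  refine ⟨C ⊔ K, le_sup_right, inferInstance, ?_,
    (hCt p hp (by rw [hcard])).mono le_sup_left⟩
  have hlin : C.LinearDisjoint K :=
    @IntermediateField.LinearDisjoint.of_inf_eq_bot _ _ _ _ _ C K hCg hC _ hinf
  rw [hlin.finrank_sup, hd, mul_comm]

end Fermat.Agent.GolodShafarevich
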