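import Fermat.Agent.ScholzReichardt.Characters
import Fermat.Agent.Mazur.InertiaValue
import Fermat.Agent.RT.Tame

/-!
# Local homomorphisms with tame ramification

Elements `X`, `Y` of a finite `p`-group with `Y X = X ^ q Y` are the images of a generator of tame
inertia and of Frobenius at `q ≠ p` under a homomorphism of the local Galois group, written down
by means of the Kummer cocycle of a root of `q`.
-/

set_option autoImplicit false
set_option linter.unusedSectionVars false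

noncomputable section

namespace Fermat.Agent.GolodShafarevich

open FA.GalCoh ScholzReichardt
open scoped Pointwise

local notation "Qb" => AlgebraicClosure ℚ

variable {p : ℕ} [hp : Fact p.Prime]

/-- The affine action through the Kummer cocycle of a root of `q`. -/
theorem exists_kummer_affine (q : ℕ) [hq : Fact q.Prime] (k : ℕ) :
    ∃ Φ : GQ →* Equiv.Perm (ZMod (p ^ (k + 1))), IsOpen (Φ.ker : Set GQ) ∧
      (∀ σ v, Φ σ v = (cycMod p (k + 1) σ : ZMod (p ^ (k + 1))) * v + Φ σ 0) ∧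
      ∃ ι ∈ inertL q, IsUnit (Φ (loc q ι) 0) := by
  classical
  set n := p ^ (k + 1) with hn
  have hn0 : NeZero n := ⟨pow_ne_zero _ hp.out.ne_zero⟩
  obtain ⟨ζ, hζ⟩ := HasEnoughRootsOfUnity.exists_primitiveRoot Qb n
  obtain ⟨θ, hθ⟩ := IsAlgClosed.exists_pow_nat_eq (q : Qb) (n := n) (NeZero.pos n)
  have hθ0 : θ ≠ 0 := fun h => by
    rw [h, zero_pow hn0.out] at hθ
    exact Nat.cast_ne_zero.2 hq.out.ne_zero hθ.symm
  have hκ0 : ∀ σ : GQ, ∃ x : ZMod n, σ θ = ζ ^ x.val * θ := fun σ => by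
    have h1 : (σ θ / θ) ^ n = 1 := by
      rw [div_pow, ← map_pow, hθ, map_natCast, div_self (Nat.cast_ne_zero.2 hq.out.ne_zero)]
    obtain ⟨i, hi, hiζ⟩ := hζ.eq_pow_of_pow_eq_one h1
    exact ⟨(i : ZMod n), by
      rw [ZMod.val_natCast, Nat.mod_eq_of_lt hi, hiζ, div_mul_cancel₀ _ hθ0]⟩
  choose κ hκ using hκ0
  have hinj : ∀ x y : ZMod n, ζ ^ x.val = ζ ^ y.val → x = y := fun x y h =>
    ZMod.val_injective n (hζ.pow_inj (ZMod.val_lt x) (ZMod.val_lt y) h)
  have hpow : ∀ i : ℕ, ζ ^ i = ζ ^ (i : ZMod n).val := fun i => by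
    rw [ZMod.val_natCast, ← pow_eq_pow_mod i hζ.pow_eq_one]
  have hc : ∀ σ : GQ, σ ζ = ζ ^ (cycMod p (k + 1) σ : ZMod n).val := fun σ => by
    obtain ⟨a, ha, haζ⟩ := hζ.eq_pow_of_pow_eq_one (ξ := σ ζ)
      (by rw [← map_pow, hζ.pow_eq_one, map_one])
    have h : (cycMod p (k + 1) σ : ZMod n) = a := cycMod_eq_natCast fun μ hμ => by
      obtain ⟨j, -, rfl⟩ := hζ.eq_pow_of_pow_eq_one hμ
      rw [map_pow, ← haζ, ← pow_mul, ← pow_mul, mul_comm]
    rw [h, ZMod.val_natCast, Nat.mod_eq_of_lt ha, haζ]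
  have hcoc : ∀ σ τ : GQ, κ (σ * τ) = κ σ + (cycMod p (k + 1) σ : ZMod n) * κ τ := fun σ τ => by
    refine hinj _ _ (mul_right_cancel₀ hθ0 ?_)
    rw [← hκ, AlgEquiv.mul_apply, hκ τ, map_mul, map_pow, hc, hκ σ, ← mul_assoc, ← pow_mul,
      ← pow_add, hpow]
    congr 3
    push_cast
    rw [ZMod.natCast_zmod_val, ZMod.natCast_zmod_val, ZMod.natCast_zmod_val, add_comm]
  let perm : GQ → Equiv.Perm (ZMod n) := fun σ =>
    (Units.mulLeft (cycMod p (k + 1) σ)).trans (Equiv.addRight (κ σ))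
  have hperm : ∀ σ v, perm σ v = (cycMod p (k + 1) σ : ZMod n) * v + κ σ := fun _ _ => rfl
  let Φ : GQ →* Equiv.Perm (ZMod n) := MonoidHom.mk' perm fun σ τ => Equiv.ext fun v => by
    rw [Equiv.Perm.mul_apply, hperm, hperm, hperm, hcoc, map_mul, Units.val_mul]
    ring
  have hΦ0 : ∀ σ, Φ σ 0 = κ σ := fun σ => by
    show perm σ 0 = κ σ
    rw [hperm, mul_zero, zero_add]
  refine ⟨Φ, ?_, fun σ v => by rw [hΦ0]; exact hperm σ v, ?_⟩
  · have hfin : FiniteDimensional ℚ (IntermediateField.adjoin ℚ ({ζ, θ} : Set Qb)) :=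
      IntermediateField.finiteDimensional_adjoin fun x _ =>
        (Algebra.IsAlgebraic.isAlgebraic (R := ℚ) x).isIntegral
    refine Subgroup.isOpen_mono (fun σ hσ => MonoidHom.mem_ker.2 ?_)
      (IntermediateField.fixingSubgroup_isOpen (IntermediateField.adjoin ℚ ({ζ, θ} : Set Qb)))
    have h1 : σ ζ = ζ := (IntermediateField.mem_fixingSubgroup_iff _ _).1 hσ _
      (IntermediateField.subset_adjoin ℚ _ (Set.mem_insert ζ _))
    have h2 : σ θ = θ := (IntermediateField.mem_fixingSubgroup_iff _ _).1 hσ _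
      (IntermediateField.subset_adjoin ℚ _ (Set.mem_insert_of_mem _ rfl))
    have h3 : (cycMod p (k + 1) σ : ZMod n) = ((1 : ℕ) : ZMod n) := hinj _ _ (by
      rw [← hc, h1, ← hpow, pow_one])
    have h4 : κ σ = 0 := hinj _ _ (mul_right_cancel₀ hθ0 (by
      rw [← hκ, h2, ZMod.val_zero, pow_zero, one_mul]))
    exact Equiv.ext fun v => by
      show perm σ v = v
      rw [hperm, h3, h4, Nat.cast_one, one_mul, add_zero]
  · by_contra! hno
    have hfix : ∀ σ ∈ (padicPlace q).inertiaSubgroupIn ℚ, σ (θ ^ p ^ k) = θ ^ p ^ k := by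
      intro σ hσ
      obtain ⟨ι, hι, rfl⟩ := exists_loc_inert hσ
      have hu := hno ι hι
      rw [hΦ0, ← ZMod.natCast_zmod_val (κ (loc q ι)), ZMod.isUnit_iff_coprime,
        Nat.coprime_pow_right_iff k.succ_pos, Nat.coprime_comm, hp.out.coprime_iff_not_dvd,
        not_not] at hu
      obtain ⟨r, hr⟩ := hu
      rw [map_pow, hκ, mul_pow, hr, ← pow_mul, mul_right_comm, mul_comm p, ← pow_succ, pow_mul,
        ← hn, hζ.pow_eq_one, one_pow, one_mul]
    obtain ⟨i, hi⟩ := FA.Mazur.exists_zpow_of_fixed hq.out (liesOverPrime_padicPlace q)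
      (pow_ne_zero _ hθ0) hfix
    set v := (padicPlace q).valuation (q : Qb)
    have hv0 : 0 < v :=
      (padicPlace q).valuation.pos_iff.2 (Nat.cast_ne_zero.2 hq.out.ne_zero)
    have hv1 : v < 1 := (padicPlace q).mem_nonunits_iff.1 (liesOverPrime_padicPlace q)
    have h2 : v ^ (i * (p : ℤ)) = v ^ (1 : ℤ) := by
      rw [zpow_mul, ← hi, zpow_natCast, ← map_pow, ← pow_mul, ← pow_succ, ← hn, hθ, zpow_one]
    have h3 := zpow_right_injective₀ hv0 hv1.ne h2
    have h4 : (p : ℤ) ∣ 1 := ⟨i, by rw [mul_comm]; exact h3.symm⟩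
    exact hp.out.not_dvd_one (Int.natCast_dvd_natCast.1 h4)

/-- A generator of tame inertia at `q`. -/
def IsTameGen (p q : ℕ) [Fact q.Prime] (s : LG q) : Prop :=
  s ∈ inertL q ∧ ∀ (X : Type) [Monoid X] (f : GQ →* X), IsOpen (f.ker : Set GQ) →
    (∀ ι ∈ inertL q, ∃ m : ℕ, f (loc q ι) ^ p ^ m = 1) →
    ∀ ι ∈ inertL q, ∃ i : ℕ, f (loc q ι) = f (loc q s) ^ i

theorem exists_isTameGen {q : ℕ} [hq : Fact q.Prime] (hqp : q ≠ p) :
    ∃ s, IsTameGen p q s := by
  obtain ⟨s, hs, hgen⟩ :=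
    FA.RT.exists_tame_gen hp.out hq.out hqp.symm (liesOverPrime_padicPlace q)
  obtain ⟨t, ht, rfl⟩ := exists_loc_inert hs
  refine ⟨t, ht, fun X _ f hf hP ι hι => hgen X f hf (fun σ hσ => ?_) (loc q ι) hι⟩
  obtain ⟨η, hη, rfl⟩ := exists_loc_inert hσ
  exact hP η hη

/-- **Local homomorphisms with prescribed tame generator and Frobenius.** -/
theorem exists_local_tame_hom {q : ℕ} [hq : Fact q.Prime] (hqp : q ≠ p) {s : LG q}
    (hs : IsTameGen p q s) {G : Type} [Group G] (ρ : GQ →* G) (hρ : IsOpen (ρ.ker : Set GQ))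
    (hpρ : ∀ g, ∃ k, ρ g ^ p ^ k = 1) {E : Type} [Group E] [Finite E] (hE : IsPGroup p E)
    {X Y : E} (hXY : Y * X = X ^ q * Y) :
    ∃ β : LG q →* E, LC₁ (LL q) β ∧ β (frobL q) = Y ∧
      ∀ ι ∈ inertL q, ∃ i : ℕ, ρ (loc q ι) = ρ (loc q s) ^ i ∧ β ι = X ^ i := by
  classical
  obtain ⟨N, hN⟩ := IsPGroup.iff_card.1 hE
  set n := p ^ (N + 1) with hn
  have hn0 : NeZero n := ⟨pow_ne_zero _ hp.out.ne_zero⟩
  have hexp : ∀ e : E, e ^ n = 1 := fun e => orderOf_dvd_iff_pow_eq_one.1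
    ((orderOf_dvd_natCard e).trans (hN ▸ pow_dvd_pow p N.le_succ))
  obtain ⟨Φ, hΦo, hΦ, ι₀, hι₀, hunit⟩ := exists_kummer_affine (p := p) q N
  set κ : LG q → ZMod n := fun τ => Φ (loc q τ) 0 with hκ
  -- on inertia the action is by translations
  have htr : ∀ ι ∈ inertL q, ∀ (i : ℕ) v, (Φ (loc q ι) ^ i) v = v + i * κ ι := fun ι hι i => by
    induction i with
    | zero => intro v; rw [pow_zero, Equiv.Perm.one_apply, Nat.cast_zero, zero_mul, add_zero]
    | succ i ih =>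
      intro v
      rw [pow_succ' (Φ (loc q ι)), Equiv.Perm.mul_apply, ih, hΦ, cycMod_inertL hqp (N + 1) hι,
        Units.val_one,
        one_mul, Nat.cast_succ, hκ]
      ring
  let F : GQ →* G × Equiv.Perm (ZMod n) := ρ.prod Φ
  have hF : IsOpen (F.ker : Set GQ) := by
    rw [MonoidHom.ker_prod, Subgroup.coe_inf]; exact hρ.inter hΦo
  have hgen : ∀ ι ∈ inertL q, ∃ i : ℕ, ρ (loc q ι) = ρ (loc q s) ^ i ∧ κ ι = i * κ s := by
    intro ι hι
    obtain ⟨i, hi⟩ := hs.2 _ F hF (fun η hη => by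
      obtain ⟨k, hk⟩ := hpρ (loc q η)
      refine ⟨k + (N + 1), Prod.ext ?_ (Equiv.ext fun v => ?_)⟩
      · show ρ (loc q η) ^ p ^ (k + (N + 1)) = 1
        rw [pow_add, pow_mul, hk, one_pow]
      · show (Φ (loc q η) ^ p ^ (k + (N + 1))) v = v
        rw [htr η hη, (ZMod.natCast_eq_zero_iff (p ^ (k + (N + 1))) n).2
          (pow_dvd_pow p (Nat.le_add_left _ _)), zero_mul, add_zero]) ι hι
    refine ⟨i, congrArg Prod.fst hi, ?_⟩
    have h := Equiv.ext_iff.1 (congrArg Prod.snd hi) 0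
    rw [Prod.pow_snd] at h
    exact h.trans ((htr s hs.1 i 0).trans (zero_add _))
  obtain ⟨j, -, hj⟩ := hgen ι₀ hι₀
  have hu : IsUnit (κ s) := by
    have h : IsUnit (κ ι₀) := hunit
    rw [hj] at h
    exact isUnit_of_mul_isUnit_right h
  set a : LG q → ZMod n := fun τ => κ τ * ↑hu.unit⁻¹ with ha
  -- the unit through which Frobenius acts
  set M := n * n.totient
  have hM : NeZero M := ⟨mul_ne_zero hn0.out (Nat.totient_pos.2 (NeZero.pos n)).ne'⟩
  let qu : (ZMod n)ˣ := ZMod.unitOfCoprime q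
    ((Nat.coprime_primes hq.out hp.out).2 hqp |>.pow_right _)
  have hqu : qu ^ M = 1 := by
    show qu ^ (n * n.totient) = 1
    rw [mul_comm, pow_mul, ZMod.pow_totient, one_pow]
  have hcyc : ∀ τ, (cycMod p (N + 1) (loc q τ) : ZMod n) = (q : ZMod n) ^ (frobExp M τ).val := by
    intro τ
    have h := DFunLike.congr_fun (locHom_ext (f := (cycMod p (N + 1)).comp (loc q))
      (f' := powChar qu hqu (frobExp M) frobExp_mul)
      (loc_lc _ (isOpen_ker_cycMod (N + 1)) q) (powChar_lc _ _ _ (frobExp_lc M))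
      (fun ι hι => by
        rw [MonoidHom.comp_apply, cycMod_inertL hqp _ hι, powChar_apply, frobExp_inertL hι,
          ZMod.val_zero, pow_zero])
      (by
        have hM1 : Fact (1 < M) := ⟨lt_of_lt_of_le (Nat.one_lt_pow N.succ_ne_zero hp.out.one_lt)
          (Nat.le_mul_of_pos_right n (Nat.totient_pos.2 (NeZero.pos n)))⟩
        rw [MonoidHom.comp_apply, powChar_apply, frobExp_frobL, ZMod.val_one, pow_one]
        refine Units.ext ?_
        show PadicInt.toZModPow (N + 1) (FA.JTorsion.cycP p (loc q (frobL q)) : ℤ_[p]ˣ).val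
          = (q : ZMod n)
        rw [FA.JTorsion.cycP_frobenius p hq.out hqp (liesOverPrime_padicPlace q) (frobL_spec q),
          map_natCast])) τ
    exact (congrArg Units.val h).trans (Units.val_pow_eq_pow_val _ _)
  have hacoc : ∀ σ τ, a (σ * τ) = a σ + (q : ZMod n) ^ (frobExp M σ).val * a τ := fun σ τ => by
    simp only [ha, hκ]
    rw [map_mul, map_mul, Equiv.Perm.mul_apply, hΦ, hcyc]
    ring
  -- the homomorphism
  set Y' := (X ^ (a (frobL q)).val)⁻¹ * Y with hY'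
  have hY'X : SemiconjBy Y' X (X ^ q) := by
    have h : SemiconjBy Y X (X ^ q) := hXY
    exact (Commute.pow_pow_self X (a (frobL q)).val q).inv_left.semiconjBy.mul_left h
  have hconj : ∀ e : ℕ, SemiconjBy (Y' ^ e) X (X ^ q ^ e) := fun e => by
    induction e with
    | zero => rw [pow_zero, pow_zero, pow_one]; exact SemiconjBy.one_left X
    | succ e ih =>
      rw [pow_succ', pow_succ', pow_mul]
      exact (hY'X.pow_right (q ^ e)).mul_left ih
  have hY'n : Y' ^ M = 1 := by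
    show Y' ^ (n * n.totient) = 1
    rw [pow_mul, hexp, one_pow]
  let β : LG q →* E :=
    MonoidHom.mk' (fun τ => X ^ (a τ).val * Y' ^ (frobExp M τ).val) fun σ τ => by
      have h := (hconj (frobExp M σ).val).pow_right (a τ).val
      rw [← pow_mul] at h
      calc X ^ (a (σ * τ)).val * Y' ^ (frobExp M (σ * τ)).val
          = X ^ ((a σ).val + q ^ (frobExp M σ).val * (a τ).val) *
              (Y' ^ (frobExp M σ).val * Y' ^ (frobExp M τ).val) := by
            rw [frobExp_mul, pow_val_add hY'n]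
            congr 1
            rw [pow_eq_pow_mod ((a σ).val + _) (hexp X), ← ZMod.val_natCast]
            congr 2
            push_cast
            rw [ZMod.natCast_zmod_val, ZMod.natCast_zmod_val, hacoc]
        _ = X ^ (a σ).val * (X ^ (q ^ (frobExp M σ).val * (a τ).val) *
              Y' ^ (frobExp M σ).val) * Y' ^ (frobExp M τ).val := by rw [pow_add]; group
        _ = _ := by rw [← h.eq]; group
  have hlc : LC₁ (LL q) β :=
    (((loc_lc Φ hΦo q).comp fun π => π 0 * (↑hu.unit⁻¹ : ZMod n)).map₂ (frobExp_lc M)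
      fun x y => X ^ x.val * Y' ^ y.val)
  refine ⟨β, hlc, ?_, fun ι hι => ?_⟩
  · show X ^ (a (frobL q)).val * Y' ^ (frobExp M (frobL q)).val = Y
    have hM1 : Fact (1 < M) := ⟨lt_of_lt_of_le (Nat.one_lt_pow N.succ_ne_zero hp.out.one_lt)
      (Nat.le_mul_of_pos_right n (Nat.totient_pos.2 (NeZero.pos n)))⟩
    rw [frobExp_frobL, ZMod.val_one, pow_one, hY', mul_inv_cancel_left]
  · obtain ⟨i, hi, hκi⟩ := hgen ι hι
    refine ⟨i, hi, ?_⟩
    show X ^ (a ι).val * Y' ^ (frobExp M ι).val = X ^ i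
    rw [frobExp_inertL hι, ZMod.val_zero, pow_zero, mul_one, ha]
    simp only
    rw [hκi, mul_assoc, hu.mul_val_inv, mul_one, ZMod.val_natCast,
      ← pow_eq_pow_mod i (hexp X)]

end Fermat.Agent.GolodShafarevich
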