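import Fermat.Agent.GolodShafarevich.Algebra

/-!
# Fox derivatives and the number of relations

The theorem of Golod and Shafarevich for a presentation of a finite `p`-group on a minimal system of
generators, the relations being asked to generate only modulo `p`-th powers and commutators.
-/

set_option autoImplicit false
set_option linter.unusedSectionVars false

noncomputable section

namespace Fermat.Agent.GolodShafarevich

variable {p : ℕ} [hp : Fact p.Prime] {G : Type*} [Group G]

theorem augPow_mul_mem_right {n : ℕ} (a : GrpAlg p G) {x : GrpAlg p G}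
    (hx : x ∈ augPow p G n) : x * a ∈ augPow p G n := by
  induction n generalizing x with
  | zero => exact Submodule.mem_top
  | succ n ih =>
    refine augPow_succ_induction (motive := fun y => y * a ∈ augPow p G (n + 1))
      (fun g z hz => ?_) (by rw [zero_mul]; exact zero_mem _)
      (fun b c hb hc => by rw [add_mul]; exact add_mem hb hc)
      (fun c b hb => by rw [smul_mul_assoc]; exact Submodule.smul_mem _ c hb) hx
    rw [mul_assoc]
    exact sub_one_mul_mem n g (ih hz)

theorem el_sub_one_mem (g : G) : el g - 1 ∈ augPow p G 1 := by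
  rw [← mul_one (el g - 1)]
  exact sub_one_mul_mem 0 g Submodule.mem_top

variable (p G) in
/-- The augmentation. -/
def augMap : GrpAlg p G →ₐ[ZMod p] ZMod p := MonoidAlgebra.lift (ZMod p) (ZMod p) G 1

theorem augMap_el (g : G) : augMap p G (el g) = 1 := MonoidAlgebra.lift_of _ g

theorem sub_augMap_mem (x : GrpAlg p G) : x - augMap p G x • 1 ∈ augPow p G 1 := by
  induction x using MonoidAlgebra.induction_on with
  | of g => rw [augMap_el, one_smul]; exact el_sub_one_mem g
  | add a b ha hb => rw [map_add, add_smul, add_sub_add_comm]; exact add_mem ha hb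
  | smul c a ha =>
    rw [map_smul, smul_eq_mul, mul_smul, ← smul_sub]
    exact Submodule.smul_mem _ c ha

theorem augMap_eq_zero {x : GrpAlg p G} (hx : x ∈ augPow p G 1) : augMap p G x = 0 :=
  augPow_succ_induction (motive := fun y => augMap p G y = 0)
    (fun g z _ => by rw [map_mul, map_sub, augMap_el, map_one, sub_self, zero_mul]) (map_zero _)
    (fun a b ha hb => by rw [map_add, ha, hb, add_zero])
    (fun c a ha => by rw [map_smul, ha, smul_zero]) hx

theorem finrank_augPow_one [Finite G] :
    Module.finrank (ZMod p) (augPow p G 1) + 1 = Module.finrank (ZMod p) (GrpAlg p G) := by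
  have : Module.Finite (ZMod p) (GrpAlg p G) :=
    Module.Finite.of_basis (MonoidAlgebra.basis G (ZMod p))
  have h1 : augPow p G 1 = LinearMap.ker (augMap p G).toLinearMap := le_antisymm
    (fun x hx => augMap_eq_zero hx) fun x hx => by
      have := sub_augMap_mem x
      rwa [show augMap p G x = 0 from hx, zero_smul, sub_zero] at this
  have h2 := LinearMap.finrank_range_add_finrank_ker (augMap p G).toLinearMap
  rw [LinearMap.range_eq_top.2 (fun c => ⟨c • 1, by simp⟩), finrank_top,
    Module.finrank_self, ← h1] at h2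
  omega

/-- Rank and nullity on a submodule. -/
theorem finrank_map_add_inf_ker {V W : Type*} [AddCommGroup V] [Module (ZMod p) V] [AddCommGroup W]
    [Module (ZMod p) W] [Module.Finite (ZMod p) V] (f : V →ₗ[ZMod p] W) (U : Submodule (ZMod p) V) :
    Module.finrank (ZMod p) (U.map f) + Module.finrank (ZMod p) ↥(U ⊓ LinearMap.ker f)
      = Module.finrank (ZMod p) U := by
  have h := LinearMap.finrank_range_add_finrank_ker (f.domRestrict U)
  rw [LinearMap.range_domRestrict, LinearMap.ker_domRestrict,
    (Submodule.equivMapOfInjective U.subtype U.subtype_injective _).finrank_eq,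
    Submodule.map_comap_subtype] at h
  exact h

/-! ### Fox derivatives -/

section Fox

variable {ι : Type*} [DecidableEq ι] (g : ι → G)

/-- The affine map attached to a generator. -/
def foxStep (i : ι) : Equiv.Perm (ι → GrpAlg p G) where
  toFun v := (Pi.single i 1 : ι → GrpAlg p G) + el (p := p) (g i) • v
  invFun v := el (p := p) (g i)⁻¹ • (v - (Pi.single i 1 : ι → GrpAlg p G))
  left_inv v := by
    show el (g i)⁻¹ • ((Pi.single i 1 : ι → GrpAlg p G) + el (g i) • v - Pi.single i 1) = v
    rw [add_sub_cancel_left, smul_smul, ← el_mul, inv_mul_cancel, el_one, one_smul]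
  right_inv v := by
    show (Pi.single i 1 : ι → GrpAlg p G) + el (g i) • el (g i)⁻¹ • (v - Pi.single i 1) = v
    rw [smul_smul, ← el_mul, mul_inv_cancel, el_one, one_smul, add_sub_cancel]

variable (p) in
/-- The Fox derivatives of a word. -/
def fox (f : FreeGroup ι) : ι → GrpAlg p G :=
  FreeGroup.lift (β := Equiv.Perm (ι → GrpAlg p G)) (foxStep g) f 0

theorem lift_foxStep_apply (f : FreeGroup ι) (v : ι → GrpAlg p G) :
    FreeGroup.lift (β := Equiv.Perm (ι → GrpAlg p G)) (foxStep g) f v
      = fox p g f + el (p := p) (FreeGroup.lift g f) • v := by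
  induction f using FreeGroup.induction_on generalizing v with
  | C1 => rw [fox, map_one, map_one, el_one, one_smul, Equiv.Perm.one_apply,
      Equiv.Perm.one_apply, zero_add]
  | of i =>
    show foxStep (p := p) g i v
      = foxStep (p := p) g i 0 + el (p := p) (FreeGroup.lift g (FreeGroup.of i)) • v
    rw [FreeGroup.lift_apply_of]
    simp [foxStep]
  | inv_of i _ =>
    show FreeGroup.lift (foxStep (p := p) g) (FreeGroup.of i)⁻¹ v
      = FreeGroup.lift (β := Equiv.Perm (ι → GrpAlg p G)) (foxStep g) (FreeGroup.of i)⁻¹ 0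
        + el (FreeGroup.lift g (FreeGroup.of i)⁻¹) • v
    rw [map_inv, map_inv, FreeGroup.lift_apply_of, FreeGroup.lift_apply_of]
    show el (p := p) (g i)⁻¹ • (v - (Pi.single i 1 : ι → GrpAlg p G))
      = el (p := p) (g i)⁻¹ • (0 - (Pi.single i 1 : ι → GrpAlg p G)) + el (p := p) (g i)⁻¹ • v
    rw [← smul_add]
    congr 1
    abel
  | mul a b ha hb =>
    rw [fox, map_mul, Equiv.Perm.mul_apply, Equiv.Perm.mul_apply, hb, hb 0, ha, ha (_ + _),
      smul_zero, add_zero, map_mul, el_mul, mul_smul, smul_add, add_assoc]

theorem fox_mul (a b : FreeGroup ι) :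
    fox p g (a * b) = fox p g a + el (p := p) (FreeGroup.lift g a) • fox p g b := by
  rw [← lift_foxStep_apply g a (fox p g b), fox, map_mul, Equiv.Perm.mul_apply]
  rfl

theorem fox_one : fox p g 1 = 0 := by rw [fox, map_one, Equiv.Perm.one_apply]

theorem fox_of (i : ι) : fox p g (FreeGroup.of i) = Pi.single i 1 := by
  rw [fox, FreeGroup.lift_apply_of]
  show (Pi.single i 1 : ι → GrpAlg p G) + el (g i) • (0 : ι → GrpAlg p G) = _
  rw [smul_zero, add_zero]

theorem fox_inv (a : FreeGroup ι) :
    fox p g a⁻¹ = -(el (p := p) (FreeGroup.lift g a)⁻¹ • fox p g a) := by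
  have h := fox_mul (p := p) g a⁻¹ a
  rw [inv_mul_cancel, fox_one, map_inv] at h
  exact eq_neg_of_add_eq_zero_left h.symm

theorem fox_mul_ker {a : FreeGroup ι} (ha : FreeGroup.lift g a = 1) (b : FreeGroup ι) :
    fox p g (a * b) = fox p g a + fox p g b := by rw [fox_mul, ha, el_one, one_smul]

theorem fox_pow_ker {a : FreeGroup ι} (ha : FreeGroup.lift g a = 1) (n : ℕ) :
    fox p g (a ^ n) = n • fox p g a := by
  induction n with
  | zero => rw [pow_zero, fox_one, zero_smul]
  | succ n ih => rw [pow_succ', fox_mul_ker g ha, ih, succ_nsmul']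

theorem fox_conj {a : FreeGroup ι} (ha : FreeGroup.lift g a = 1) (f : FreeGroup ι) :
    fox p g (f * a * f⁻¹) = el (p := p) (FreeGroup.lift g f) • fox p g a := by
  rw [fox_mul, fox_mul, map_mul, ha, mul_one, fox_inv, smul_neg, smul_smul, ← el_mul,
    mul_inv_cancel, el_one, one_smul]
  abel

end Fox

variable {ι : Type*} [Fintype ι] [DecidableEq ι] (g : ι → G)

/-- **The theorem of Golod and Shafarevich.** -/
theorem card_sq_lt_four_mul_relations [Finite G] (hG : IsPGroup p G)
    (hgen : Subgroup.closure (Set.range g) = ⊤) (hmin : Group.rank G = Fintype.card ι)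
    (hpos : 0 < Fintype.card ι) {κ : Type*} [Fintype κ] (rel : κ → FreeGroup ι)
    (hrel : ∀ j, FreeGroup.lift g (rel j) = 1)
    (hdef : (FreeGroup.lift g).ker ≤ Subgroup.normalClosure (Set.range rel ∪
      {x | ∃ r ∈ (FreeGroup.lift g).ker, x = r ^ p} ∪
      {x | ∃ r ∈ (FreeGroup.lift g).ker, ∃ f, x = r * f * r⁻¹ * f⁻¹})) :
    Fintype.card ι ^ 2 < 4 * Fintype.card κ := by
  classical
  by_contra! hcount
  have hfd : Module.Finite (ZMod p) (GrpAlg p G) :=
    Module.Finite.of_basis (MonoidAlgebra.basis G (ZMod p))
  let π := FreeGroup.lift g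
  have hπ : Function.Surjective π := by
    rw [← MonoidHom.range_eq_top, eq_top_iff, ← hgen, Subgroup.closure_le]
    rintro _ ⟨i, rfl⟩
    exact ⟨FreeGroup.of i, FreeGroup.lift_apply_of⟩
  -- the relations lie in the square of the augmentation ideal
  have hχ : ∀ i, ∃ χ : G → ZMod p, (∀ a b, χ (a * b) = χ a + χ b) ∧
      ∀ j, χ (g j) = Pi.single (M := fun _ => ZMod p) i 1 j := fun i => by
    set H := Subgroup.closure (((Finset.univ.erase i).image g : Finset G) : Set G) with hH
    have hne : H ≠ ⊤ := fun h => by
      have h1 := (Group.rank_le h).trans Finset.card_image_le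
      rw [Finset.card_erase_of_mem (Finset.mem_univ i), Finset.card_univ, hmin] at h1
      omega
    obtain ⟨χ, hadd, h0, x, hx⟩ := ScholzReichardt.exists_char_of_ne_top hG hne
    have hoth : ∀ j, j ≠ i → χ (g j) = 0 := fun j hj => h0 _ (Subgroup.subset_closure
      (Finset.mem_coe.2 (Finset.mem_image_of_mem g
        (Finset.mem_erase.2 ⟨hj, Finset.mem_univ _⟩))))
    have hi : χ (g i) ≠ 0 := fun hi => hx (by
      have hle : Subgroup.closure (Set.range g) ≤
          (MonoidHom.mk' (fun a => Multiplicative.ofAdd (χ a))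
            fun a b => by rw [hadd, ofAdd_add]).ker := by
        rw [Subgroup.closure_le]
        rintro _ ⟨j, rfl⟩
        show Multiplicative.ofAdd (χ (g j)) = 1
        rcases eq_or_ne j i with rfl | hj
        · rw [hi, ofAdd_zero]
        · rw [hoth j hj, ofAdd_zero]
      have := hle (hgen.symm ▸ Subgroup.mem_top x)
      exact Multiplicative.ofAdd.injective (this.trans ofAdd_zero.symm))
    refine ⟨fun a => (χ (g i))⁻¹ * χ a, fun a b => by simp only [hadd, mul_add], fun j => ?_⟩
    rcases eq_or_ne j i with rfl | hj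
    · rw [Pi.single_eq_same]; exact inv_mul_cancel₀ hi
    · rw [Pi.single_eq_of_ne hj]
      show _ * χ (g j) = 0
      rw [hoth j hj, mul_zero]
  choose χ hχadd hχg using hχ
  have hε : ∀ f i, augMap p G (fox p g f i) = χ i (π f) := fun f i => by
    have h1 : χ i 1 = 0 := ScholzReichardt.add_map_one (hχadd i)
    induction f using FreeGroup.induction_on with
    | C1 => rw [fox_one, Pi.zero_apply, map_zero, map_one, h1]
    | of j =>
      show augMap p G (fox p g (FreeGroup.of j) i) = χ i (π (FreeGroup.of j))
      rw [fox_of, show π (FreeGroup.of j) = g j from FreeGroup.lift_apply_of, hχg]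
      rcases eq_or_ne j i with rfl | hj
      · rw [Pi.single_eq_same, Pi.single_eq_same, map_one]
      · rw [Pi.single_eq_of_ne hj.symm, Pi.single_eq_of_ne hj, map_zero]
    | inv_of j h =>
      show augMap p G (fox p g (FreeGroup.of j)⁻¹ i) = χ i (π (FreeGroup.of j)⁻¹)
      change augMap p G (fox p g (FreeGroup.of j) i) = χ i (π (FreeGroup.of j)) at h
      have h2 := hχadd i (π (FreeGroup.of j)⁻¹) (π (FreeGroup.of j))
      rw [← map_mul, inv_mul_cancel, map_one, h1] at h2
      rw [fox_inv, Pi.neg_apply, Pi.smul_apply, smul_eq_mul, map_neg, map_mul, augMap_el,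
        one_mul, h]
      linear_combination h2
    | mul a b ha hb =>
      rw [fox_mul, Pi.add_apply, Pi.smul_apply, smul_eq_mul, map_add, map_mul, augMap_el,
        one_mul, ha, hb, map_mul, hχadd]
  have hrelaug : ∀ j i, fox p g (rel j) i ∈ augPow p G 1 := fun j i => by
    have h := sub_augMap_mem (fox p g (rel j) i)
    rwa [hε, show π (rel j) = 1 from hrel j, ScholzReichardt.add_map_one (hχadd i), zero_smul,
      sub_zero] at h
  -- the module of the relations
  let P : Submodule (GrpAlg p G) (ι → GrpAlg p G) :=
    Submodule.span _ (Set.range fun j => fox p g (rel j))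
  let MR : Submodule (GrpAlg p G) (ι → GrpAlg p G) :=
    Submodule.span _ (fox p g '' (π.ker : Set (FreeGroup ι)))
  let Q : ℕ → Submodule (GrpAlg p G) (ι → GrpAlg p G) := fun n =>
    Submodule.span _ {y | ∃ x ∈ augPow p G n, ∃ m ∈ MR, y = x • m}
  have hstep : MR ≤ P ⊔ Q 1 := by
    let S : Subgroup (FreeGroup ι) :=
      { carrier := {f | π f = 1 ∧ fox p g f ∈ P ⊔ Q 1}
        one_mem' := ⟨map_one π, by rw [fox_one]; exact zero_mem _⟩
        mul_mem' := fun {a b} ha hb => ⟨by rw [map_mul, ha.1, hb.1, one_mul],
          by rw [fox_mul_ker g ha.1]; exact add_mem ha.2 hb.2⟩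
        inv_mem' := fun {a} ha => ⟨by rw [map_inv, ha.1, inv_one], by
          rw [fox_inv, show FreeGroup.lift g a = 1 from ha.1, inv_one, el_one, one_smul]
          exact neg_mem ha.2⟩ }
    have hS : S.Normal := ⟨fun a ha f => ⟨by rw [map_mul, map_mul, ha.1, mul_one, map_inv,
      mul_inv_cancel], by rw [fox_conj g ha.1]; exact Submodule.smul_mem _ _ ha.2⟩⟩
    have hle : π.ker ≤ S := hdef.trans (Subgroup.normalClosure_le_normal (by
      rintro x ((⟨j, rfl⟩ | ⟨r, hr, rfl⟩) | ⟨r, hr, f, rfl⟩)
      · exact ⟨hrel j, Submodule.mem_sup_left (Submodule.subset_span ⟨j, rfl⟩)⟩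
      · have hr' : FreeGroup.lift g r = 1 := hr
        refine ⟨by rw [map_pow, show π r = 1 from hr, one_pow], ?_⟩
        rw [fox_pow_ker g hr', ← Nat.cast_smul_eq_nsmul (ZMod p), ZMod.natCast_self, zero_smul]
        exact zero_mem _
      · have hr' : FreeGroup.lift g r = 1 := hr
        have hr'' : FreeGroup.lift g r⁻¹ = 1 := by rw [map_inv, hr', inv_one]
        refine ⟨?_, Submodule.mem_sup_right ?_⟩
        · rw [map_mul, map_mul, map_mul, map_inv, map_inv, show π r = 1 from hr, inv_one,
            one_mul, mul_one, mul_inv_cancel]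
        rw [show r * f * r⁻¹ * f⁻¹ = r * (f * r⁻¹ * f⁻¹) by group, fox_mul_ker g hr',
          fox_conj g hr'', fox_inv, hr', inv_one, el_one, one_smul]
        have e : fox p g r + el (p := p) (FreeGroup.lift g f) • -fox p g r
            = (-(el (p := p) (FreeGroup.lift g f) - 1)) • fox p g r := by
          rw [neg_smul, sub_smul, one_smul, smul_neg]; abel
        rw [e]
        exact Submodule.subset_span ⟨_, neg_mem (el_sub_one_mem _), _,
          Submodule.subset_span ⟨r, hr, rfl⟩, rfl⟩))
    rw [Submodule.span_le]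
    rintro _ ⟨r, hr, rfl⟩
    exact (hle hr).2
  have hnak : ∀ n, MR ≤ P ⊔ Q n := by
    intro n
    induction n with
    | zero =>
      exact fun m hm => Submodule.mem_sup_right (Submodule.subset_span
        ⟨1, Submodule.mem_top, m, hm, (one_smul _ m).symm⟩)
    | succ n ih =>
      refine ih.trans (sup_le le_sup_left ((Submodule.span_le).2 ?_))
      rintro _ ⟨x, hx, m, hm, rfl⟩
      obtain ⟨u, hu, w, hw, rfl⟩ := Submodule.mem_sup.1 (hstep hm)
      rw [smul_add]
      refine add_mem (Submodule.mem_sup_left (P.smul_mem x hu)) (Submodule.mem_sup_right ?_)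
      clear hm hu
      induction hw using Submodule.span_induction generalizing x with
      | mem y hy =>
        obtain ⟨x', hx', m', hm', rfl⟩ := hy
        rw [smul_smul]
        exact Submodule.subset_span ⟨_, mul_aug_mem hx hx', m', hm', rfl⟩
      | zero => rw [smul_zero]; exact zero_mem _
      | add a b _ _ ha hb => rw [smul_add]; exact add_mem (ha x hx) (hb x hx)
      | smul c a _ ha => rw [smul_smul]; exact ha _ (augPow_mul_mem_right c hx)
  have hMP : MR ≤ P := by
    obtain ⟨n, hn⟩ := exists_augPow_eq_bot hG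
    refine (hnak n).trans (sup_le le_rfl ((Submodule.span_le).2 ?_))
    rintro _ ⟨x, hx, m, -, rfl⟩
    rw [hn, Submodule.mem_bot] at hx
    rw [hx, zero_smul]
    exact zero_mem _
  -- the boundary map
  let bd : (ι → GrpAlg p G) →ₗ[GrpAlg p G] GrpAlg p G :=
    Fintype.linearCombination (GrpAlg p G) fun i => el (g i) - 1
  have hbd : ∀ v, bd v = ∑ i, v i * (el (g i) - 1) := fun v => rfl
  let σ : G → FreeGroup ι := Function.surjInv hπ
  have hσ : ∀ x, π (σ x) = x := Function.surjInv_eq hπ
  let Φ : GrpAlg p G →ₗ[ZMod p] (ι → GrpAlg p G) :=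
    (MonoidAlgebra.basis G (ZMod p)).constr (ZMod p) fun x => fox p g (σ x)
  have hΦ : ∀ x, Φ (el x) = fox p g (σ x) := fun x => by
    have : (el x : GrpAlg p G) = MonoidAlgebra.basis G (ZMod p) x := by
      simp [MonoidAlgebra.basis_apply]
    rw [this]
    exact Module.Basis.constr_basis _ _ _ _
  have hsingle : ∀ i a, Φ (a * (el (g i) - 1)) - Pi.single i a ∈ MR := by
    intro i a
    induction a using MonoidAlgebra.induction_on with
    | of h =>
      rw [mul_sub, mul_one, ← el_mul, map_sub, hΦ, hΦ]
      have hr : π ((σ h * FreeGroup.of i)⁻¹ * σ (h * g i)) = 1 := by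
        rw [map_mul, map_inv, map_mul, hσ, hσ, show π (FreeGroup.of i) = g i from
          FreeGroup.lift_apply_of, inv_mul_cancel]
      have e : fox p g (σ (h * g i)) = fox p g (σ h) + el (p := p) h • Pi.single i 1
          + el (p := p) (π (σ h * FreeGroup.of i)) •
            fox p g ((σ h * FreeGroup.of i)⁻¹ * σ (h * g i)) := by
        conv_lhs => rw [← mul_inv_cancel_left (σ h * FreeGroup.of i) (σ (h * g i)), fox_mul,
          fox_mul, fox_of, show FreeGroup.lift g (σ h) = h from hσ h]
      rw [e, ← Pi.single_smul', smul_eq_mul, mul_one,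
        show ∀ a b c : ι → GrpAlg p G, a + b + c - a - b = c from fun a b c => by abel]
      exact MR.smul_mem _ (Submodule.subset_span ⟨_, hr, rfl⟩)
    | add a b ha hb =>
      rw [add_mul, map_add, Pi.single_add, add_sub_add_comm]
      exact add_mem ha hb
    | smul c a ha =>
      rw [smul_mul_assoc, map_smul, Pi.single_smul', ← smul_sub]
      exact Submodule.smul_of_tower_mem MR c ha
  have hker : ∀ v, bd v = 0 → v ∈ P := fun v hv => hMP (by
    have h : ∑ i, (Φ (v i * (el (g i) - 1)) - Pi.single i (v i)) ∈ MR :=
      sum_mem fun i _ => hsingle i (v i)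
    rw [Finset.sum_sub_distrib, ← map_sum, ← hbd, hv, map_zero, Finset.univ_sum_single,
      zero_sub] at h
    exact neg_mem_iff.1 h)
  -- the filtration
  let bdk : (ι → GrpAlg p G) →ₗ[ZMod p] GrpAlg p G := bd.restrictScalars (ZMod p)
  let V : ℕ → Submodule (ZMod p) (ι → GrpAlg p G) := fun n =>
    Submodule.pi Set.univ fun _ => augPow p G n
  have hmap : ∀ n, (V n).map bdk = augPow p G (n + 1) := by
    intro n
    refine le_antisymm ?_ ?_
    · rintro _ ⟨v, hv, rfl⟩
      show bd v ∈ _
      rw [hbd]
      exact sum_mem fun i _ => mul_sub_one_mem (g i) (hv i trivial)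
    · induction n with
      | zero =>
        intro y hy
        let H : Subgroup G :=
          { carrier := {x | el x - 1 ∈ LinearMap.range bd}
            one_mem' := by
              show el (1 : G) - 1 ∈ LinearMap.range bd
              rw [el_one, sub_self]; exact zero_mem _
            mul_mem' := fun {a b} ha hb => by
              show el (a * b) - 1 ∈ LinearMap.range bd
              rw [show el (a * b) - 1 = el a • (el b - 1) + (el a - 1 : GrpAlg p G) by
                rw [smul_eq_mul, el_mul, mul_sub, mul_one]; abel]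
              exact add_mem (Submodule.smul_mem _ _ hb) ha
            inv_mem' := fun {a} ha => by
              show el a⁻¹ - 1 ∈ LinearMap.range bd
              rw [show el a⁻¹ - 1 = -(el a⁻¹ • (el a - 1 : GrpAlg p G)) by
                rw [smul_eq_mul, mul_sub, ← el_mul, inv_mul_cancel, el_one, mul_one]; abel]
              exact neg_mem (Submodule.smul_mem _ _ ha) }
        have hH : ∀ x : G, x ∈ H := fun x => by
          have hle : Subgroup.closure (Set.range g) ≤ H := (Subgroup.closure_le H).2 (by
            rintro _ ⟨i, rfl⟩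
            exact ⟨Pi.single i 1, by simp [hbd, Pi.single_apply]⟩)
          exact hle (hgen.symm ▸ Subgroup.mem_top x)
        refine augPow_succ_induction (motive := fun y => y ∈ (V 0).map bdk) (fun x z hz => ?_)
          (zero_mem _) (fun a b ha hb => add_mem ha hb) (fun c a ha => Submodule.smul_mem _ c ha) hy
        clear hz
        induction z using MonoidAlgebra.induction_on with
        | of h =>
          obtain ⟨v, hv⟩ := hH (x * h)
          obtain ⟨w, hw⟩ := hH h
          refine ⟨v - w, fun i _ => Submodule.mem_top, ?_⟩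
          show bd (v - w) = _
          rw [map_sub, hv, hw, el_mul, sub_mul, one_mul]
          abel
        | add a b ha hb => rw [mul_add]; exact add_mem ha hb
        | smul c a ha => rw [mul_smul_comm]; exact Submodule.smul_mem _ c ha
      | succ n ih =>
        intro y hy
        refine augPow_succ_induction (motive := fun y => y ∈ (V (n + 1)).map bdk)
          (fun x z hz => ?_) (zero_mem _) (fun a b ha hb => add_mem ha hb)
          (fun c a ha => Submodule.smul_mem _ c ha) hy
        obtain ⟨w, hw, rfl⟩ := ih hz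
        refine ⟨(el x - 1 : GrpAlg p G) • w, fun i _ => sub_one_mul_mem n x (hw i trivial), ?_⟩
        show bd ((el x - 1 : GrpAlg p G) • w) = _
        rw [map_smul]
        rfl
  -- counting dimensions
  let ψ : (κ → GrpAlg p G) →ₗ[ZMod p] (ι → GrpAlg p G) :=
    (Fintype.linearCombination (GrpAlg p G) fun j => fox p g (rel j)).restrictScalars (ZMod p)
  set N := Module.finrank (ZMod p) (GrpAlg p G) with hN
  let a : ℕ → ℕ := fun n => N - Module.finrank (ZMod p) (augPow p G n)
  have hjle : ∀ n, Module.finrank (ZMod p) (augPow p G n) ≤ N := fun n => Submodule.finrank_le _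
  have hVdim : ∀ n, Module.finrank (ZMod p) (V n)
      = Fintype.card ι * Module.finrank (ZMod p) (augPow p G n) := fun n => by
    let e : (V n) ≃ₗ[ZMod p] (ι → augPow p G n) :=
      { toFun := fun v i => ⟨v.1 i, v.2 i trivial⟩
        invFun := fun v => ⟨fun i => (v i).1, fun i _ => (v i).2⟩
        map_add' := fun _ _ => rfl
        map_smul' := fun _ _ => rfl
        left_inv := fun _ => rfl
        right_inv := fun _ => rfl }
    rw [e.finrank_eq, Module.finrank_pi_fintype, Finset.sum_const, Finset.card_univ, smul_eq_mul]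
  have hrec : ∀ n, Fintype.card ι * a (n + 1) + 1 ≤ a (n + 2) + Fintype.card κ * a n := by
    intro n
    set K := LinearMap.ker bdk with hK
    have hKP : K ≤ LinearMap.range ψ := fun v hv => by
      have hv' : v ∈ LinearMap.range
          (Fintype.linearCombination (GrpAlg p G) fun j => fox p g (rel j)) := by
        rw [Fintype.range_linearCombination]; exact hker v hv
      exact hv'
    let W : Submodule (ZMod p) (κ → GrpAlg p G) := Submodule.pi Set.univ fun _ => augPow p G n
    have hW : W ≤ (V (n + 1)).comap ψ := fun c hc i _ => by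
      show ((Fintype.linearCombination (GrpAlg p G) fun j => fox p g (rel j)) c) i ∈ _
      rw [Fintype.linearCombination_apply, Finset.sum_apply]
      exact sum_mem fun j _ => by
        rw [Pi.smul_apply, smul_eq_mul]
        exact mul_aug_mem (hc j trivial) (hrelaug j i)
    have hWdim : Module.finrank (ZMod p) W
        = Fintype.card κ * Module.finrank (ZMod p) (augPow p G n) := by
      let e : W ≃ₗ[ZMod p] (κ → augPow p G n) :=
        { toFun := fun v i => ⟨v.1 i, v.2 i trivial⟩
          invFun := fun v => ⟨fun i => (v i).1, fun i _ => (v i).2⟩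
          map_add' := fun _ _ => rfl
          map_smul' := fun _ _ => rfl
          left_inv := fun _ => rfl
          right_inv := fun _ => rfl }
      rw [e.finrank_eq, Module.finrank_pi_fintype, Finset.sum_const, Finset.card_univ, smul_eq_mul]
    have e1 := finrank_map_add_inf_ker bdk (V (n + 1))
    rw [hmap, hVdim] at e1
    have e2 := finrank_map_add_inf_ker bdk (V 0)
    rw [hmap, hVdim, show V 0 = ⊤ from eq_top_iff.2 fun v _ i _ => Submodule.mem_top,
      top_inf_eq, show augPow p G 0 = ⊤ from rfl, finrank_top] at e2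
    have e3 := finrank_augPow_one (p := p) (G := G)
    have e4 := finrank_map_add_inf_ker ψ ((V (n + 1)).comap ψ)
    rw [Submodule.map_comap_eq, inf_eq_right.2 (LinearMap.ker_le_comap ψ)] at e4
    have e5 := LinearMap.finrank_range_add_finrank_ker ψ
    rw [Module.finrank_pi_fintype, Finset.sum_const, Finset.card_univ, smul_eq_mul] at e5
    have e6 := Submodule.finrank_mono hW
    have e7 := Submodule.finrank_sup_add_finrank_inf_eq K (LinearMap.range ψ ⊓ V (n + 1))
    rw [show K ⊓ (LinearMap.range ψ ⊓ V (n + 1)) = V (n + 1) ⊓ K from by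
      rw [← inf_assoc, inf_eq_left.2 hKP, inf_comm]] at e7
    have e8 : Module.finrank (ZMod p) ↥(K ⊔ LinearMap.range ψ ⊓ V (n + 1))
        ≤ Module.finrank (ZMod p) (LinearMap.range ψ) :=
      Submodule.finrank_mono (sup_le hKP inf_le_left)
    have h1 := hjle n
    have h2 := hjle (n + 1)
    have h3 := hjle (n + 2)
    rw [hWdim] at e6
    rw [hK] at e7 e8
    simp only [a, Nat.mul_sub]
    have h4 := Nat.mul_le_mul_left (Fintype.card ι) h2
    have h5 := Nat.mul_le_mul_left (Fintype.card κ) h1
    rw [← hN] at e2 e3 e5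
    rw [zero_add] at e2
    change Module.finrank (ZMod p) (augPow p G (n + 2)) + _ = _ at e1
    omega
  have ha0 : a 0 = 0 := by
    show N - _ = 0
    rw [show augPow p G 0 = ⊤ from rfl, finrank_top]
    exact Nat.sub_self _
  have ha1 : a 1 = 1 := by
    have := finrank_augPow_one (p := p) (G := G)
    simp only [a, hN]
    omega
  obtain ⟨n, hn⟩ := not_bounded_of_recurrence hpos hcount a ha0 ha1 hrec N
  exact absurd hn (not_lt.2 (Nat.sub_le _ _))

end Fermat.Agent.GolodShafarevich
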