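import Fermat.Agent.GolodShafarevich.Fields
import Fermat.Agent.SerreLarge.Field

/-!
# Quadratic fields with infinite two-class field towers

With nine primes congruent to `1` modulo `4` one relation more makes complex conjugation trivial,
and a quadratic field ramified at them, real or imaginary, has an infinite extension unramified at
every place.
-/

set_option autoImplicit false
set_option linter.unusedSectionVars false

noncomputable section

namespace Fermat.Agent.GolodShafarevich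

open FA.GalCoh ScholzReichardt NumberField
open scoped Pointwise

local notation "Qb" => AlgebraicClosure ℚ

/-- With images of exponent `p`, inertia killed by a ramified homomorphism is killed by every
homomorphism. -/
theorem eq_one_of_exponent {p : ℕ} [Fact p.Prime] {G X : Type} [Group G] [Group X]
    {ρ : GQ →* G} {f : GQ →* X} (hρ : IsOpen (ρ.ker : Set GQ)) (hf : IsOpen (f.ker : Set GQ))
    (hρp : ∀ g, ρ g ^ p = 1) (hfp : ∀ g, f g ^ p = 1) {q : ℕ} [Fact q.Prime] (hqp : q ≠ p)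
    (hram : ∃ η ∈ inertL q, f (loc q η) ≠ 1) {ι : LG q} (hι : ι ∈ inertL q)
    (h1 : f (loc q ι) = 1) : ρ (loc q ι) = 1 := by
  obtain ⟨s, hs⟩ := exists_isTameGen (p := p) hqp
  have hgen := hs.2 _ (ρ.prod f) (by rw [MonoidHom.ker_prod, Subgroup.coe_inf]; exact hρ.inter hf)
    fun η _ => ⟨1, by rw [pow_one]; exact Prod.ext (hρp _) (hfp _)⟩
  obtain ⟨η, hη, hne⟩ := hram
  have hord : orderOf (f (loc q s)) = p := by
    refine orderOf_eq_prime (hfp _) fun h2 => hne ?_
    obtain ⟨j, hj⟩ := hgen η hη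
    have e : f (loc q η) = f (loc q s) ^ j := congrArg Prod.snd hj
    rw [e, h2, one_pow]
  obtain ⟨i, hi⟩ := hgen ι hι
  obtain ⟨k, rfl⟩ : p ∣ i := hord ▸ orderOf_dvd_of_pow_eq_one
    (((congrArg Prod.snd hi).trans (Prod.pow_snd _ _)).symm.trans h1)
  refine (congrArg Prod.fst hi).trans ?_
  show ρ (loc q s) ^ (p * k) = 1
  rw [pow_mul, hρp, one_pow]

variable {S : Finset Nat.Primes}

theorem two_dvd_sub_one_of_mod_four (hS : ∀ q ∈ S, (q : ℕ) % 4 = 1) :
    ∀ q ∈ S, 2 ∣ (q : ℕ) - 1 := fun q hq => by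
  have := hS q hq
  omega

/-- **The tower**: below it lies the field of the square roots of the primes in `S`, and complex
conjugation fixes it. -/
theorem exists_tower_below_quadratic (hS : ∀ q ∈ S, (q : ℕ) % 4 = 1) (h9 : 9 ≤ S.card)
    (F : IntermediateField ℚ Qb) [FiniteDimensional ℚ F] (hF : Module.finrank ℚ F = 2)
    (hram : ∀ q ∈ S, ∃ A : ValuationSubring Qb, A.LiesOverPrime ((q : Nat.Primes) : ℕ) ∧
      ¬ A.inertiaSubgroupIn ℚ ≤ F.fixingSubgroup) :
    ∃ K : IntermediateField ℚ Qb, HasTower 2 K ∧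
      ∀ q : ℕ, q.Prime → ∀ A : ValuationSubring Qb, A.LiesOverPrime q →
        A.inertiaSubgroupIn ℚ ⊓ F.fixingSubgroup ≤ K.fixingSubgroup := by
  classical
  have : Fact (Nat.Prime 2) := ⟨Nat.prime_two⟩
  have hS2 := two_dvd_sub_one_of_mod_four hS
  obtain ⟨ω, hωs, hωc, hω, hcyc⟩ := exists_omega (dvd_refl 2) hS2
  have hωC : ω complexConjugation = 1 := hcyc _ fun q hq => by
    have : Fact (q : ℕ).Prime := ⟨q.2⟩
    obtain ⟨y, hy⟩ : IsSquare (-1 : ZMod ((q : ℕ) ^ 1)) := by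
      rw [pow_one]
      exact ZMod.exists_sq_eq_neg_one_iff.2 (by rw [hS q hq]; norm_num)
    refine ⟨⟨y, -y, by rw [mul_neg, ← hy, neg_neg], by rw [neg_mul, ← hy, neg_neg]⟩,
      Units.ext ?_⟩
    rw [omega_complexConjugation, Units.val_pow_eq_pow_val, sq]
    exact hy
  obtain ⟨K, -, -, -, -, hKf⟩ := hωc.exists_field hωs
  refine ⟨K, fun B => ?_, fun q hq A hA g hg => ?_⟩
  · obtain ⟨G, _, _, ρ, hρ, hc, hρT, hB⟩ := exists_inClass_split_card_gt (dvd_refl 2) hS2
      (by omega) (fun _ : Unit => complexConjugation) (fun _ => 1) hωs hωc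
      (fun _ => by rw [hωC, one_pow])
      (by rw [if_neg two_ne_zero, Fintype.card_unit]; nlinarith) B
    obtain ⟨L, h1, h2, h3, h4, h5, h6, h7, -⟩ := exists_layer hS2 hρ hc hωc
      (exists_inertia_omega_ne hω) (by simpa using hρT ()) hωC hKf
    exact ⟨L, h1, h2, h3, h4, hB.trans_le h5, h6, h7⟩
  have : Fact q.Prime := ⟨hq⟩
  obtain ⟨hgI, hgF⟩ := Subgroup.mem_inf.1 hg
  obtain ⟨τ, t, ht, rfl⟩ := exists_conj_inertL hA hgI
  refine (hKf _).2 ?_
  by_cases hqS : (⟨q, hq⟩ : Nat.Primes) ∈ S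
  · have : Algebra.IsQuadraticExtension ℚ F := ⟨hF⟩
    have : IsGalois ℚ F := ⟨⟩
    let f : GQ →* (F ≃ₐ[ℚ] F) := AlgEquiv.restrictNormalHom F
    have hfix : ∀ σ : GQ, σ ∈ F.fixingSubgroup ↔ f σ = 1 := fun σ => by
      rw [IntermediateField.mem_fixingSubgroup_iff]
      refine ⟨fun h => AlgEquiv.ext fun y => Subtype.ext ?_, fun h x hx => ?_⟩
      · exact (σ.restrictNormal_commutes F y).trans (h y y.2)
      · exact (σ.restrictNormal_commutes F ⟨x, hx⟩).symm.trans
          (congrArg Subtype.val (AlgEquiv.congr_fun h ⟨x, hx⟩))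
    have hex : ∀ v : Multiplicative ({q // q ∈ S} → ZMod 2), v ^ 2 = 1 := fun v =>
      Multiplicative.toAdd.injective (funext fun r => by
        rw [toAdd_pow, toAdd_one, Pi.smul_apply, nsmul_eq_mul, ZMod.natCast_self, zero_mul,
          Pi.zero_apply])
    have hft : f (loc q t) = 1 := by
      have h := (hfix _).1 hgF
      rwa [map_mul, map_mul, map_inv, conj_eq_one_iff] at h
    have hex' : ∀ v : F ≃ₐ[ℚ] F, v ^ 2 = 1 := fun v => by
      rw [← hF, ← IsGalois.card_aut_eq_finrank ℚ F]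
      exact pow_card_eq_one'
    have hne : ∃ η ∈ inertL q, f (loc q η) ≠ 1 := by
      obtain ⟨A', hA', hnle⟩ := hram _ hqS
      obtain ⟨σ, hσ, hσF⟩ := SetLike.not_le_iff_exists.1 hnle
      obtain ⟨τ', η, hη, rfl⟩ := exists_conj_inertL (q := q) hA' hσ
      refine ⟨η, hη, fun h => hσF ((hfix _).2 ?_)⟩
      rw [map_mul, map_mul, map_inv, h, mul_one, mul_inv_cancel]
    have hq2 : q ≠ 2 := fun h => by
      have := hS _ hqS
      simp [h] at this
    rw [map_mul, map_mul, map_inv, eq_one_of_exponent (p := 2) hωc.isOpen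
      (Subgroup.isOpen_mono (fun σ hσ => MonoidHom.mem_ker.2 ((hfix σ).1 hσ))
        F.fixingSubgroup_isOpen) (fun _ => hex _) (fun _ => hex' _) hq2 hne ht hft, mul_one,
      mul_inv_cancel]
  · rw [map_mul, map_mul, map_inv, hωc.unr ⟨q, hq⟩ hqS t ht, mul_one, mul_inv_cancel]

/-- **The two-class field tower is infinite**: extensions of the quadratic field of unbounded
`2`-power degree, unramified at every place. -/
theorem exists_unbounded_unramified_quadratic (hS : ∀ q ∈ S, (q : ℕ) % 4 = 1) (h9 : 9 ≤ S.card)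
    (F : IntermediateField ℚ Qb) [FiniteDimensional ℚ F] (hF : Module.finrank ℚ F = 2)
    (hram : ∀ q ∈ S, ∃ A : ValuationSubring Qb, A.LiesOverPrime ((q : Nat.Primes) : ℕ) ∧
      ¬ A.inertiaSubgroupIn ℚ ≤ F.fixingSubgroup) (B : ℕ) :
    ∃ N : IntermediateField ℚ Qb, F ≤ N ∧ FiniteDimensional ℚ N ∧ IsGalois ℚ N ∧
      (∃ n, Module.finrank ℚ N = 2 ^ n) ∧ B < Module.finrank ℚ N ∧
      (∀ q : ℕ, q.Prime → ∀ A : ValuationSubring Qb, A.LiesOverPrime q →
        A.inertiaSubgroupIn ℚ ⊓ F.fixingSubgroup ≤ N.fixingSubgroup) ∧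
      ∀ g : GQ, g * complexConjugation * g⁻¹ ∈ F.fixingSubgroup →
        g * complexConjugation * g⁻¹ ∈ N.fixingSubgroup := by
  obtain ⟨K, hK, hle⟩ := exists_tower_below_quadratic hS h9 F hF hram
  obtain ⟨L, -, hL, hLg, ⟨n, hn⟩, hB, hcL, hu⟩ := hK B
  have : Algebra.IsQuadraticExtension ℚ F := ⟨hF⟩
  have : IsGalois ℚ F := ⟨⟩
  let f : GQ →* (F ≃ₐ[ℚ] F) × (L ≃ₐ[ℚ] L) :=
    (AlgEquiv.restrictNormalHom F).prod (AlgEquiv.restrictNormalHom L)
  have hf : ∀ g : GQ, f g = 1 ↔ g ∈ F.fixingSubgroup ∧ g ∈ L.fixingSubgroup := fun g => by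
    simp only [f, MonoidHom.prod_apply, Prod.ext_iff, IntermediateField.mem_fixingSubgroup_iff,
      AlgEquiv.ext_iff, Subtype.ext_iff, Subtype.forall, Prod.fst_one, Prod.snd_one,
      AlgEquiv.one_apply]
    exact and_congr
      (forall₂_congr fun x hx => Iff.of_eq (congrArg (· = x)
        (AlgEquiv.restrictNormal_commutes g F ⟨x, hx⟩)))
      (forall₂_congr fun x hx => Iff.of_eq (congrArg (· = x)
        (AlgEquiv.restrictNormal_commutes g L ⟨x, hx⟩)))
  have hopen : IsOpen (f.ker : Set GQ) := Subgroup.isOpen_mono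
    (show F.fixingSubgroup ⊓ L.fixingSubgroup ≤ f.ker from fun g hg =>
      MonoidHom.mem_ker.2 ((hf g).2 hg))
    (F.fixingSubgroup_isOpen.inter L.fixingSubgroup_isOpen)
  obtain ⟨N, hN, hNg, ⟨e⟩, hNf⟩ := FA.AbelianInverseGalois.exists_field_of_surjective
    f.rangeRestrict (MonoidHom.rangeRestrict_surjective f)
    (by rw [MonoidHom.ker_rangeRestrict]; exact hopen)
  have hfix : ∀ g : GQ, g ∈ N.fixingSubgroup ↔ g ∈ F.fixingSubgroup ∧ g ∈ L.fixingSubgroup :=
    fun g => ((IntermediateField.mem_fixingSubgroup_iff N g).trans (hNf g)).trans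
      (Subtype.ext_iff.trans (hf g))
  have hsub : ∀ {E : IntermediateField ℚ Qb}, (∀ g ∈ N.fixingSubgroup, g ∈ E.fixingSubgroup) →
      E ≤ N := fun {E} h => by
    rw [← InfiniteGalois.fixedField_fixingSubgroup E,
      ← InfiniteGalois.fixedField_fixingSubgroup N]
    exact IntermediateField.fixedField_antitone h
  have hLN : L ≤ N := hsub fun g hg => ((hfix g).1 hg).2
  refine ⟨N, hsub fun g hg => ((hfix g).1 hg).1, hN, hNg, ?_, hB.trans_le
    ((IntermediateField.inclusion hLN).toLinearMap.finrank_le_finrank_of_injective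
      (IntermediateField.inclusion hLN).injective),
    fun q hq A hA g hg => (hfix g).2 ⟨hg.2, hu q hq A hA ⟨hg.1, hle q hq A hA hg⟩⟩,
    fun g hg => (hfix _).2 ⟨hg, ?_⟩⟩
  · have hcard : Nat.card f.range ∣ 2 ^ (n + 1) := by
      refine (Subgroup.card_subgroup_dvd_card f.range).trans ?_
      rw [Nat.card_prod, IsGalois.card_aut_eq_finrank, IsGalois.card_aut_eq_finrank, hF, hn,
        pow_succ']
    obtain ⟨i, -, hi⟩ := (Nat.dvd_prime_pow Nat.prime_two).1 hcard
    exact ⟨i, by rw [← IsGalois.card_aut_eq_finrank ℚ N, Nat.card_congr e.toEquiv, hi]⟩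
  refine (IntermediateField.mem_fixingSubgroup_iff _ _).2 fun x hx => ?_
  have hgx : g⁻¹ x ∈ L :=
    (g⁻¹.restrictNormal_commutes L ⟨x, hx⟩) ▸ (g⁻¹.restrictNormal L ⟨x, hx⟩).2
  rw [AlgEquiv.mul_apply, AlgEquiv.mul_apply,
    (IntermediateField.mem_fixingSubgroup_iff _ _).1 hcL _ hgx]
  exact g.apply_symm_apply x

/-- **An infinite extension of the quadratic field, unramified at every place.** -/
theorem exists_infinite_unramified_quadratic (hS : ∀ q ∈ S, (q : ℕ) % 4 = 1) (h9 : 9 ≤ S.card)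
    (F : IntermediateField ℚ Qb) [FiniteDimensional ℚ F] (hF : Module.finrank ℚ F = 2)
    (hram : ∀ q ∈ S, ∃ A : ValuationSubring Qb, A.LiesOverPrime ((q : Nat.Primes) : ℕ) ∧
      ¬ A.inertiaSubgroupIn ℚ ≤ F.fixingSubgroup) :
    ∃ N : IntermediateField ℚ Qb, F ≤ N ∧ IsGalois ℚ N ∧ ¬ FiniteDimensional ℚ N ∧
      (∀ q : ℕ, q.Prime → ∀ A : ValuationSubring Qb, A.LiesOverPrime q →
        A.inertiaSubgroupIn ℚ ⊓ F.fixingSubgroup ≤ N.fixingSubgroup) ∧
      ∀ g : GQ, g * complexConjugation * g⁻¹ ∈ F.fixingSubgroup →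
        g * complexConjugation * g⁻¹ ∈ N.fixingSubgroup := by
  obtain ⟨K, hK, hle⟩ := exists_tower_below_quadratic hS h9 F hF hram
  obtain ⟨M, -, hMg, hMi, hMc, hMu⟩ := hK.exists_infinite
  have : Algebra.IsQuadraticExtension ℚ F := ⟨hF⟩
  have : Normal ℚ M := hMg.to_normal
  have hFn : Normal ℚ F := Algebra.IsQuadraticExtension.normal ℚ F
  have : Normal ℚ (F ⊔ M : IntermediateField ℚ Qb) :=
    @IntermediateField.normal_sup ℚ Qb _ _ _ F M hFn hMg.to_normal
  have key : ∀ g, g ∈ F.fixingSubgroup → g ∈ M.fixingSubgroup → g ∈ (F ⊔ M).fixingSubgroup :=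
    fun g h1 h2 => by
      rw [IntermediateField.fixingSubgroup_sup]
      exact ⟨h1, h2⟩
  refine ⟨F ⊔ M, le_sup_left, ⟨⟩, fun hfin => hMi ?_,
    fun q hq A hA g hg => key g hg.2 (hMu q hq A hA ⟨hg.1, hle q hq A hA hg⟩),
    fun g hg => key _ hg ((IntermediateField.mem_fixingSubgroup_iff _ _).2 fun x hx => ?_)⟩
  · exact Module.Finite.of_injective
      (IntermediateField.inclusion (le_sup_right : M ≤ F ⊔ M)).toLinearMap
      (IntermediateField.inclusion (le_sup_right : M ≤ F ⊔ M)).injective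
  have hgx : g⁻¹ x ∈ M :=
    (g⁻¹.restrictNormal_commutes M ⟨x, hx⟩) ▸ (g⁻¹.restrictNormal M ⟨x, hx⟩).2
  rw [AlgEquiv.mul_apply, AlgEquiv.mul_apply,
    (IntermediateField.mem_fixingSubgroup_iff _ _).1 hMc _ hgx]
  exact g.apply_symm_apply x

/-- **Every number field containing such a quadratic field has even class number.** -/
theorem two_dvd_classNumber_of_le (hS : ∀ q ∈ S, (q : ℕ) % 4 = 1) (h9 : 9 ≤ S.card)
    (F : IntermediateField ℚ Qb) [FiniteDimensional ℚ F] (hF : Module.finrank ℚ F = 2)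
    (hram : ∀ q ∈ S, ∃ A : ValuationSubring Qb, A.LiesOverPrime ((q : Nat.Primes) : ℕ) ∧
      ¬ A.inertiaSubgroupIn ℚ ≤ F.fixingSubgroup)
    (E : IntermediateField ℚ Qb) [FiniteDimensional ℚ E] [NumberField E] (hFE : F ≤ E) :
    2 ∣ classNumber E := by
  have : Fact (Nat.Prime 2) := ⟨Nat.prime_two⟩
  obtain ⟨K, hK, hle⟩ := exists_tower_below_quadratic hS h9 F hF hram
  exact hK.dvd_classNumber_of_inertia fun q hq A hA g hg =>
    hle q hq A hA ⟨hg.1, IntermediateField.fixingSubgroup_antitone hFE hg.2⟩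

/-- A prime dividing `d` exactly once ramifies in `ℚ(√d)`. -/
theorem exists_inertia_moves_sqrt_of_exact {q : ℕ} (hq : q.Prime) {d : ℤ} (hqd : (q : ℤ) ∣ d)
    (hqd2 : ¬ (q : ℤ) ^ 2 ∣ d) {s : Qb} (hs : s ^ 2 = (d : Qb)) {A : ValuationSubring Qb}
    (hA : A.LiesOverPrime q) : ∃ σ ∈ A.inertiaSubgroupIn ℚ, σ s ≠ s := by
  by_contra hcon
  push Not at hcon
  obtain ⟨m, rfl⟩ := hqd
  have hm : ¬ (q : ℤ) ∣ m := fun h => hqd2 (by rw [sq]; exact mul_dvd_mul_left _ h)
  have hlt := FA.LocalDef.valuation_p_lt_one hA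
  have hv : A.valuation ((((q : ℤ) * m : ℤ)) : Qb) = A.valuation (q : Qb) := by
    rw [Int.cast_mul, map_mul, Int.cast_natCast, FA.Local.natCast_eq_one_of_not_dvd hq hlt hm,
      mul_one]
  have hs0 : s ≠ 0 := fun h => by
    rw [h, zero_pow two_ne_zero] at hs
    rw [← hs, map_zero] at hv
    exact (FA.LocalDef.valuation_p_pos hq).ne hv
  obtain ⟨k, hk⟩ :=
    FA.LocalDef.exists_zpow_of_mem_kur hq hA (FA.LocalDef.mem_kur.mpr hcon) hs0
  have h := congrArg A.valuation hs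
  rw [map_pow, hk, hv, ← zpow_natCast, ← zpow_mul] at h
  have := FA.Two.zpow_val_injective hq hA (j := 1) (by rw [h, zpow_one])
  omega

/-- The field of a square root of an integer with such prime divisors. -/
theorem quadratic_field_of_sqrt {d : ℤ} (hne : S.Nonempty)
    (hd : ∀ q ∈ S, ((q : ℕ) : ℤ) ∣ d ∧ ¬ ((q : ℕ) : ℤ) ^ 2 ∣ d) {s : Qb}
    (hs : s ^ 2 = (d : Qb)) :
    FiniteDimensional ℚ (IntermediateField.adjoin ℚ {s}) ∧
    Module.finrank ℚ (IntermediateField.adjoin ℚ {s}) = 2 ∧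
    ∀ q ∈ S, ∃ A : ValuationSubring Qb, A.LiesOverPrime ((q : Nat.Primes) : ℕ) ∧
      ¬ A.inertiaSubgroupIn ℚ ≤ (IntermediateField.adjoin ℚ {s}).fixingSubgroup := by
  have hint : IsIntegral ℚ s := IsIntegral.of_pow two_pos (hs ▸ isIntegral_algebraMap)
  have hfd := IntermediateField.adjoin.finiteDimensional hint
  have hram : ∀ q ∈ S, ∃ A : ValuationSubring Qb, A.LiesOverPrime ((q : Nat.Primes) : ℕ) ∧
      ¬ A.inertiaSubgroupIn ℚ ≤ (IntermediateField.adjoin ℚ {s}).fixingSubgroup := fun q hq => by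
    have : Fact (q : ℕ).Prime := ⟨q.2⟩
    obtain ⟨σ, hσ, hσs⟩ := exists_inertia_moves_sqrt_of_exact q.2 (hd q hq).1 (hd q hq).2 hs
      (liesOverPrime_padicPlace (q : ℕ))
    exact ⟨_, liesOverPrime_padicPlace (q : ℕ), fun h => hσs
      ((IntermediateField.mem_fixingSubgroup_iff _ _).1 (h hσ) s
        (IntermediateField.mem_adjoin_simple_self ℚ s))⟩
  refine ⟨hfd, ?_, hram⟩
  rw [IntermediateField.adjoin.finrank hint]
  have hle : (minpoly ℚ s).natDegree ≤ 2 := by
    have hz : Polynomial.aeval s (Polynomial.X ^ 2 - Polynomial.C (d : ℚ)) = 0 := by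
      rw [map_sub, map_pow, Polynomial.aeval_X, Polynomial.aeval_C, hs, map_intCast, sub_self]
    exact (Polynomial.natDegree_le_of_dvd (minpoly.dvd ℚ s hz)
      (Polynomial.X_pow_sub_C_ne_zero two_pos _)).trans (Polynomial.natDegree_X_pow_sub_C).le
  refine le_antisymm hle (Nat.succ_le_of_lt (lt_of_le_of_ne (minpoly.natDegree_pos hint) ?_))
  intro h1
  obtain ⟨r, hr⟩ : s ∈ (algebraMap ℚ Qb).range :=
    minpoly.natDegree_eq_one_iff.1 h1.symm
  obtain ⟨q, hq⟩ := hne
  obtain ⟨A, -, hnle⟩ := hram q hq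
  refine hnle fun σ _ => (IntermediateField.mem_fixingSubgroup_iff _ _).2 fun x hx => ?_
  have hbot : IntermediateField.adjoin ℚ {s} = ⊥ :=
    IntermediateField.adjoin_simple_eq_bot_iff.2 (IntermediateField.mem_bot.2 ⟨r, hr⟩)
  rw [hbot, IntermediateField.mem_bot] at hx
  obtain ⟨y, rfl⟩ := hx
  exact σ.commutes y

/-- **Square roots with nine such primes force even class numbers.** -/
theorem two_dvd_classNumber_of_sq (hS : ∀ q ∈ S, (q : ℕ) % 4 = 1) (h9 : 9 ≤ S.card) {d : ℤ}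
    (hd : ∀ q ∈ S, ((q : ℕ) : ℤ) ∣ d ∧ ¬ ((q : ℕ) : ℤ) ^ 2 ∣ d) (E : Type) [Field E]
    [NumberField E] {x : E} (hx : x ^ 2 = (d : E)) : 2 ∣ classNumber E := by
  let j : E →ₐ[ℚ] Qb := IsAlgClosed.lift
  obtain ⟨hfd, h2, hram⟩ := quadratic_field_of_sqrt (Finset.card_pos.1 (by omega)) hd
    (s := j x) (by rw [← map_pow, hx, map_intCast])
  have : FiniteDimensional ℚ j.fieldRange :=
    (AlgEquiv.ofInjectiveField j).toLinearEquiv.finiteDimensional
  have : NumberField j.fieldRange := { }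
  rw [classNumber_congr (F' := j.fieldRange) (AlgEquiv.ofInjectiveField j).toRingEquiv]
  exact two_dvd_classNumber_of_le hS h9 _ h2 hram _
    (IntermediateField.adjoin_simple_le_iff.2 ⟨x, rfl⟩)

end Fermat.Agent.GolodShafarevich
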