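import Fermat.Agent.GolodShafarevich.Cyclotomic

/-!
# Towers in which given primes split completely

Ihara's refinement: finitely many further primes may be asked to split completely in the unramified
extensions, at the cost of one relation for each.
-/

set_option autoImplicit false
set_option linter.unusedSectionVars false

noncomputable section

namespace Fermat.Agent.GolodShafarevich

open FA.GalCoh ScholzReichardt NumberField
open scoped Pointwise

local notation "Qb" => AlgebraicClosure ℚ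

variable {p : ℕ} [hp : Fact p.Prime] {S : Finset Nat.Primes}

/-- A decomposition element at a place above `q` is conjugate to a local one. -/
theorem exists_conj_loc {q : ℕ} [hq : Fact q.Prime] {A : ValuationSubring Qb}
    (hA : A.LiesOverPrime q) {g : GQ} (hg : g ∈ A.decompositionSubgroup ℚ) :
    ∃ (τ : GQ) (t : LG q), g = τ * loc q t * τ⁻¹ := by
  obtain ⟨τ, hτ⟩ := FA.TW.exists_smul_eq_of_liesOver hq.out (A := padicPlace q) (B := A)
    (liesOverPrime_padicPlace q) hA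
  have h : τ⁻¹ * g * τ ∈ (padicPlace q).decompositionSubgroup ℚ := by
    rw [MulAction.mem_stabilizer_iff] at hg ⊢
    rw [mul_smul, mul_smul, hτ, hg, ← hτ, inv_smul_smul]
  rw [← range_loc] at h
  obtain ⟨t, ht⟩ := h
  exact ⟨τ, t, by rw [ht]; group⟩

/-- An unramified decomposition element killed by the bottom is killed by the top, if Frobenius
has exponent `p`, or `1` where the bottom kills it. -/
theorem eq_one_of_frob {G X : Type} [Group G] [Group X] {ρ : GQ →* G} {f : GQ →* X}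
    (h : InClass p p S ρ) (hf : InClass p p S f) {q : Nat.Primes} (hq : q ∉ S)
    (hfp : f (loc (q : ℕ) (frobL (q : ℕ))) ^ p = 1)
    (hρp : ρ (loc (q : ℕ) (frobL (q : ℕ))) ^ p = 1)
    (hρ1 : f (loc (q : ℕ) (frobL (q : ℕ))) = 1 → ρ (loc (q : ℕ) (frobL (q : ℕ))) = 1)
    {t : LG (q : ℕ)} (ht : f (loc (q : ℕ) t) = 1) : ρ (loc (q : ℕ) t) = 1 := by
  obtain ⟨M, hM, hMs⟩ := loc_lc (ρ.prod f) (h.prod hf).isOpen (q : ℕ)
  obtain ⟨i, ι, hι, x, hx, rfl⟩ := exists_frobL_decomp hM t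
  have e : (ρ.prod f).comp (loc (q : ℕ)) (frobL (q : ℕ) ^ i * ι * x)
      = (ρ (loc (q : ℕ) (frobL (q : ℕ))) ^ i, f (loc (q : ℕ) (frobL (q : ℕ))) ^ i) := by
    rw [hMs _ x hx, map_mul, map_pow, MonoidHom.comp_apply, MonoidHom.comp_apply,
      MonoidHom.prod_apply, MonoidHom.prod_apply, h.unr q hq ι hι, hf.unr q hq ι hι]
    exact mul_one _
  have e1 : ρ (loc (q : ℕ) (frobL (q : ℕ) ^ i * ι * x))
      = ρ (loc (q : ℕ) (frobL (q : ℕ))) ^ i := congrArg Prod.fst e
  have e2 : f (loc (q : ℕ) (frobL (q : ℕ) ^ i * ι * x))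
      = f (loc (q : ℕ) (frobL (q : ℕ))) ^ i := congrArg Prod.snd e
  rw [e1]
  by_cases h1 : f (loc (q : ℕ) (frobL (q : ℕ))) = 1
  · rw [hρ1 h1, one_pow]
  · obtain ⟨k, rfl⟩ : p ∣ i :=
      orderOf_eq_prime hfp h1 ▸ orderOf_dvd_of_pow_eq_one (e2.symm.trans ht)
    rw [pow_mul, hρp, one_pow]

/-- **Ihara**: unramified extensions of unbounded degree in which the primes of `T` split
completely. -/
theorem exists_split_tower (hp2 : p ≠ 2) (hS : ∀ q ∈ S, p ∣ (q : ℕ) - 1) (T : Finset Nat.Primes)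
    (hT : ∀ q ∈ T, q ∉ S) (hpos : 0 < S.card)
    (hcount : 4 * (2 * S.card + T.card) ≤ S.card ^ 2) :
    ∃ K : IntermediateField ℚ Qb, FiniteDimensional ℚ K ∧ IsGalois ℚ K ∧
      Module.finrank ℚ K = p ^ S.card ∧ complexConjugation ∈ K.fixingSubgroup ∧
      (∀ q : Nat.Primes, q ∉ S → ∀ A : ValuationSubring Qb, A.LiesOverPrime (q : ℕ) →
        A.inertiaSubgroupIn ℚ ≤ K.fixingSubgroup) ∧
      (∀ B : ℕ, ∃ L : IntermediateField ℚ Qb, K ≤ L ∧ FiniteDimensional ℚ L ∧ IsGalois ℚ L ∧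
        (∃ n, Module.finrank ℚ L = p ^ n) ∧ B < Module.finrank ℚ L ∧
        complexConjugation ∈ L.fixingSubgroup ∧
        (∀ q : ℕ, q.Prime → ∀ A : ValuationSubring Qb, A.LiesOverPrime q →
          A.inertiaSubgroupIn ℚ ⊓ K.fixingSubgroup ≤ L.fixingSubgroup) ∧
        ∀ q : Nat.Primes, q ∈ T → ∀ A : ValuationSubring Qb, A.LiesOverPrime (q : ℕ) →
          A.decompositionSubgroup ℚ ⊓ K.fixingSubgroup ≤ L.fixingSubgroup) ∧
      ∃ M : IntermediateField ℚ Qb, K ≤ M ∧ IsGalois ℚ M ∧ ¬ FiniteDimensional ℚ M ∧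
        complexConjugation ∈ M.fixingSubgroup ∧
        (∀ q : ℕ, q.Prime → ∀ A : ValuationSubring Qb, A.LiesOverPrime q →
          A.inertiaSubgroupIn ℚ ⊓ K.fixingSubgroup ≤ M.fixingSubgroup) ∧
        ∀ q : Nat.Primes, q ∈ T → ∀ A : ValuationSubring Qb, A.LiesOverPrime (q : ℕ) →
          A.decompositionSubgroup ℚ ⊓ K.fixingSubgroup ≤ M.fixingSubgroup := by
  classical
  obtain ⟨ω, hωs, hωc, hω, -⟩ := exists_omega (dvd_refl p) hS
  obtain ⟨K, hK, hKg, hKd, -, hKf⟩ := hωc.exists_field hωs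
  have hexp : ∀ v : Multiplicative ({q // q ∈ S} → ZMod p), v ^ p = 1 := fun v =>
    Multiplicative.toAdd.injective (funext fun r => by
      rw [toAdd_pow, toAdd_one, Pi.smul_apply, nsmul_eq_mul, ZMod.natCast_self, zero_mul,
        Pi.zero_apply])
  let e : Nat.Primes → ℕ := fun q => if ω (loc (q : ℕ) (frobL (q : ℕ))) = 1 then 1 else p
  have hL : ∀ B : ℕ, ∃ L : IntermediateField ℚ Qb, K ≤ L ∧ FiniteDimensional ℚ L ∧
      IsGalois ℚ L ∧ (∃ n, Module.finrank ℚ L = p ^ n) ∧ B < Module.finrank ℚ L ∧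
      complexConjugation ∈ L.fixingSubgroup ∧
      (∀ q : ℕ, q.Prime → ∀ A : ValuationSubring Qb, A.LiesOverPrime q →
        A.inertiaSubgroupIn ℚ ⊓ K.fixingSubgroup ≤ L.fixingSubgroup) ∧
      ∀ q : Nat.Primes, q ∈ T → ∀ A : ValuationSubring Qb, A.LiesOverPrime (q : ℕ) →
        A.decompositionSubgroup ℚ ⊓ K.fixingSubgroup ≤ L.fixingSubgroup := fun B => by
    obtain ⟨G, _, _, ρ, hρ, hc, hρT', hB⟩ := exists_inClass_split_card_gt dvd_rfl hS hpos
      (fun q : {q // q ∈ T} => loc (q.1 : ℕ) (frobL (q.1 : ℕ))) (fun q => e q.1)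
      hωs hωc (fun q => by
        simp only [e]
        split_ifs with h
        · rw [h, one_pow]
        · exact hexp _)
      (by rw [if_neg hp.out.ne_zero, ← two_mul, Fintype.card_coe]; exact hcount) B
    have hρT : ∀ q ∈ T, ρ (loc (q : ℕ) (frobL (q : ℕ))) ^ e q = 1 := fun q hq => hρT' ⟨q, hq⟩
    obtain ⟨L, h1, h2, h3, h4, h5, h6, h7, h8⟩ :=
      exists_layer hS hρ hc hωc (exists_inertia_omega_ne hω)
        (hc.complexConjugation_eq_one hp2) (hωc.complexConjugation_eq_one hp2) hKf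
    refine ⟨L, h1, h2, h3, h4, hB.trans_le h5, h6, h7, fun q hq A hA g hg => ?_⟩
    obtain ⟨hgD, hgK⟩ := Subgroup.mem_inf.1 hg
    obtain ⟨τ, t, rfl⟩ := exists_conj_loc hA hgD
    have hωt : ω (loc (q : ℕ) t) = 1 := by
      have h := (hKf _).1 hgK
      rwa [map_mul, map_mul, map_inv, conj_eq_one_iff] at h
    have hρp : ρ (loc (q : ℕ) (frobL (q : ℕ))) ^ p = 1 := by
      have h := hρT q hq
      simp only [e] at h
      split_ifs at h with h'
      · rw [pow_one] at h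
        rw [h, one_pow]
      · exact h
    have hρ1 : ω (loc (q : ℕ) (frobL (q : ℕ))) = 1 → ρ (loc (q : ℕ) (frobL (q : ℕ))) = 1 :=
      fun h' => by
        have h := hρT q hq
        simp only [e, if_pos h', pow_one] at h
        exact h
    refine (h8 _).2 ⟨?_, (hKf _).1 hgK⟩
    rw [map_mul, map_mul, map_inv, eq_one_of_frob hc hωc (hT q hq) (hexp _) hρp hρ1 hωt, mul_one,
      mul_inv_cancel]
  refine ⟨K, hK, hKg, by
    rw [hKd, Nat.card_congr Multiplicative.toAdd, Nat.card_pi]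
    simp, (hKf _).2 (hωc.complexConjugation_eq_one hp2),
    fun q hq A hA => hωc.inertia_le (fun σ h => (hKf σ).2 h) hq hA, hL, ?_⟩
  obtain ⟨M, h1, h2, h3, h4⟩ := exists_infinite_of_unbounded (K := K)
    (T := {g | g = complexConjugation ∨
      (∃ q : ℕ, q.Prime ∧ ∃ A : ValuationSubring Qb, A.LiesOverPrime q ∧
        g ∈ A.inertiaSubgroupIn ℚ ⊓ K.fixingSubgroup) ∨
      ∃ q : Nat.Primes, q ∈ T ∧ ∃ A : ValuationSubring Qb, A.LiesOverPrime (q : ℕ) ∧
        g ∈ A.decompositionSubgroup ℚ ⊓ K.fixingSubgroup}) fun B => by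
    obtain ⟨L, hKL, -, hLg, -, hB, hc, hu, hd⟩ := hL B
    exact ⟨L, hKL, hLg, hB, fun g hg => by
      rcases hg with rfl | ⟨q, hq, A, hA, hg⟩ | ⟨q, hq, A, hA, hg⟩
      · exact hc
      · exact hu q hq A hA hg
      · exact hd q hq A hA hg⟩
  exact ⟨M, h1, h2, h3, h4 (Or.inl rfl),
    fun q hq A hA g hg => h4 (Or.inr (Or.inl ⟨q, hq, A, hA, hg⟩)),
    fun q hq A hA g hg => h4 (Or.inr (Or.inr ⟨q, hq, A, hA, hg⟩))⟩

end Fermat.Agent.GolodShafarevich
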